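import Fermat.Agent.CFT.Triv.ClassAt

/-!
# P3 / CFT, layer L4 (Formation): definitions for the contract exported to the Top layer

Everything is about a finite group `G`, a finite `G`-set `T`, the permutation lattice
`ℤ[T] = T →₀ ℤ` and a `G`-equivariant surjection `ε : T → V` onto a `ZMod p[G]`-module:

* `latAct T g` : the action of `g` on `ℤ[T]`;
* `aug V ε : ℤ[T] →+ V` : the augmentation `∑ n_t t ↦ ∑ n_t ε(t)`;
* `R1 V ε := ker (aug V ε)` (so `0 → R1 → ℤ[T] → V → 0` is the canonical `ℤ`-free resolution);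
* `HomG X D` : the `G`-equivariant additive maps from a `G`-stable sublattice `X ≤ ℤ[T]`
  to `D : Rep ℤ G`;
* `locTriv V Gw` : the classes of `H¹(G, V)` whose restriction to every `Gw i` is trivial.
-/

set_option autoImplicit false

open CategoryTheory groupCohomology

noncomputable section

namespace Fermat.Agent.CFT.Formation

variable {G : Type} [Group G]

section Lattice

variable (T : Type) [MulAction G T]

/-- The action of `g : G` on the permutation lattice `ℤ[T] = T →₀ ℤ`. -/
def latAct (g : G) : (T →₀ ℤ) →+ (T →₀ ℤ) :=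
  Finsupp.mapDomain.addMonoidHom (g • ·)

@[simp] lemma latAct_single (g : G) (t : T) (n : ℤ) :
    latAct T g (Finsupp.single t n) = Finsupp.single (g • t) n := by
  simp [latAct]

variable {T} {p : ℕ} (V : Rep.{0} (ZMod p) G) (ε : T → V)

/-- The augmentation `ℤ[T] →+ V`, `∑ n_t t ↦ ∑ n_t • ε t`. -/
def aug : (T →₀ ℤ) →+ V :=
  Finsupp.liftAddHom (fun t => (zmultiplesHom V) (ε t))

omit [MulAction G T] in
@[simp] lemma aug_single (t : T) (n : ℤ) : aug V ε (Finsupp.single t n) = n • ε t := by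
  simp [aug]

/-- `R₁ = ker(ℤ[T] → V)`. -/
def R1 : AddSubgroup (T →₀ ℤ) := (aug V ε).ker

omit [MulAction G T] in
lemma mem_R1_iff (r : T →₀ ℤ) : r ∈ R1 V ε ↔ aug V ε r = 0 := AddMonoidHom.mem_ker

/-- `Hom_G(X, D)` : additive maps from a sublattice `X ≤ ℤ[T]` to `D : Rep ℤ G` that commute
with the action of `G` (tested whenever `g • r` stays in `X`; `X` is `G`-stable in practice). -/
def HomG (X : AddSubgroup (T →₀ ℤ)) (D : Rep.{0} ℤ G) : AddSubgroup (X →+ D) where
  carrier := {a | ∀ (g : G) (r : X) (hr : latAct T g r ∈ X), a ⟨latAct T g r, hr⟩ = D.ρ g (a r)}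
  add_mem' := by
    intro a b ha hb g r hr
    simp only [AddMonoidHom.add_apply, map_add, ha g r hr, hb g r hr]
  zero_mem' := by
    intro g r hr
    simp
  neg_mem' := by
    intro a ha g r hr
    simp only [AddMonoidHom.neg_apply, map_neg, ha g r hr]

lemma mem_HomG_iff (X : AddSubgroup (T →₀ ℤ)) (D : Rep.{0} ℤ G) (a : X →+ D) :
    a ∈ HomG X D ↔
      ∀ (g : G) (r : X) (hr : latAct T g r ∈ X), a ⟨latAct T g r, hr⟩ = D.ρ g (a r) :=
  Iff.rfl

end Lattice

section LocTriv

variable {p : ℕ} (V : Rep.{0} (ZMod p) G) {ι : Type} (Gw : ι → Subgroup G)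

/-- The 1-cocycles of `V` that are coboundaries on every `Gw i`. -/
def locTrivCocycles : Submodule (ZMod p) (cocycles₁ V) where
  carrier := {c | ∀ i, ∃ m : V, ∀ g ∈ Gw i, c g = V.ρ g m - m}
  add_mem' := by
    intro c c' hc hc' i
    obtain ⟨m, hm⟩ := hc i
    obtain ⟨m', hm'⟩ := hc' i
    refine ⟨m + m', fun g hg => ?_⟩
    have h1 : (c + c') g = c g + c' g := rfl
    rw [h1, hm g hg, hm' g hg, map_add]
    abel
  zero_mem' := by
    intro i
    refine ⟨0, fun g _ => ?_⟩
    have h1 : (0 : cocycles₁ V) g = 0 := rfl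
    rw [h1, map_zero, sub_zero]
  smul_mem' := by
    intro a c hc i
    obtain ⟨m, hm⟩ := hc i
    refine ⟨a • m, fun g hg => ?_⟩
    have h1 : (a • c) g = a • c g := rfl
    rw [h1, hm g hg, map_smul, smul_sub]

/-- The classes of `H¹(G, V)` whose restriction to every `Gw i` is trivial. -/
def locTriv : Submodule (ZMod p) (groupCohomology.H1 V) :=
  (locTrivCocycles V Gw).map (H1π V).hom

end LocTriv

end Fermat.Agent.CFT.Formation

end
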