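import Mathlib

/-!
# Duality by hand: `Ĥ⁻¹(G, Hom(V, I_G / p))` against `H¹(G, V)`

`G` a finite group, `k` a field, `V` a `k[G]`-module (`ρ : Representation k G V`).  The module
`Hom_k(V, I_G ⊗ k)` is the space `augY` of families `(e_g)_{g ∈ G}` of functionals on `V` with
`∑ e_g = 0`, with `G` acting by `(h • e)_g = e_(h⁻¹ g) ∘ h⁻¹` (`act`); the kernel of its norm is
`kerN` (`∑ e_g = 0` and `∑ e_g ∘ g = 0`) and `IY` is `I_G · augY`.  The pairing
`pair e x = ∑ g, e_g (x g)` with functions `x : G → V` satisfies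

* `pair_eq_zero_of_mem_B1`  : `kerN ⊥ B¹`;
* `pair_eq_zero_of_mem_IY`  : `I_G · Y ⊥ Z¹`;
* `mem_B1_of_forall_pair_eq_zero` : a cocycle orthogonal to `kerN` is a coboundary;
* `mem_IY_of_forall_pair_eq_zero` : a family in `augY` orthogonal to `Z¹` lies in `I_G · Y`
  (`V` finite dimensional);
* `exists_mem_kerN_pair_eq` : every functional on `Z¹` killing `B¹` is `pair e ·`, `e ∈ kerN`;
* `pair_extZero`, `extZero_mem_kerN` : compatibility with restriction to a subgroup
  (`⟨incl e', x⟩_G = ⟨e', res x⟩_H`).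

`pairHom : kerN → Dual (Z¹)` packages this: `range_pairHom`, `ker_pairHom`.
Everything is stated with explicit functions; no `Rep`, no Tate cohomology.
-/

set_option autoImplicit false
set_option linter.unusedSectionVars false

namespace Fermat.Agent.CFT.Formation.DualHand

open Module

variable {k : Type*} [Field k] {G : Type*} [Group G] [Fintype G] {V : Type*} [AddCommGroup V]
  [Module k V] (ρ : Representation k G V)


/-- The pairing between families of functionals and functions `G → V`. -/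
def pair (e : G → Dual k V) (x : G → V) : k := ∑ g, e g (x g)

omit [Group G] in
theorem pair_add_left (e e' : G → Dual k V) (x : G → V) :
    pair (e + e') x = pair e x + pair e' x := by
  simp [pair, Finset.sum_add_distrib]

omit [Group G] in
theorem pair_sub_left (e e' : G → Dual k V) (x : G → V) :
    pair (e - e') x = pair e x - pair e' x := by
  simp [pair, Finset.sum_sub_distrib]

omit [Group G] in
theorem pair_smul_left (c : k) (e : G → Dual k V) (x : G → V) :
    pair (c • e) x = c * pair e x := by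
  simp [pair, Finset.mul_sum]

omit [Group G] in
theorem pair_add_right (e : G → Dual k V) (x y : G → V) :
    pair e (x + y) = pair e x + pair e y := by
  simp [pair, Finset.sum_add_distrib]

omit [Group G] in
theorem pair_smul_right (c : k) (e : G → Dual k V) (x : G → V) :
    pair e (c • x) = c * pair e x := by
  simp [pair, Finset.mul_sum]

/-- The pairing with a fixed family, as a linear functional. -/
def pairL (e : G → Dual k V) : (G → V) →ₗ[k] k where
  toFun x := pair e x
  map_add' x y := pair_add_right e x y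
  map_smul' c x := pair_smul_right c e x

omit [Group G] in
/-- Every functional on `G → V` is the pairing with a family. -/
theorem exists_pair_eq (Φ : (G → V) →ₗ[k] k) : ∃ e : G → Dual k V, ∀ x, Φ x = pair e x := by
  classical
  refine ⟨fun g => Φ ∘ₗ LinearMap.single k (fun _ : G => V) g, fun x => ?_⟩
  conv_lhs => rw [← Finset.univ_sum_single x]
  rw [map_sum]
  rfl

/-- The `1`-cocycles. -/
def Z1 : Submodule k (G → V) where
  carrier := {x | ∀ g h, x (g * h) = x g + ρ g (x h)}
  add_mem' := by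
    intro x y hx hy g h
    simp only [Pi.add_apply, hx g h, hy g h, map_add]
    abel
  zero_mem' := by
    intro g h
    simp
  smul_mem' := by
    intro c x hx g h
    simp only [Pi.smul_apply, hx g h, smul_add, map_smul]

/-- The `1`-coboundaries. -/
def B1 : Submodule k (G → V) where
  carrier := {x | ∃ m, ∀ g, x g = ρ g m - m}
  add_mem' := by
    rintro x y ⟨m, hm⟩ ⟨m', hm'⟩
    refine ⟨m + m', fun g => ?_⟩
    simp only [Pi.add_apply, hm g, hm' g, map_add]
    abel
  zero_mem' := ⟨0, fun g => by simp⟩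
  smul_mem' := by
    rintro c x ⟨m, hm⟩
    refine ⟨c • m, fun g => ?_⟩
    simp only [Pi.smul_apply, hm g, smul_sub, map_smul]

theorem B1_le_Z1 : B1 ρ ≤ Z1 ρ := by
  rintro x ⟨m, hm⟩ g h
  simp only [hm, map_mul, Module.End.mul_apply, map_sub]
  abel

/-- The functions `g ↦ c + g m`. -/
def W : Submodule k (G → V) where
  carrier := {x | ∃ c m, ∀ g, x g = c + ρ g m}
  add_mem' := by
    rintro x y ⟨c, m, hm⟩ ⟨c', m', hm'⟩
    refine ⟨c + c', m + m', fun g => ?_⟩
    simp only [Pi.add_apply, hm g, hm' g, map_add]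
    abel
  zero_mem' := ⟨0, 0, fun g => by simp⟩
  smul_mem' := by
    rintro a x ⟨c, m, hm⟩
    refine ⟨a • c, a • m, fun g => ?_⟩
    simp only [Pi.smul_apply, hm g, smul_add, map_smul]

theorem mem_B1_of_mem_Z1_of_mem_W {x : G → V} (hx : x ∈ Z1 ρ) (hW : x ∈ W ρ) : x ∈ B1 ρ := by
  obtain ⟨c, m, hm⟩ := hW
  have h1 : x 1 = 0 := by
    have := hx 1 1
    simp only [mul_one, map_one, Module.End.one_apply] at this
    exact left_eq_add.mp this
  have h2 : c = -m := by
    have := hm 1
    rw [h1, map_one, Module.End.one_apply] at this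
    exact eq_neg_of_add_eq_zero_left this.symm
  refine ⟨m, fun g => ?_⟩
  rw [hm g, h2]
  abel

/-- The kernel of the norm on `Hom(V, I/p)`: families with `∑ e_g = 0` and `∑ e_g ∘ g = 0`. -/
def kerN : Submodule k (G → Dual k V) where
  carrier := {e | ∑ g, e g = 0 ∧ ∑ g, (e g) ∘ₗ (ρ g) = 0}
  add_mem' := by
    rintro e e' ⟨h1, h2⟩ ⟨h1', h2'⟩
    refine ⟨?_, ?_⟩
    · simp only [Pi.add_apply, Finset.sum_add_distrib, h1, h1', add_zero]
    · simp only [Pi.add_apply, LinearMap.add_comp, Finset.sum_add_distrib, h2, h2', add_zero]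
  zero_mem' := by
    refine ⟨by simp, by simp⟩
  smul_mem' := by
    rintro c e ⟨h1, h2⟩
    refine ⟨?_, ?_⟩
    · simp only [Pi.smul_apply, ← Finset.smul_sum, h1, smul_zero]
    · simp only [Pi.smul_apply, LinearMap.smul_comp, ← Finset.smul_sum, h2, smul_zero]

theorem mem_kerN_iff (e : G → Dual k V) :
    e ∈ kerN ρ ↔ ∑ g, e g = 0 ∧ ∑ g, (e g) ∘ₗ (ρ g) = 0 := Iff.rfl

omit [Group G] in
theorem pair_const (e : G → Dual k V) (c : V) : pair e (fun _ => c) = (∑ g, e g) c := by
  simp [pair, LinearMap.sum_apply]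

theorem pair_orbit (e : G → Dual k V) (m : V) :
    pair e (fun g => ρ g m) = (∑ g, (e g) ∘ₗ (ρ g)) m := by
  simp [pair, LinearMap.sum_apply]

/-- `kerN` is the annihilator of `W`. -/
theorem mem_kerN_iff_forall (e : G → Dual k V) :
    e ∈ kerN ρ ↔ ∀ x ∈ W ρ, pair e x = 0 := by
  constructor
  · rintro ⟨h1, h2⟩ x ⟨c, m, hm⟩
    have hx : x = (fun _ => c) + (fun g => ρ g m) := by
      ext g
      exact hm g
    rw [hx, pair_add_right, pair_const, pair_orbit, h1, h2]
    simp
  · intro h
    refine ⟨?_, ?_⟩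
    · ext c
      have := h (fun _ => c) ⟨c, 0, fun g => by simp⟩
      rw [pair_const] at this
      simpa using this
    · ext m
      have := h (fun g => ρ g m) ⟨0, m, fun g => by simp⟩
      rw [pair_orbit] at this
      simpa using this

/-- (P1) The pairing of `kerN` with coboundaries vanishes. -/
theorem pair_eq_zero_of_mem_B1 {e : G → Dual k V} (he : e ∈ kerN ρ) {x : G → V}
    (hx : x ∈ B1 ρ) : pair e x = 0 := by
  obtain ⟨m, hm⟩ := hx
  exact (mem_kerN_iff_forall ρ e).mp he x ⟨-m, m, fun g => by rw [hm g]; abel⟩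

/-- (P3) A cocycle orthogonal to `kerN` is a coboundary. -/
theorem mem_B1_of_forall_pair_eq_zero {x : G → V} (hx : x ∈ Z1 ρ)
    (h : ∀ e ∈ kerN ρ, pair e x = 0) : x ∈ B1 ρ := by
  refine mem_B1_of_mem_Z1_of_mem_W ρ hx ?_
  by_contra hW
  obtain ⟨Φ, hΦx, hΦW⟩ := Submodule.exists_dual_map_eq_bot_of_notMem hW inferInstance
  obtain ⟨e, he⟩ := exists_pair_eq Φ
  have hek : e ∈ kerN ρ := by
    rw [mem_kerN_iff_forall]
    intro y hy
    rw [← he y]
    have : Φ y ∈ (W ρ).map Φ := Submodule.mem_map_of_mem hy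
    rw [hΦW] at this
    simpa using this
  exact hΦx (by rw [he x]; exact h e hek)

/-- (P5) Every functional on the cocycles that kills the coboundaries is the pairing with an
element of `kerN`. -/
theorem exists_mem_kerN_pair_eq (φ : Z1 ρ →ₗ[k] k)
    (hφ : ∀ x : Z1 ρ, (x : G → V) ∈ B1 ρ → φ x = 0) :
    ∃ e ∈ kerN ρ, ∀ x : Z1 ρ, φ x = pair e (x : G → V) := by
  let ι : Z1 ρ →ₗ[k] (G → V) ⧸ W ρ := (W ρ).mkQ ∘ₗ (Z1 ρ).subtype
  have h1 : φ ∈ (LinearMap.ker ι).dualAnnihilator := by
    rw [Submodule.mem_dualAnnihilator]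
    intro x hx
    refine hφ x (mem_B1_of_mem_Z1_of_mem_W ρ x.2 ?_)
    have : (W ρ).mkQ (x : G → V) = 0 := hx
    rwa [Submodule.mkQ_apply, Submodule.Quotient.mk_eq_zero] at this
  rw [← LinearMap.range_dualMap_eq_dualAnnihilator_ker] at h1
  obtain ⟨ψ, hψ⟩ := h1
  obtain ⟨e, he⟩ := exists_pair_eq (ψ ∘ₗ (W ρ).mkQ)
  refine ⟨e, ?_, fun x => ?_⟩
  · rw [mem_kerN_iff_forall]
    intro y hy
    rw [← he y]
    have : (W ρ).mkQ y = 0 := by
      rw [Submodule.mkQ_apply, Submodule.Quotient.mk_eq_zero]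
      exact hy
    simp [this]
  · rw [← he, ← hψ]
    rfl


/-- The conjugation action on families: `(h • e)_g = e_(h⁻¹ g) ∘ h⁻¹`. -/
def act (h : G) (e : G → Dual k V) : G → Dual k V := fun g => (e (h⁻¹ * g)) ∘ₗ ρ h⁻¹

/-- Families with `∑ e_g = 0` (this is `Hom(V, I/p)`). -/
def augY : Submodule k (G → Dual k V) where
  carrier := {e | ∑ g, e g = 0}
  add_mem' := by
    intro e e' h1 h1'
    simp only [Set.mem_ofPred_eq, Pi.add_apply, Finset.sum_add_distrib] at *
    rw [h1, h1', add_zero]
  zero_mem' := by simp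
  smul_mem' := by
    intro c e h1
    simp only [Set.mem_ofPred_eq, Pi.smul_apply, ← Finset.smul_sum] at *
    rw [h1, smul_zero]

omit [Group G] in
theorem mem_augY_iff (e : G → Dual k V) : e ∈ augY (k := k) (G := G) (V := V) ↔ ∑ g, e g = 0 :=
  Iff.rfl

theorem kerN_le_augY : kerN ρ ≤ augY := fun _ he => he.1

/-- `I_G · Hom(V, I/p)`. -/
def IY : Submodule k (G → Dual k V) :=
  Submodule.span k {d | ∃ h : G, ∃ e ∈ augY (k := k) (G := G) (V := V), d = act ρ h e - e}

theorem pair_act (h : G) (e : G → Dual k V) (x : G → V) :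
    pair (act ρ h e) x = pair e (fun g => ρ h⁻¹ (x (h * g))) := by
  unfold pair act
  rw [← Equiv.sum_comp (Equiv.mulLeft h)]
  refine Finset.sum_congr rfl fun g _ => ?_
  simp

/-- (P2) The pairing of `I_G · Y` with cocycles vanishes. -/
theorem pair_eq_zero_of_mem_IY {e : G → Dual k V} (he : e ∈ IY ρ) {x : G → V}
    (hx : x ∈ Z1 ρ) : pair e x = 0 := by
  refine Submodule.span_induction (p := fun e _ => pair e x = 0) ?_ ?_ ?_ ?_ he
  · rintro d ⟨h, e, he, rfl⟩
    rw [pair_sub_left, pair_act]
    have h1 : (fun g => ρ h⁻¹ (x (h * g))) = (fun _ => ρ h⁻¹ (x h)) + x := by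
      ext g
      have := hx h g
      simp only [Pi.add_apply, this, map_add]
      rw [← Module.End.mul_apply, ← map_mul, inv_mul_cancel, map_one, Module.End.one_apply]
    rw [h1, pair_add_right, pair_const, (mem_augY_iff e).mp he]
    simp
  · simp [pair]
  · intro e e' _ _ h1 h2
    rw [pair_add_left, h1, h2, add_zero]
  · intro c e _ h1
    rw [pair_smul_left, h1, mul_zero]

theorem IY_le_augY : IY ρ ≤ augY := by
  refine Submodule.span_le.mpr ?_
  rintro d ⟨h, e, he, rfl⟩
  refine Submodule.sub_mem _ ?_ he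
  rw [mem_augY_iff] at he ⊢
  unfold act
  rw [← Equiv.sum_comp (Equiv.mulLeft h)]
  simp only [Equiv.coe_mulLeft, inv_mul_cancel_left]
  have h1 : ∑ x, e x ∘ₗ ρ h⁻¹ = (∑ x, e x) ∘ₗ ρ h⁻¹ := by
    ext v
    simp [LinearMap.sum_apply]
  rw [h1, he, LinearMap.zero_comp]

/-- The elementary family `δ_g φ - δ_1 φ`. -/
theorem forall_apply_eq_of_forall_pair [DecidableEq G] (u : G → V)
    (h : ∀ e ∈ augY (k := k) (G := G) (V := V), pair e u = 0) (g : G) : u g = u 1 := by
  rw [← sub_eq_zero, ← Module.forall_dual_apply_eq_zero_iff k]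
  intro φ
  have h1 := h (Pi.single g φ - Pi.single 1 φ) (by
    rw [mem_augY_iff]
    simp [Finset.sum_sub_distrib, Finset.sum_pi_single'])
  rw [pair_sub_left] at h1
  simp only [pair, Pi.single_apply] at h1
  have h2 : ∀ a : G, (∑ x : G, (if x = a then φ else (0 : Dual k V)) (u x)) = φ (u a) := by
    intro a
    rw [Finset.sum_eq_single a]
    · simp
    · intro b _ hb
      simp [hb]
    · intro ha
      exact absurd (Finset.mem_univ a) ha
  rw [h2, h2] at h1
  rw [map_sub]
  exact h1

/-- (P4) A family with `∑ e_g = 0` orthogonal to all cocycles lies in `I_G · Y`. -/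
theorem mem_IY_of_forall_pair_eq_zero [Module.Finite k V] {e : G → Dual k V}
    (he : e ∈ augY (k := k) (G := G) (V := V)) (h : ∀ x ∈ Z1 ρ, pair e x = 0) : e ∈ IY ρ := by
  classical
  by_contra hI
  obtain ⟨Ψ, hΨe, hΨI⟩ := Submodule.exists_dual_map_eq_bot_of_notMem hI inferInstance
  obtain ⟨E, hE⟩ := exists_pair_eq Ψ
  let x : G → V := fun g => (Module.evalEquiv k V).symm (E g)
  have hx : ∀ e' : G → Dual k V, Ψ e' = pair e' x := by
    intro e'
    rw [hE]
    refine Finset.sum_congr rfl fun g _ => ?_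
    have h1 : E g = Module.evalEquiv k V (x g) := by simp [x]
    rw [h1, Module.evalEquiv_apply]
    rfl
  have hΨ0 : ∀ d ∈ IY ρ, pair d x = 0 := by
    intro d hd
    rw [← hx]
    exact (Submodule.eq_bot_iff _).mp hΨI _ (Submodule.mem_map_of_mem hd)
  -- `x` is a cocycle plus a constant
  have hcoc : ∀ a g : G, ρ a⁻¹ (x (a * g)) - x g = ρ a⁻¹ (x a) - x 1 := by
    intro a g
    have h1 := forall_apply_eq_of_forall_pair (k := k) (fun g => ρ a⁻¹ (x (a * g)) - x g) (by
      intro e' he'
      have h2 := hΨ0 (act ρ a e' - e') (Submodule.subset_span ⟨a, e', he', rfl⟩)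
      rw [pair_sub_left, pair_act] at h2
      have h3 : pair e' (fun g => ρ a⁻¹ (x (a * g)) - x g) =
          pair e' (fun g => ρ a⁻¹ (x (a * g))) - pair e' x := by
        simp [pair, Finset.sum_sub_distrib]
      rw [h3]
      exact h2) g
    simpa using h1
  have hy : (fun g => x g - x 1) ∈ Z1 ρ := by
    intro a g
    have h1 := hcoc a g
    have h2 : x (a * g) = ρ a (x g) + x a - ρ a (x 1) := by
      have h3 := congrArg (ρ a) h1
      simp only [map_sub] at h3
      rw [← Module.End.mul_apply, ← map_mul, mul_inv_cancel, map_one, Module.End.one_apply,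
        ← Module.End.mul_apply, ← map_mul, mul_inv_cancel, map_one, Module.End.one_apply] at h3
      rw [sub_eq_sub_iff_add_eq_add] at h3
      rw [eq_sub_iff_add_eq, h3]
      abel
    simp only [h2, map_sub]
    abel
  apply hΨe
  rw [hx]
  have h4 : x = (fun g => x g - x 1) + (fun _ => x 1) := by
    ext g
    simp
  rw [h4, pair_add_right, h _ hy, pair_const, (mem_augY_iff e).mp he]
  simp


section Restriction

variable (H : Subgroup G) [DecidablePred (· ∈ H)] [Fintype H]

/-- Extension by zero of a family indexed by a subgroup. -/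
def extZero (e' : H → Dual k V) : G → Dual k V :=
  fun g => if hg : g ∈ H then e' ⟨g, hg⟩ else 0

theorem extZero_apply_coe (e' : H → Dual k V) (h : H) : extZero H e' (h : G) = e' h := by
  simp [extZero]

theorem extZero_apply_of_notMem (e' : H → Dual k V) {g : G} (hg : g ∉ H) :
    extZero H e' g = 0 := by
  simp [extZero, hg]

theorem sum_extZero {M : Type*} [AddCommMonoid M] (e' : H → Dual k V) (F : G → Dual k V → M)
    (hF : ∀ g, F g 0 = 0) : ∑ g, F g (extZero H e' g) = ∑ h : H, F (h : G) (e' h) := by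
  symm
  refine Fintype.sum_of_injective (fun h : H => (h : G)) Subtype.val_injective _ _ ?_ ?_
  · intro g hg
    have : g ∉ H := fun h => hg ⟨⟨g, h⟩, rfl⟩
    rw [extZero_apply_of_notMem H e' this, hF]
  · intro h
    rw [extZero_apply_coe]

/-- (P6) The pairing of an extended family is the pairing with the restricted function. -/
theorem pair_extZero (e' : H → Dual k V) (x : G → V) :
    pair (extZero H e') x = pair e' (fun h : H => x (h : G)) := by
  unfold pair
  exact sum_extZero H e' (fun g φ => φ (x g)) (fun g => by simp)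

/-- Extension by zero maps the kernel of the norm for `H` into the kernel of the norm for `G`. -/
theorem extZero_mem_kerN {e' : H → Dual k V}
    (he' : e' ∈ kerN (ρ.comp H.subtype)) : extZero H e' ∈ kerN ρ := by
  obtain ⟨h1, h2⟩ := he'
  refine ⟨?_, ?_⟩
  · rw [sum_extZero H e' (fun _ φ => φ) (fun _ => rfl)]
    exact h1
  · rw [sum_extZero H e' (fun g φ => φ ∘ₗ ρ g) (fun g => by simp)]
    exact h2

end Restriction

section Quotients

/-- The map `kerN → Dual (Z¹)`, `e ↦ ⟨e, ·⟩`. -/
def pairHom : kerN ρ →ₗ[k] Dual k (Z1 ρ) where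
  toFun e := (pairL (e : G → Dual k V)) ∘ₗ (Z1 ρ).subtype
  map_add' e e' := by
    ext x
    simp [pairL, pair_add_left]
  map_smul' c e := by
    ext x
    simp [pairL, pair_smul_left]

theorem pairHom_apply (e : kerN ρ) (x : Z1 ρ) :
    pairHom ρ e x = pair (e : G → Dual k V) (x : G → V) := rfl

/-- The image of `pairHom` is exactly the functionals killing the coboundaries. -/
theorem range_pairHom (φ : Dual k (Z1 ρ)) :
    φ ∈ LinearMap.range (pairHom ρ) ↔ ∀ x : Z1 ρ, (x : G → V) ∈ B1 ρ → φ x = 0 := by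
  constructor
  · rintro ⟨e, rfl⟩ x hx
    rw [pairHom_apply]
    exact pair_eq_zero_of_mem_B1 ρ e.2 hx
  · intro h
    obtain ⟨e, he, hφ⟩ := exists_mem_kerN_pair_eq ρ φ h
    refine ⟨⟨e, he⟩, ?_⟩
    ext x
    rw [pairHom_apply, hφ]

/-- The kernel of `pairHom` is `I_G · Y` (for finite dimensional `V`). -/
theorem ker_pairHom [Module.Finite k V] (e : kerN ρ) :
    pairHom ρ e = 0 ↔ (e : G → Dual k V) ∈ IY ρ := by
  constructor
  · intro h
    refine mem_IY_of_forall_pair_eq_zero ρ (kerN_le_augY ρ e.2) fun x hx => ?_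
    have := LinearMap.congr_fun h ⟨x, hx⟩
    rwa [pairHom_apply] at this
  · intro h
    ext x
    rw [pairHom_apply, pair_eq_zero_of_mem_IY ρ h x.2]
    rfl

end Quotients

end Fermat.Agent.CFT.Formation.DualHand
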