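import Fermat.Agent.CFT.Formation.Setup

/-!
# P3 / CFT, layer L4 (Formation), leaf [F2]: the `E`-map

`epsMap V ε hε hsurj : homRep (r1Rep V ε hε) (augRep G) ⟶ eRep V`, the connecting map
`Hom(R₁, I_G) ⟶ E = Hom(V, I_G / p)` of the sequence `0 → R₁ → ℤ[T] → V → 0`:

  `ε(θ)_g (aug r) = (θ (p • r))_g mod p`.

* `epsMap_apply` : the defining formula;
* `epsMap_surjective` : every family of `E` occurs;
* `epsMap_eq_zero_iff` : the kernel is the set of restrictions of additive maps `ℤ[T] → I_G`;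
* `comp_subtype_injective` : restriction `Hom(ℤ[T], I_G) → Hom(R₁, I_G)` is injective.
-/

set_option autoImplicit false
set_option linter.unusedSectionVars false
open CategoryTheory groupCohomology
open Fermat.Agent.CFT.Triv Fermat.Agent.CFT.Formation

noncomputable section

namespace Fermat.Agent.CFT.Formation

variable {G : Type} [Group G]

/-! ### [F2] EMap.lean -/
namespace EMap

variable [Fintype G] {p : ℕ} [Fact p.Prime] {T : Type} [MulAction G T]

/-! #### Helper lemmas -/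

/-- The augmentation of `ℤ[G]` is the sum of the coefficients. -/
lemma augMap_eq_sum (y : G →₀ ℤ) : augMap G y = ∑ g : G, y g := by
  rw [augMap, Finsupp.linearCombination_apply, Finsupp.sum_fintype _ _ (fun _ => by simp)]
  simp

/-- `p • r ∈ R₁` for every `r : ℤ[T]`. -/
lemma nsmul_mem_R1 (V : Rep.{0} (ZMod p) G) (ε : T → V) (r : T →₀ ℤ) : p • r ∈ R1 V ε := by
  rw [mem_R1_iff, map_nsmul]
  exact ZModModule.char_nsmul_eq_zero p _

lemma aug_surjective (V : Rep.{0} (ZMod p) G) (ε : T → V) (hsurj : Function.Surjective ε) :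
    Function.Surjective (aug V ε) := by
  intro v
  obtain ⟨t, rfl⟩ := hsurj v
  exact ⟨Finsupp.single t 1, by simp⟩

/-- Multiplication by `p`, as a map `ℤ[T] →+ R₁`. -/
def pMul (V : Rep.{0} (ZMod p) G) (ε : T → V) : (T →₀ ℤ) →+ R1 V ε :=
  AddMonoidHom.mk' (fun r => ⟨p • r, nsmul_mem_R1 V ε r⟩) (fun r r' => by
    ext1
    simp)

@[simp] lemma pMul_coe (V : Rep.{0} (ZMod p) G) (ε : T → V) (r : T →₀ ℤ) :
    ((pMul V ε r : R1 V ε) : T →₀ ℤ) = p • r := rfl

lemma pMul_coe_R1 (V : Rep.{0} (ZMod p) G) (ε : T → V) (x : R1 V ε) :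
    pMul V ε (x : T →₀ ℤ) = p • x := by
  ext1
  simp

/-- The coefficient at `g`, reduced mod `p`, as a map `I_G →+ ZMod p`. -/
def coefP (p : ℕ) (g : G) : LinearMap.ker (augMap G) →+ ZMod p :=
  AddMonoidHom.mk' (fun y => ((((y : LinearMap.ker (augMap G)) : G →₀ ℤ) g : ℤ) : ZMod p))
    (fun y y' => by simp)

@[simp] lemma coefP_apply (g : G) (y : LinearMap.ker (augMap G)) :
    coefP p g y = ((((y : LinearMap.ker (augMap G)) : G →₀ ℤ) g : ℤ) : ZMod p) := rfl

lemma coefP_nsmul (g : G) (y : LinearMap.ker (augMap G)) : coefP p g (p • y) = 0 := by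
  rw [map_nsmul]
  exact ZModModule.char_nsmul_eq_zero p _

/-- `I_G` has no `p`-torsion. -/
lemma ker_nsmul_cancel (y z : LinearMap.ker (augMap G)) (h : p • y = p • z) : y = z := by
  have hp : (p : ℤ) ≠ 0 := by exact_mod_cast (Fact.out : p.Prime).ne_zero
  ext g
  have h1 : (((p • y : LinearMap.ker (augMap G)) : G →₀ ℤ) g) =
      (((p • z : LinearMap.ker (augMap G)) : G →₀ ℤ) g) := by rw [h]
  simp only [Submodule.coe_smul_of_tower, Finsupp.smul_apply, nsmul_eq_mul] at h1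
  exact mul_left_cancel₀ hp h1

/-- An element of `I_G` all of whose coefficients are divisible by `p` is `p` times an element
of `I_G`. -/
lemma exists_nsmul_eq (y : LinearMap.ker (augMap G))
    (hy : ∀ g : G, (p : ℤ) ∣ ((y : LinearMap.ker (augMap G)) : G →₀ ℤ) g) :
    ∃ z : LinearMap.ker (augMap G), p • z = y := by
  have hp : (p : ℤ) ≠ 0 := by exact_mod_cast (Fact.out : p.Prime).ne_zero
  choose k hk using hy
  have hpk : p • (Finsupp.equivFunOnFinite.symm k : G →₀ ℤ) = (y : G →₀ ℤ) := by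
    ext g
    simp [hk g]
  have hz : (Finsupp.equivFunOnFinite.symm k : G →₀ ℤ) ∈ LinearMap.ker (augMap G) := by
    rw [LinearMap.mem_ker]
    have h1 : (p : ℤ) * augMap G (Finsupp.equivFunOnFinite.symm k) = 0 := by
      have h2 : augMap G (p • (Finsupp.equivFunOnFinite.symm k : G →₀ ℤ)) = 0 := by
        rw [hpk]
        exact y.2
      rw [map_nsmul, nsmul_eq_mul] at h2
      exact h2
    exact (mul_eq_zero.mp h1).resolve_left hp
  refine ⟨⟨_, hz⟩, ?_⟩
  ext1
  exact hpk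

/-- Division by `p` of an additive map into `I_G` with coefficients divisible by `p`. -/
lemma exists_div {A : Type} [AddCommGroup A] (F : A →+ LinearMap.ker (augMap G))
    (hF : ∀ (a : A) (g : G), (p : ℤ) ∣ ((F a : LinearMap.ker (augMap G)) : G →₀ ℤ) g) :
    ∃ θ : A →+ LinearMap.ker (augMap G), ∀ a, p • θ a = F a := by
  choose z hz using fun a => exists_nsmul_eq (p := p) (F a) (hF a)
  refine ⟨AddMonoidHom.mk' z (fun a b => ?_), hz⟩
  apply ker_nsmul_cancel (p := p)
  rw [nsmul_add, hz, hz, hz, map_add]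

/-- The coefficients of a translate in `ℤ[G]`. -/
lemma regRho_coef (a g : G) (y : G →₀ ℤ) : regRho G a y g = y (a⁻¹ * g) := by
  have h1 : regRho G a y = Finsupp.mapDomain (a * ·) y := rfl
  have h2 := Finsupp.mapDomain_apply (mul_right_injective a) y (a⁻¹ * g)
  rw [h1]
  simpa only [mul_inv_cancel_left] using h2

/-! #### The construction -/

section Construction

variable (V : Rep.{0} (ZMod p) G) (ε : T → V)

/-- `r ↦ (θ (p • r))_g mod p`, as a map `ℤ[T] →+ ZMod p`. -/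
def psi (θ : R1 V ε →+ LinearMap.ker (augMap G)) (g : G) : (T →₀ ℤ) →+ ZMod p :=
  (coefP p g).comp (θ.comp (pMul V ε))

lemma psi_apply (θ : R1 V ε →+ LinearMap.ker (augMap G)) (g : G) (r : T →₀ ℤ) :
    psi V ε θ g r =
      ((((θ (pMul V ε r) : LinearMap.ker (augMap G)) : G →₀ ℤ) g : ℤ) : ZMod p) := rfl

lemma psi_eq_zero_of_mem (θ : R1 V ε →+ LinearMap.ker (augMap G)) (g : G) {r : T →₀ ℤ}
    (hr : r ∈ R1 V ε) : psi V ε θ g r = 0 := by
  have h1 : pMul V ε r = p • (⟨r, hr⟩ : R1 V ε) := pMul_coe_R1 V ε ⟨r, hr⟩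
  change coefP p g (θ (pMul V ε r)) = 0
  rw [h1, map_nsmul]
  exact coefP_nsmul g _

lemma psi_eq_of_aug_eq (θ : R1 V ε →+ LinearMap.ker (augMap G)) (g : G) {r r' : T →₀ ℤ}
    (h : aug V ε r = aug V ε r') : psi V ε θ g r = psi V ε θ g r' := by
  have h1 : r - r' ∈ R1 V ε := by
    rw [mem_R1_iff, map_sub, h, sub_self]
  have h2 := psi_eq_zero_of_mem V ε θ g h1
  rw [map_sub, sub_eq_zero] at h2
  exact h2

lemma sum_psi (θ : R1 V ε →+ LinearMap.ker (augMap G)) (r : T →₀ ℤ) :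
    ∑ g : G, psi V ε θ g r = 0 := by
  simp only [psi_apply]
  rw [← Int.cast_sum, ← augMap_eq_sum]
  have h1 : augMap G ((θ (pMul V ε r) : LinearMap.ker (augMap G)) : G →₀ ℤ) = 0 :=
    (θ (pMul V ε r)).2
  rw [h1, Int.cast_zero]

variable (hsurj : Function.Surjective ε)

/-- A set-theoretic section of the augmentation `ℤ[T] → V`. -/
def augSec (v : V) : T →₀ ℤ := Function.surjInv (aug_surjective V ε hsurj) v

lemma aug_augSec (v : V) : aug V ε (augSec V ε hsurj v) = v :=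
  Function.surjInv_eq (aug_surjective V ε hsurj) v

/-- The component `ε(θ)_g : V →+ ZMod p`. -/
def epsComp (θ : R1 V ε →+ LinearMap.ker (augMap G)) (g : G) : V →+ ZMod p :=
  AddMonoidHom.mk' (fun v => psi V ε θ g (augSec V ε hsurj v))
    (fun v w => by
      rw [← map_add]
      apply psi_eq_of_aug_eq
      rw [map_add, aug_augSec, aug_augSec, aug_augSec])

lemma epsComp_aug (θ : R1 V ε →+ LinearMap.ker (augMap G)) (g : G) (r : T →₀ ℤ) :
    epsComp V ε hsurj θ g (aug V ε r) = psi V ε θ g r := by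
  change psi V ε θ g (augSec V ε hsurj (aug V ε r)) = _
  apply psi_eq_of_aug_eq
  rw [aug_augSec]

lemma sum_epsComp (θ : R1 V ε →+ LinearMap.ker (augMap G)) :
    ∑ g : G, (epsComp V ε hsurj θ g).toZModLinearMap p = 0 := by
  ext v
  obtain ⟨r, rfl⟩ := aug_surjective V ε hsurj v
  simp only [LinearMap.sum_apply, AddMonoidHom.coe_toZModLinearMap, epsComp_aug,
    LinearMap.zero_apply]
  exact sum_psi V ε θ r

/-- The `E`-map as an additive map. -/
def epsAdd : (R1 V ε →+ LinearMap.ker (augMap G)) →+ eSub V :=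
  AddMonoidHom.mk'
    (fun θ => ⟨fun g => (epsComp V ε hsurj θ g).toZModLinearMap p, sum_epsComp V ε hsurj θ⟩)
    (fun θ θ' => by
      refine Subtype.ext (funext fun g => LinearMap.ext fun v => ?_)
      obtain ⟨r, rfl⟩ := aug_surjective V ε hsurj v
      change epsComp V ε hsurj (θ + θ') g (aug V ε r) =
        epsComp V ε hsurj θ g (aug V ε r) + epsComp V ε hsurj θ' g (aug V ε r)
      rw [epsComp_aug, epsComp_aug, epsComp_aug]
      simp [psi_apply])

lemma epsAdd_apply (θ : R1 V ε →+ LinearMap.ker (augMap G)) (g : G) (r : T →₀ ℤ) :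
    (epsAdd V ε hsurj θ).1 g (aug V ε r) = psi V ε θ g r :=
  epsComp_aug V ε hsurj θ g r

lemma psi_conj (hε : ∀ (g : G) (t : T), ε (g • t) = V.ρ g (ε t))
    (θ : R1 V ε →+ LinearMap.ker (augMap G)) (a g : G) (r : T →₀ ℤ) :
    psi V ε ((homRep (r1Rep V ε hε) (augRep G)).ρ a θ) g r =
      psi V ε θ (a⁻¹ * g) (latAct T a⁻¹ r) := by
  have h2 : r1Act V ε hε a⁻¹ (pMul V ε r) = pMul V ε (latAct T a⁻¹ r) := by
    ext1
    simp
  have h3 : (((augRho G a (θ (r1Act V ε hε a⁻¹ (pMul V ε r))) : LinearMap.ker (augMap G)) :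
      G →₀ ℤ) g) =
      ((θ (pMul V ε (latAct T a⁻¹ r)) : LinearMap.ker (augMap G)) : G →₀ ℤ) (a⁻¹ * g) := by
    rw [h2, augRho_coe, regRho_coef]
  exact congrArg (Int.cast : ℤ → ZMod p) h3

lemma epsAdd_equivariant (hε : ∀ (g : G) (t : T), ε (g • t) = V.ρ g (ε t))
    (a : G) (θ : R1 V ε →+ LinearMap.ker (augMap G)) :
    epsAdd V ε hsurj ((homRep (r1Rep V ε hε) (augRep G)).ρ a θ) =
      (eRep V).ρ a (epsAdd V ε hsurj θ) := by
  refine Subtype.ext (funext fun g => LinearMap.ext fun v => ?_)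
  obtain ⟨r, rfl⟩ := aug_surjective V ε hsurj v
  have h1 : ((eRep V).ρ a (epsAdd V ε hsurj θ) : eSub V).1 g (aug V ε r) =
      (epsAdd V ε hsurj θ).1 (a⁻¹ * g) (V.ρ a⁻¹ (aug V ε r)) := rfl
  have h0 : (epsAdd V ε hsurj ((homRep (r1Rep V ε hε) (augRep G)).ρ a θ)).1 g (aug V ε r) =
      psi V ε ((homRep (r1Rep V ε hε) (augRep G)).ρ a θ) g r := epsAdd_apply V ε hsurj _ g r
  have h2 : (epsAdd V ε hsurj θ).1 (a⁻¹ * g) (V.ρ a⁻¹ (aug V ε r)) =
      psi V ε θ (a⁻¹ * g) (latAct T a⁻¹ r) := by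
    rw [← aug_latAct V ε hε, epsAdd_apply]
  exact h0.trans ((psi_conj V ε hε θ a g r).trans (h2.symm.trans h1.symm))

end Construction

/-- the E-map `Hom(R₁, I_G) ⟶ E` -/
def epsMap (V : Rep.{0} (ZMod p) G) (ε : T → V)
    (hε : ∀ (g : G) (t : T), ε (g • t) = V.ρ g (ε t)) (hsurj : Function.Surjective ε) :
    homRep (r1Rep V ε hε) (augRep G) ⟶ eRep V :=
  mkHom (A := homRep (r1Rep V ε hε) (augRep G)) (B := eRep V) (epsAdd V ε hsurj)
    (epsAdd_equivariant V ε hsurj hε)

variable (V : Rep.{0} (ZMod p) G) (ε : T → V)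
  (hε : ∀ (g : G) (t : T), ε (g • t) = V.ρ g (ε t)) (hsurj : Function.Surjective ε)

/-- the defining formula: `ε(θ)_g (aug r) = (θ (p • r))_g mod p` -/
theorem epsMap_apply (θ : R1 V ε →+ LinearMap.ker (augMap G)) (r : T →₀ ℤ) (hr : p • r ∈ R1 V ε)
    (g : G) :
    eFam V ((epsMap V ε hε hsurj).hom θ) g (aug V ε r) =
      ((((θ ⟨p • r, hr⟩ : LinearMap.ker (augMap G)) : G →₀ ℤ) g : ℤ) : ZMod p) :=
  epsAdd_apply V ε hsurj θ g r

/-- Every family of `E` lifts to an additive map `ℤ[T] →+ I_G`: the coefficients of `F r` reduce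
mod `p` to `e_g (aug r)`. -/
lemma exists_lift (e : (eRep V).V) :
    ∃ F : (T →₀ ℤ) →+ LinearMap.ker (augMap G), ∀ (r : T →₀ ℤ) (g : G),
      ((((F r : LinearMap.ker (augMap G)) : G →₀ ℤ) g : ℤ) : ZMod p) =
        eFam V e g (aug V ε r) := by
  have : NeZero p := ⟨(Fact.out : p.Prime).ne_zero⟩
  classical
  let m : T → G → ℤ := fun t g => ((eFam V e g (ε t)).val : ℤ)
  let n : T → G → ℤ := fun t g => m t g - (if g = 1 then ∑ h : G, m t h else 0)
  have hm : ∀ t g, ((m t g : ℤ) : ZMod p) = eFam V e g (ε t) := by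
    intro t g
    simp [m]
  have hsum : ∀ t, ((∑ h : G, m t h : ℤ) : ZMod p) = 0 := by
    intro t
    rw [Int.cast_sum]
    simp only [hm]
    have h1 := congrArg (fun f : Module.Dual (ZMod p) V => f (ε t)) (sum_eFam V e)
    simpa [LinearMap.sum_apply] using h1
  have hn : ∀ t g, ((n t g : ℤ) : ZMod p) = eFam V e g (ε t) := by
    intro t g
    simp only [n]
    rw [Int.cast_sub, hm]
    split_ifs
    · rw [hsum, sub_zero]
    · simp
  have hn0 : ∀ t, ∑ g : G, n t g = 0 := by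
    intro t
    simp only [n, Finset.sum_sub_distrib, Finset.sum_ite_eq', Finset.mem_univ, if_true, sub_self]
  let F0 : (T →₀ ℤ) →+ (G →₀ ℤ) :=
    Finsupp.liftAddHom (fun t => zmultiplesHom (G →₀ ℤ) (Finsupp.equivFunOnFinite.symm (n t)))
  have hF0s : ∀ (t : T) (k : ℤ),
      F0 (Finsupp.single t k) = k • Finsupp.equivFunOnFinite.symm (n t) := by
    intro t k
    simp [F0]
  have hF0aug : ∀ r, augMap G (F0 r) = 0 := by
    intro r
    induction r using Finsupp.induction_linear with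
    | zero => simp
    | add x y hx hy => rw [map_add, map_add, hx, hy, add_zero]
    | single t k =>
      rw [hF0s, map_zsmul, augMap_eq_sum]
      simp [hn0 t]
  have hF0c : ∀ r g, (((F0 r) g : ℤ) : ZMod p) = eFam V e g (aug V ε r) := by
    intro r g
    induction r using Finsupp.induction_linear with
    | zero => simp
    | add x y hx hy => simp only [map_add, Finsupp.add_apply, Int.cast_add, hx, hy]
    | single t k =>
      rw [hF0s, aug_single, map_zsmul]
      simp [hn t g]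
  exact ⟨F0.codRestrict (LinearMap.ker (augMap G)) (fun r => LinearMap.mem_ker.mpr (hF0aug r)),
    fun r g => hF0c r g⟩

theorem epsMap_surjective : Function.Surjective (epsMap V ε hε hsurj).hom := by
  intro e
  obtain ⟨F, hF⟩ := exists_lift V ε e
  obtain ⟨θ, hθ⟩ := exists_div (p := p) (F.comp (R1 V ε).subtype) (fun x g => by
    have h1 := hF (x : T →₀ ℤ) g
    rw [(mem_R1_iff V ε _).mp x.2, map_zero] at h1
    exact (ZMod.intCast_zmod_eq_zero_iff_dvd _ p).mp h1)
  refine ⟨θ, ?_⟩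
  apply eFam_injective V
  refine funext fun g => LinearMap.ext fun v => ?_
  obtain ⟨r, rfl⟩ := aug_surjective V ε hsurj v
  have h2 : θ ⟨p • r, nsmul_mem_R1 V ε r⟩ = F r := by
    apply ker_nsmul_cancel (p := p)
    rw [hθ]
    change F (p • r) = p • F r
    rw [map_nsmul]
  rw [epsMap_apply V ε hε hsurj θ r (nsmul_mem_R1 V ε r), ← hF r g, h2]

theorem epsMap_eq_zero_iff (θ : R1 V ε →+ LinearMap.ker (augMap G)) :
    (epsMap V ε hε hsurj).hom θ = 0 ↔
      ∃ θ₀ : (T →₀ ℤ) →+ LinearMap.ker (augMap G), θ₀.comp (R1 V ε).subtype = θ := by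
  constructor
  · intro h
    obtain ⟨θ₀, hθ₀⟩ := exists_div (p := p) (θ.comp (pMul V ε)) (fun r g => by
      have h1 := epsMap_apply V ε hε hsurj θ r (nsmul_mem_R1 V ε r) g
      rw [h] at h1
      have h2 : eFam V (0 : (eRep V).V) g (aug V ε r) = 0 := by simp
      rw [h2] at h1
      exact (ZMod.intCast_zmod_eq_zero_iff_dvd _ p).mp h1.symm)
    refine ⟨θ₀, AddMonoidHom.ext fun x => ?_⟩
    apply ker_nsmul_cancel (p := p)
    change p • θ₀ (x : T →₀ ℤ) = p • θ x
    rw [hθ₀, ← map_nsmul, ← pMul_coe_R1]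
    rfl
  · rintro ⟨θ₀, rfl⟩
    apply eFam_injective V
    refine funext fun g => LinearMap.ext fun v => ?_
    obtain ⟨r, rfl⟩ := aug_surjective V ε hsurj v
    have h2 : (θ₀.comp (R1 V ε).subtype) ⟨p • r, nsmul_mem_R1 V ε r⟩ = p • θ₀ r := by
      change θ₀ (p • r) = _
      rw [map_nsmul]
    rw [epsMap_apply V ε hε hsurj _ r (nsmul_mem_R1 V ε r), h2]
    have h3 := coefP_nsmul (p := p) g (θ₀ r)
    rw [coefP_apply] at h3
    rw [h3]
    simp

theorem comp_subtype_injective (θ₀ : (T →₀ ℤ) →+ LinearMap.ker (augMap G))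
    (h : θ₀.comp (R1 V ε).subtype = 0) : θ₀ = 0 := by
  refine AddMonoidHom.ext fun r => ?_
  apply ker_nsmul_cancel (p := p)
  have h1 : θ₀ (p • r) = 0 := DFunLike.congr_fun h ⟨p • r, nsmul_mem_R1 V ε r⟩
  rw [← map_nsmul, h1]
  simp

end EMap

end Fermat.Agent.CFT.Formation
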