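import Fermat.Agent.CFT.Formation.Setup

/-!
# P3 / CFT, layer L4 (Formation), leaf [F3b]: restriction on `H¹` and the annihilator of `locTriv`

For `V : Rep (ZMod p) G` and a subgroup `H ≤ G`:

* `resH1 V H : H¹(G, V) →ₗ H¹(H, V)` : restriction;
* `resH1_π` : on classes of cocycles it is restriction of functions;
* `exists_cocycle_res` : the restriction of a cocycle is a cocycle;
* `mem_locTriv_iff` : `locTriv V Gw = ⋂ i, ker (resH1 V (Gw i))`;
* `mem_dualAnnihilator_locTriv_iff` : for a finite family `Gw`, the functionals on `H¹(G, V)`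
  vanishing on `locTriv V Gw` are the sums `∑ i, φw i ∘ resH1 V (Gw i)`.
-/

set_option autoImplicit false

open CategoryTheory groupCohomology
open Fermat.Agent.CFT.Triv Fermat.Agent.CFT.Formation

noncomputable section

namespace Fermat.Agent.CFT.Formation

variable {G : Type} [Group G]

namespace LocH1

variable {p : ℕ} [Fact p.Prime]

/-- restriction `H¹(G, V) → H¹(H, V)` -/
def resH1 (V : Rep.{0} (ZMod p) G) (H : Subgroup G) :
    groupCohomology.H1 V →ₗ[ZMod p] groupCohomology.H1 (Rep.res H.subtype V) :=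
  (groupCohomology.map H.subtype (𝟙 (Rep.res H.subtype V)) 1).hom

/-- The restriction of a cocycle, as a cocycle. -/
def resCocycle (V : Rep.{0} (ZMod p) G) (H : Subgroup G) (x : cocycles₁ V) :
    cocycles₁ (Rep.res H.subtype V) :=
  (mapCocycles₁ H.subtype (𝟙 (Rep.res H.subtype V))).hom x

theorem resCocycle_apply (V : Rep.{0} (ZMod p) G) (H : Subgroup G) (x : cocycles₁ V) (h : H) :
    resCocycle V H x h = x (h : G) := rfl

theorem resH1_π_resCocycle (V : Rep.{0} (ZMod p) G) (H : Subgroup G) (x : cocycles₁ V) :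
    resH1 V H ((H1π V).hom x) = (H1π (Rep.res H.subtype V)).hom (resCocycle V H x) :=
  H1π_comp_map_apply H.subtype (𝟙 (Rep.res H.subtype V)) x

theorem resH1_π (V : Rep.{0} (ZMod p) G) (H : Subgroup G) (x : cocycles₁ V)
    (x' : cocycles₁ (Rep.res H.subtype V)) (hx : ∀ h : H, x' h = x (h : G)) :
    resH1 V H ((H1π V).hom x) = (H1π (Rep.res H.subtype V)).hom x' := by
  have h1 : x' = resCocycle V H x := by
    apply DFunLike.ext
    intro h
    rw [hx h, resCocycle_apply]
  rw [h1, resH1_π_resCocycle]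

theorem exists_cocycle_res (V : Rep.{0} (ZMod p) G) (H : Subgroup G) (x : cocycles₁ V) :
    ∃ x' : cocycles₁ (Rep.res H.subtype V), ∀ h : H, x' h = x (h : G) :=
  ⟨resCocycle V H x, fun h => resCocycle_apply V H x h⟩

/-- The class of a cocycle restricts to `0` on `H` iff the cocycle is a coboundary on `H`. -/
theorem resH1_π_eq_zero_iff (V : Rep.{0} (ZMod p) G) (H : Subgroup G) (x : cocycles₁ V) :
    resH1 V H ((H1π V).hom x) = 0 ↔ ∃ m : V, ∀ g ∈ H, x g = V.ρ g m - m := by
  rw [resH1_π_resCocycle]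
  have h0 := H1π_eq_zero_iff (resCocycle V H x)
  constructor
  · intro h
    obtain ⟨m, hm⟩ := h0.1 h
    refine ⟨m, fun g hg => ?_⟩
    have h2 := congrFun hm ⟨g, hg⟩
    exact h2.symm
  · intro ⟨m, hm⟩
    refine h0.2 ⟨m, ?_⟩
    funext g
    exact (hm g.1 g.2).symm

/-- `locTriv V Gw` is the common kernel of the restrictions to the `Gw i`. -/
theorem mem_locTriv_iff (V : Rep.{0} (ZMod p) G) {ι : Type} (Gw : ι → Subgroup G)
    (y : groupCohomology.H1 V) :
    y ∈ locTriv V Gw ↔ ∀ i, resH1 V (Gw i) y = 0 := by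
  constructor
  · rintro ⟨c, hc, rfl⟩ i
    exact (resH1_π_eq_zero_iff V (Gw i) c).2 (hc i)
  · intro h
    induction y using H1_induction_on with
    | h c =>
      exact ⟨c, fun i => (resH1_π_eq_zero_iff V (Gw i) c).1 (h i), rfl⟩

theorem locTriv_eq_iInf_ker (V : Rep.{0} (ZMod p) G) {ι : Type} (Gw : ι → Subgroup G) :
    locTriv V Gw = ⨅ i, LinearMap.ker (resH1 V (Gw i)) := by
  ext y
  rw [mem_locTriv_iff, Submodule.mem_iInf]
  simp only [LinearMap.mem_ker]

theorem mem_dualAnnihilator_locTriv_iff (V : Rep.{0} (ZMod p) G) {ι : Type} [Fintype ι]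
    (Gw : ι → Subgroup G) (φ : Module.Dual (ZMod p) (groupCohomology.H1 V)) :
    φ ∈ (locTriv V Gw).dualAnnihilator ↔
      ∃ φw : ∀ i, Module.Dual (ZMod p) (groupCohomology.H1 (Rep.res (Gw i).subtype V)),
        φ = ∑ i, (φw i).comp (resH1 V (Gw i)) := by
  rw [locTriv_eq_iInf_ker, Subspace.dualAnnihilator_iInf_eq]
  simp only [← LinearMap.range_dualMap_eq_dualAnnihilator_ker]
  constructor
  · intro h
    classical
    refine Submodule.iSup_induction _ (motive := fun φ => ∃ φw : ∀ i, Module.Dual (ZMod p)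
      (groupCohomology.H1 (Rep.res (Gw i).subtype V)), φ = ∑ i, (φw i).comp (resH1 V (Gw i)))
      h ?_ ?_ ?_
    · rintro i _ ⟨ψ, rfl⟩
      refine ⟨fun j => if hj : j = i then hj ▸ ψ else 0, ?_⟩
      rw [Finset.sum_eq_single i]
      · simp
        rfl
      · intro j _ hj
        simp [hj]
      · intro hi
        exact absurd (Finset.mem_univ i) hi
    · exact ⟨0, by simp⟩
    · rintro _ _ ⟨φ1, rfl⟩ ⟨φ2, rfl⟩
      refine ⟨φ1 + φ2, ?_⟩
      rw [← Finset.sum_add_distrib]
      refine Finset.sum_congr rfl fun i _ => ?_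
      simp [LinearMap.add_comp]
  · rintro ⟨φw, rfl⟩
    refine Submodule.sum_mem _ fun i _ => ?_
    exact Submodule.mem_iSup_of_mem i ⟨φw i, rfl⟩

end LocH1

end Fermat.Agent.CFT.Formation
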