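import Fermat.Agent.CFT.Formation.Setup
import Fermat.Agent.CFT.Formation.LocH1

/-!
# P3 / CFT, layer L4 (Formation), leaf [F11]: extension by zero `E(K) → E(G)`

For a subgroup `K ≤ G` and `V : Rep (ZMod p) G`:

* `extZero K V : E(K) →+ E(G)` : extension by zero of families `K → Dual V` to `G → Dual V`;
* `eFam_extZero_of_mem`, `eFam_extZero_of_not_mem` : its values;
* `sum_eFam_extZero` : sums over `G` of the extended family are sums over `K`;
* `norm_extZero` : `N_K e' = 0 → N_G (extZero e') = 0`;
* `pairing_extZero` : two pairings given by the cocycle formula `∑ g, e g (x g)` satisfy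
  `P (extZero e') = P' e' ∘ resH1 V K` on `N_K e' = 0`.
-/

set_option autoImplicit false

open CategoryTheory groupCohomology
open Fermat.Agent.CFT.Triv Fermat.Agent.CFT.Formation

noncomputable section

namespace Fermat.Agent.CFT.Formation

variable {G : Type} [Group G]

namespace ExtZero

variable [Fintype G] {p : ℕ} [Fact p.Prime] (K : Subgroup G) [Fintype K] (V : Rep.{0} (ZMod p) G)

open Classical in
/-- The family `G → Dual V` extending a family `K → Dual V` by zero. -/
def extFam (f : K → Module.Dual (ZMod p) V) : G → Module.Dual (ZMod p) V :=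
  fun g => if hg : g ∈ K then f ⟨g, hg⟩ else 0

omit [Fintype G] [Fintype K] in
theorem extFam_of_mem (f : K → Module.Dual (ZMod p) V) (g : G) (hg : g ∈ K) :
    extFam K V f g = f ⟨g, hg⟩ := by
  simp [extFam, hg]

omit [Fintype G] [Fintype K] in
theorem extFam_of_not_mem (f : K → Module.Dual (ZMod p) V) (g : G) (hg : g ∉ K) :
    extFam K V f g = 0 := by
  simp [extFam, hg]

/-- Sums over `G` of an extended family are sums over `K`. -/
theorem sum_extFam {M : Type} [AddCommMonoid M] (f : K → Module.Dual (ZMod p) V)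
    (F : G → Module.Dual (ZMod p) V → M) (hF : ∀ g, F g 0 = 0) :
    ∑ g : G, F g (extFam K V f g) = ∑ k : K, F (k : G) (f k) := by
  symm
  refine Fintype.sum_of_injective (fun k : K => (k : G)) Subtype.val_injective _ _ ?_ ?_
  · intro g hg
    have h : g ∉ K := fun h => hg ⟨⟨g, h⟩, rfl⟩
    rw [extFam_of_not_mem K V f g h, hF]
  · intro k
    rw [extFam_of_mem K V f (k : G) k.2]

/-- extension by zero of a family `K → Dual V` to `G → Dual V` -/
def extZero : (eRep (Rep.res K.subtype V)).V →+ (eRep V).V where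
  toFun e' := eMk V (extFam K V (eFam (Rep.res K.subtype V) e')) (by
    rw [sum_extFam K V _ (fun _ φ => φ) (fun _ => rfl)]
    exact sum_eFam (Rep.res K.subtype V) e')
  map_zero' := by
    apply eFam_injective
    funext g
    by_cases hg : g ∈ K
    · rw [eFam_eMk, extFam_of_mem K V _ g hg]
      rfl
    · rw [eFam_eMk, extFam_of_not_mem K V _ g hg]
      rfl
  map_add' e₁ e₂ := by
    apply eFam_injective
    funext g
    show extFam K V (eFam (Rep.res K.subtype V) (e₁ + e₂)) g =
      extFam K V (eFam (Rep.res K.subtype V) e₁) g + extFam K V (eFam (Rep.res K.subtype V) e₂) g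
    by_cases hg : g ∈ K
    · rw [extFam_of_mem K V _ g hg, extFam_of_mem K V _ g hg, extFam_of_mem K V _ g hg, map_add]
      rfl
    · rw [extFam_of_not_mem K V _ g hg, extFam_of_not_mem K V _ g hg,
        extFam_of_not_mem K V _ g hg, add_zero]

theorem eFam_extZero (e' : (eRep (Rep.res K.subtype V)).V) :
    eFam V (extZero K V e') = extFam K V (eFam (Rep.res K.subtype V) e') := rfl

theorem eFam_extZero_of_mem (e' : (eRep (Rep.res K.subtype V)).V) (g : G) (hg : g ∈ K) :
    eFam V (extZero K V e') g = eFam (Rep.res K.subtype V) e' ⟨g, hg⟩ := by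
  rw [eFam_extZero, extFam_of_mem K V _ g hg]

theorem eFam_extZero_of_not_mem (e' : (eRep (Rep.res K.subtype V)).V) (g : G) (hg : g ∉ K) :
    eFam V (extZero K V e') g = 0 := by
  rw [eFam_extZero, extFam_of_not_mem K V _ g hg]

/-- Sums over `G` of the extended family are sums over `K`. -/
theorem sum_eFam_extZero {M : Type} [AddCommMonoid M] (e' : (eRep (Rep.res K.subtype V)).V)
    (F : G → Module.Dual (ZMod p) V → M) (hF : ∀ g, F g 0 = 0) :
    ∑ g : G, F g (eFam V (extZero K V e') g) =
      ∑ k : K, F (k : G) (eFam (Rep.res K.subtype V) e' k) := by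
  rw [eFam_extZero]
  exact sum_extFam K V _ F hF

omit [Fintype K] in
/-- The norm on `E`, in coordinates. -/
theorem eFam_norm (e : (eRep V).V) (g : G) (v : V) :
    eFam V ((eRep V).ρ.norm e) g v = ∑ a : G, eFam V e (a⁻¹ * g) (V.ρ a⁻¹ v) := by
  simp only [Representation.norm, LinearMap.sum_apply, map_sum, Finset.sum_apply]
  exact Finset.sum_congr rfl (fun a _ => eFam_ρ V a e g v)

omit [Fintype G] in
/-- `N_K e' = 0` in coordinates: `∑ k, e' k ∘ ρ k = 0`. -/
theorem sum_eFam_comp_of_norm_eq_zero (e' : (eRep (Rep.res K.subtype V)).V)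
    (h : (eRep (Rep.res K.subtype V)).ρ.norm e' = 0) (w : V) :
    ∑ k : K, eFam (Rep.res K.subtype V) e' k (V.ρ (k : G) w) = 0 := by
  have h1 : eFam (Rep.res K.subtype V) ((eRep (Rep.res K.subtype V)).ρ.norm e') 1 w = 0 := by
    rw [h]
    rfl
  rw [eFam_norm (Rep.res K.subtype V) e' 1 w] at h1
  rw [← h1]
  symm
  refine Fintype.sum_equiv (Equiv.inv K) _ _ (fun a => ?_)
  rw [mul_one]
  rfl

theorem norm_extZero (e' : (eRep (Rep.res K.subtype V)).V)
    (h : (eRep (Rep.res K.subtype V)).ρ.norm e' = 0) : (eRep V).ρ.norm (extZero K V e') = 0 := by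
  apply eFam_injective
  funext g
  refine LinearMap.ext fun v => ?_
  rw [eFam_norm V (extZero K V e') g v]
  have h1 : ∑ a : G, eFam V (extZero K V e') (a⁻¹ * g) (V.ρ a⁻¹ v) =
      ∑ b : G, eFam V (extZero K V e') b (V.ρ (b * g⁻¹) v) := by
    refine Fintype.sum_equiv ((Equiv.inv G).trans (Equiv.mulRight g)) _ _ (fun a => ?_)
    show _ = eFam V (extZero K V e') (a⁻¹ * g) (V.ρ (a⁻¹ * g * g⁻¹) v)
    rw [mul_inv_cancel_right]
  rw [h1, sum_eFam_extZero K V e' (fun b φ => φ (V.ρ (b * g⁻¹) v)) (fun _ => rfl)]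
  have h2 := sum_eFam_comp_of_norm_eq_zero K V e' h (V.ρ g⁻¹ v)
  refine Eq.trans ?_ h2
  refine Finset.sum_congr rfl (fun k _ => ?_)
  rw [map_mul]
  rfl

/-- compatibility of two pairings given by the cocycle formula with `resH1` -/
theorem pairing_extZero
    (P : (eRep V).V → Module.Dual (ZMod p) (groupCohomology.H1 V))
    (hP : ∀ (e : (eRep V).V) (x : cocycles₁ V), (eRep V).ρ.norm e = 0 →
        P e ((H1π V).hom x) = ∑ g : G, eFam V e g (x g))
    (P' : (eRep (Rep.res K.subtype V)).V →
      Module.Dual (ZMod p) (groupCohomology.H1 (Rep.res K.subtype V)))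
    (hP' : ∀ (e : (eRep (Rep.res K.subtype V)).V) (x : cocycles₁ (Rep.res K.subtype V)),
        (eRep (Rep.res K.subtype V)).ρ.norm e = 0 →
        P' e ((H1π (Rep.res K.subtype V)).hom x) =
          ∑ g : K, eFam (Rep.res K.subtype V) e g (x g))
    (e' : (eRep (Rep.res K.subtype V)).V)
    (h : (eRep (Rep.res K.subtype V)).ρ.norm e' = 0) :
    P (extZero K V e') = (P' e').comp (LocH1.resH1 V K) := by
  refine LinearMap.ext fun y => ?_
  induction y using H1_induction_on with
  | h c =>
    rw [hP _ c (norm_extZero K V e' h), LinearMap.comp_apply, LocH1.resH1_π_resCocycle,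
      hP' _ _ h, sum_eFam_extZero K V e' (fun g φ => φ (c g)) (fun _ => rfl)]
    rfl

end ExtZero

end Fermat.Agent.CFT.Formation
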