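import Fermat.Agent.CFT.Formation.EMap
import Fermat.Agent.CFT.Formation.ExtZero

set_option autoImplicit false
open CategoryTheory groupCohomology
open Fermat.Agent.CFT.Triv Fermat.Agent.CFT.Formation

noncomputable section

namespace Fermat.Agent.CFT.Formation

variable {G : Type} [Group G]

namespace EMapLoc

variable [Fintype G] {p : ℕ} [Fact p.Prime] {T : Type} [MulAction G T]
  (K : Subgroup G) [Fintype K] (V : Rep.{0} (ZMod p) G) (ε : T → V)
  (hε : ∀ (g : G) (t : T), ε (g • t) = V.ρ g (ε t)) (hsurj : Function.Surjective ε)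

theorem epsMap_extZero
    (hε' : ∀ (g : K) (t : T), ε (g • t) = (Rep.res K.subtype V).ρ g (ε t))
    (lI : (augRep K).V →+ (augRep G).V)
    (hlI : ∀ y : LinearMap.ker (augMap K), ((lI y : LinearMap.ker (augMap G)) : G →₀ ℤ) =
        Finsupp.mapDomain K.subtype (y : K →₀ ℤ))
    (θ' : R1 V ε →+ LinearMap.ker (augMap K)) :
    (EMap.epsMap V ε hε hsurj).hom (lI.comp θ') =
      ExtZero.extZero K V ((EMap.epsMap (Rep.res K.subtype V) ε hε' hsurj).hom θ') := by
  apply eFam_injective V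
  funext g
  refine LinearMap.ext fun v => ?_
  obtain ⟨r, rfl⟩ := EMap.aug_surjective V ε hsurj v
  have hr : p • r ∈ R1 V ε := EMap.nsmul_mem_R1 V ε r
  have hL := EMap.epsMap_apply V ε hε hsurj (lI.comp θ') r hr g
  have h1 : (((lI (θ' ⟨p • r, hr⟩) : LinearMap.ker (augMap G)) : G →₀ ℤ)) =
      Finsupp.mapDomain K.subtype ((θ' ⟨p • r, hr⟩ : LinearMap.ker (augMap K)) : K →₀ ℤ) :=
    hlI _
  refine hL.trans ?_
  have hL2 : ((((lI.comp θ') ⟨p • r, hr⟩ : LinearMap.ker (augMap G)) : G →₀ ℤ) g : ZMod p) =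
      ((Finsupp.mapDomain K.subtype ((θ' ⟨p • r, hr⟩ : LinearMap.ker (augMap K)) : K →₀ ℤ) g : ℤ) :
        ZMod p) := by
    exact congrArg (fun y : G →₀ ℤ => ((y g : ℤ) : ZMod p)) h1
  refine hL2.trans ?_
  by_cases hg : g ∈ K
  · have h2 := EMap.epsMap_apply (Rep.res K.subtype V) ε hε' hsurj θ' r hr ⟨g, hg⟩
    have h3 : Finsupp.mapDomain K.subtype ((θ' ⟨p • r, hr⟩ : LinearMap.ker (augMap K)) : K →₀ ℤ) g
        = ((θ' ⟨p • r, hr⟩ : LinearMap.ker (augMap K)) : K →₀ ℤ) ⟨g, hg⟩ :=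
      Finsupp.mapDomain_apply K.subtype_injective _ (⟨g, hg⟩ : K)
    rw [h3]
    refine h2.symm.trans ?_
    exact (LinearMap.congr_fun (ExtZero.eFam_extZero_of_mem K V _ g hg) _).symm
  · have h3 : Finsupp.mapDomain K.subtype ((θ' ⟨p • r, hr⟩ : LinearMap.ker (augMap K)) : K →₀ ℤ) g
        = 0 := by
      apply Finsupp.mapDomain_of_notMem_range
      rintro ⟨x, rfl⟩
      exact hg x.2
    rw [h3, Int.cast_zero]
    exact (LinearMap.congr_fun (ExtZero.eFam_extZero_of_not_mem K V _ g hg) _).symm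

end EMapLoc

end Fermat.Agent.CFT.Formation
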