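import Fermat.Agent.CFT.Formation.Defs

/-!
# P3 / CFT, Formation package [F7]: `[EX]` kills the norms

Setting of `Formation.Plan.FinDuality`: `G` finite, `U ≤ G` acting trivially on the finite `G`-set
`T`, `ε : T → V` equivariant onto a `ZMod p[G]`-module, `R₁ = ker (ℤ[T] → V)`, `C : Rep ℤ G` with
**[EX]** `N_U C ⊆ p • C^U`.  Then for EVERY additive map `a : R₁ → C` the norm
`N_G a = ∑ g, g ∘ a ∘ g⁻¹` is the restriction to `R₁` of a `G`-equivariant map `ℤ[T] → C`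
(`exists_res_eq_normR1`).

Proof: `N_U ∘ a = p • a''` with `a'' : R₁ → C^U` (`R₁` is `ℤ`-projective), `b₀ r := a'' (p • r)`
on `ℤ[T]` (note `p • ℤ[T] ⊆ R₁`), and `b := ∑_{q ∈ G/U} q ∘ b₀ ∘ q⁻¹`.
-/

set_option autoImplicit false

open CategoryTheory groupCohomology

noncomputable section

namespace Fermat.Agent.CFT.Formation

variable {G : Type} [Group G] {T : Type} [MulAction G T]

lemma latAct_apply (g : G) (r : T →₀ ℤ) : latAct T g r = Finsupp.mapDomain (g • ·) r := rfl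

lemma latAct_eq_self_of_fix {g : G} (hg : ∀ t : T, g • t = t) (r : T →₀ ℤ) :
    latAct T g r = r := by
  rw [latAct_apply]
  have h : (g • · : T → T) = id := by
    funext t
    simp [hg]
  rw [h, Finsupp.mapDomain_id]

lemma latAct_one (r : T →₀ ℤ) : latAct T (1 : G) r = r :=
  latAct_eq_self_of_fix (fun t => one_smul G t) r

lemma latAct_mul (g h : G) (r : T →₀ ℤ) : latAct T (g * h) r = latAct T g (latAct T h r) := by
  simp only [latAct_apply]
  rw [← Finsupp.mapDomain_comp]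
  congr 1
  funext t
  simp [mul_smul]

variable {p : ℕ} (V : Rep.{0} (ZMod p) G) (ε : T → V)

lemma aug_latAct (hε : ∀ g t, ε (g • t) = V.ρ g (ε t)) (g : G) (r : T →₀ ℤ) :
    aug V ε (latAct T g r) = V.ρ g (aug V ε r) := by
  induction r using Finsupp.induction_linear with
  | zero => simp
  | add x y hx hy => simp only [map_add, hx, hy]
  | single t n => rw [latAct_single, aug_single, aug_single, hε, map_zsmul]

lemma latAct_mem_R1 (hε : ∀ g t, ε (g • t) = V.ρ g (ε t)) (g : G) {r : T →₀ ℤ}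
    (hr : r ∈ R1 V ε) : latAct T g r ∈ R1 V ε := by
  rw [mem_R1_iff] at hr ⊢
  rw [aug_latAct V ε hε, hr, map_zero]

omit [MulAction G T] in
lemma nsmul_mem_R1 (r : T →₀ ℤ) : p • r ∈ R1 V ε := by
  rw [mem_R1_iff, map_nsmul]
  exact ZModModule.char_nsmul_eq_zero p _

/-- The action of `g` on `R₁`. -/
def actR1 (hε : ∀ g t, ε (g • t) = V.ρ g (ε t)) (g : G) : R1 V ε →+ R1 V ε :=
  ((latAct T g).comp (R1 V ε).subtype).codRestrict (R1 V ε)
    (fun r => latAct_mem_R1 V ε hε g r.2)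

@[simp] lemma actR1_coe (hε : ∀ g t, ε (g • t) = V.ρ g (ε t)) (g : G) (r : R1 V ε) :
    (actR1 V ε hε g r : T →₀ ℤ) = latAct T g r := rfl

/-- The norm `N_G a = ∑ g, g ∘ a ∘ g⁻¹` of an additive map `a : R₁ → C`. -/
def normR1 [Fintype G] (C : Rep.{0} ℤ G) (hε : ∀ g t, ε (g • t) = V.ρ g (ε t))
    (a : R1 V ε →+ C) : R1 V ε →+ C :=
  ∑ g : G, ((C.ρ g).toAddMonoidHom).comp (a.comp (actR1 V ε hε g⁻¹))

lemma normR1_apply [Fintype G] (C : Rep.{0} ℤ G) (hε : ∀ g t, ε (g • t) = V.ρ g (ε t))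
    (a : R1 V ε →+ C) (r : R1 V ε) :
    normR1 V ε C hε a r = ∑ g : G, C.ρ g (a (actR1 V ε hε g⁻¹ r)) := by
  simp [normR1]

/-- **[F7]** Under `[EX]`, the norm of any additive map `R₁ → C` is the restriction of a
`G`-equivariant map `ℤ[T] → C`. -/
theorem exists_res_eq_normR1 [Fintype G] [Finite T] (C : Rep.{0} ℤ G) (U : Subgroup G)
    (hEX : ∀ c : C, ∃ c' : C, (∀ u ∈ U, C.ρ u c' = c') ∧ ∑ᶠ u : U, C.ρ (u : G) c = p • c')
    (hU : ∀ u ∈ U, ∀ t : T, u • t = t)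
    (hε : ∀ g t, ε (g • t) = V.ρ g (ε t)) (a : R1 V ε →+ C) :
    ∃ b : (T →₀ ℤ) →+ C, (∀ g r, b (latAct T g r) = C.ρ g (b r)) ∧
      b.comp (R1 V ε).subtype = normR1 V ε C hε a := by
  classical
  -- the `U`-invariants of `C`
  let CU : AddSubgroup C.V :=
    { carrier := {c | ∀ u ∈ U, C.ρ u c = c}
      add_mem' := fun {x y} hx hy u hu => by rw [map_add, hx u hu, hy u hu]
      zero_mem' := fun u _ => map_zero _
      neg_mem' := fun {x} hx u hu => by rw [map_neg, hx u hu] }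
  -- `N_U ∘ a`
  let aU : R1 V ε →+ C := ∑ u : U, ((C.ρ (u : G)).toAddMonoidHom).comp a
  have haU_apply : ∀ r, aU r = ∑ u : U, C.ρ (u : G) (a r) := by
    intro r
    simp [aU]
  have haU : ∀ r, ∃ c : CU, aU r = p • (c : C.V) := by
    intro r
    obtain ⟨c', hc', h⟩ := hEX (a r)
    refine ⟨⟨c', hc'⟩, ?_⟩
    rw [haU_apply, ← h, finsum_eq_sum_of_fintype]
  -- lift `aU` through `p : C^U → C` using projectivity of `R₁`
  have : Module.Projective ℤ ↥(R1 V ε) :=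
    inferInstanceAs (Module.Projective ℤ ↥(AddSubgroup.toIntSubmodule (R1 V ε)))
  let PU : AddSubgroup C.V := AddSubgroup.map (nsmulAddMonoidHom p) CU
  let f : CU →+ PU := ((nsmulAddMonoidHom p).comp CU.subtype).codRestrict PU
    (fun c => AddSubgroup.mem_map_of_mem _ c.2)
  have hf : Function.Surjective f := by
    rintro ⟨y, c, hc, rfl⟩
    exact ⟨⟨c, hc⟩, rfl⟩
  let g : R1 V ε →+ PU := aU.codRestrict PU (fun r => by
    obtain ⟨c, hc⟩ := haU r
    exact ⟨c, c.2, hc.symm⟩)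
  obtain ⟨h, hh⟩ := Module.projective_lifting_property f.toIntLinearMap g.toIntLinearMap hf
  have hlift : ∀ r : R1 V ε, p • ((h r : CU) : C.V) = aU r := by
    intro r
    have := congrArg (fun φ => ((φ r : PU) : C.V)) hh
    simpa [f, g] using this
  -- `b₀ r := a'' (p • r)` on `ℤ[T]`
  let pmul : (T →₀ ℤ) →+ R1 V ε :=
    (nsmulAddMonoidHom p).codRestrict (R1 V ε) (fun r => nsmul_mem_R1 V ε r)
  let b0 : (T →₀ ℤ) →+ C := CU.subtype.comp (h.toAddMonoidHom.comp pmul)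
  have hb0U : ∀ r, ∀ u ∈ U, C.ρ u (b0 r) = b0 r := by
    intro r u hu
    exact (h (pmul r)).2 u hu
  have hb0R : ∀ r : R1 V ε, b0 r = aU r := by
    intro r
    have h1 : pmul (r : T →₀ ℤ) = p • r := by
      apply Subtype.ext
      rfl
    show ((h (pmul (r : T →₀ ℤ)) : CU) : C.V) = aU r
    rw [h1, map_nsmul, ← hlift r]
    rfl
  -- the function `Φ r g = g • b₀ (g⁻¹ • r)` is right `U`-invariant in `g`
  let Φ : (T →₀ ℤ) → G → C := fun r g => C.ρ g (b0 (latAct T g⁻¹ r))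
  have hΦU : ∀ r g, ∀ u ∈ U, Φ r (g * u) = Φ r g := by
    intro r g u hu
    show C.ρ (g * u) (b0 (latAct T (g * u)⁻¹ r)) = C.ρ g (b0 (latAct T g⁻¹ r))
    rw [mul_inv_rev, latAct_mul,
      latAct_eq_self_of_fix (fun t => hU u⁻¹ (U.inv_mem hu) t), map_mul]
    show C.ρ g (C.ρ u (b0 (latAct T g⁻¹ r))) = _
    rw [hb0U _ u hu]
  have hΦout : ∀ (r : T →₀ ℤ) (g : G),
      Φ r (Quotient.out (QuotientGroup.mk g : G ⧸ U)) = Φ r g := by
    intro r g
    obtain ⟨u, hu⟩ := QuotientGroup.mk_out_eq_mul U g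
    rw [hu, hΦU r g u u.2]
  -- the map `b`
  let b : (T →₀ ℤ) →+ C :=
    ∑ q : G ⧸ U, ((C.ρ q.out).toAddMonoidHom).comp (b0.comp (latAct T q.out⁻¹))
  have hb_apply : ∀ r, b r = ∑ q : G ⧸ U, Φ r q.out := by
    intro r
    simp [b, Φ]
  refine ⟨b, ?_, ?_⟩
  · -- equivariance
    intro x r
    have hΦx : ∀ g, Φ (latAct T x r) g = C.ρ x (Φ r (x⁻¹ * g)) := by
      intro g
      show C.ρ g (b0 (latAct T g⁻¹ (latAct T x r))) =
        C.ρ x (C.ρ (x⁻¹ * g) (b0 (latAct T (x⁻¹ * g)⁻¹ r)))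
      rw [← latAct_mul, mul_inv_rev, inv_inv]
      have : C.ρ x (C.ρ (x⁻¹ * g) (b0 (latAct T (g⁻¹ * x) r))) =
          C.ρ (x * (x⁻¹ * g)) (b0 (latAct T (g⁻¹ * x) r)) := by
        rw [show C.ρ (x * (x⁻¹ * g)) = C.ρ x * C.ρ (x⁻¹ * g) from map_mul _ _ _]
        rfl
      rw [this, mul_inv_cancel_left]
    rw [hb_apply, hb_apply, map_sum]
    have hstep : ∀ q : G ⧸ U, Φ (latAct T x r) q.out = C.ρ x (Φ r ((x⁻¹ • q).out)) := by
      intro q
      rw [hΦx]
      congr 1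
      have hq : ((x⁻¹ * q.out : G) : G ⧸ U) = x⁻¹ • q := by
        conv_rhs => rw [← QuotientGroup.out_eq' q]
        rfl
      rw [← hq, hΦout]
    rw [Finset.sum_congr rfl (fun q _ => hstep q)]
    exact Equiv.sum_comp (MulAction.toPerm (x⁻¹ : G)) (fun q : G ⧸ U => C.ρ x (Φ r q.out))
  · -- restriction to `R₁`
    ext r
    show b (r : T →₀ ℤ) = normR1 V ε C hε a r
    rw [hb_apply, normR1_apply]
    let Ψ : G → C := fun g => C.ρ g (a (actR1 V ε hε g⁻¹ r))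
    have hΦΨ : ∀ g : G, Φ (r : T →₀ ℤ) g = ∑ u : U, Ψ (g * u) := by
      intro g
      show C.ρ g (b0 (latAct T g⁻¹ (r : T →₀ ℤ))) = _
      have h1 : b0 (latAct T g⁻¹ (r : T →₀ ℤ)) = aU (actR1 V ε hε g⁻¹ r) :=
        hb0R (actR1 V ε hε g⁻¹ r)
      rw [h1, haU_apply, map_sum]
      refine Finset.sum_congr rfl (fun u _ => ?_)
      show C.ρ g (C.ρ (u : G) (a (actR1 V ε hε g⁻¹ r))) =
        C.ρ (g * u) (a (actR1 V ε hε (g * u)⁻¹ r))
      have h2 : actR1 V ε hε (g * (u : G))⁻¹ r = actR1 V ε hε g⁻¹ r := by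
        apply Subtype.ext
        show latAct T (g * (u : G))⁻¹ (r : T →₀ ℤ) = latAct T g⁻¹ (r : T →₀ ℤ)
        rw [mul_inv_rev, latAct_mul]
        rw [latAct_eq_self_of_fix (fun t => hU (u : G)⁻¹ (U.inv_mem u.2) t)]
      rw [h2, map_mul]
      rfl
    rw [Finset.sum_congr rfl (fun q _ => hΦΨ q.out)]
    rw [← Fintype.sum_prod_type (fun x : (G ⧸ U) × U => Ψ (x.1.out * (x.2 : G)))]
    refine Fintype.sum_bijective (fun x : (G ⧸ U) × U => x.1.out * (x.2 : G)) ?_ _ _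
      (fun x => rfl)
    constructor
    · rintro ⟨q, u⟩ ⟨q', u'⟩ hqq
      have hq : q = q' := by
        have h1 : ((q.out * (u : G) : G) : G ⧸ U) = q := by
          rw [QuotientGroup.mk_mul_of_mem _ u.2, QuotientGroup.out_eq']
        have h2 : ((q'.out * (u' : G) : G) : G ⧸ U) = q' := by
          rw [QuotientGroup.mk_mul_of_mem _ u'.2, QuotientGroup.out_eq']
        rw [← h1, ← h2]
        exact congrArg _ hqq
      subst hq
      have hu : (u : G) = u' := mul_left_cancel hqq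
      exact Prod.ext rfl (Subtype.ext hu)
    · intro g
      have hmem : ((g : G ⧸ U).out)⁻¹ * g ∈ U := by
        rw [← QuotientGroup.eq, QuotientGroup.out_eq']
      exact ⟨((g : G ⧸ U), ⟨_, hmem⟩), by simp⟩

end Fermat.Agent.CFT.Formation

end
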