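import Fermat.Agent.CFT.Formation.Setup
import Fermat.Agent.CFT.Formation.NormRes

/-!
# P3 / CFT, Formation leaf [F10]: `[EX]` and `p` kill the obstruction to restriction (helper40)

In the vocabulary of `Formation/Setup.lean` (`homRep`, `latRep`, `r1Rep`):

* `norm_eq_res`: under `[EX]`, the norm of any element of `Hom(R₁, C)` is the restriction of a
  `G`-invariant element of `Hom(ℤ[T], C)` (= `NormRes.exists_res_eq_normR1`, translated);
* `p_smul_eq_res`: `p • a` is such a restriction for every `G`-invariant `a ∈ Hom(R₁, C)`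
  (`ψ r := a (p • r)`, as `p • ℤ[T] ⊆ R₁`).
-/

set_option autoImplicit false
open CategoryTheory groupCohomology
open Fermat.Agent.CFT.Triv Fermat.Agent.CFT.Formation

noncomputable section

namespace Fermat.Agent.CFT.Formation

variable {G : Type} [Group G]

namespace EXNorm

section Bridge

variable {T : Type} [MulAction G T]

/-- An additive map `ℤ[T] → C` is an invariant of `Hom(ℤ[T], C)` iff it is equivariant. -/
theorem mem_invariants_lat_iff (C : Rep.{0} ℤ G) (ψ : (T →₀ ℤ) →+ C.V) :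
    ψ ∈ (homRep (latRep G T) C).ρ.invariants ↔ ∀ g r, ψ (latAct T g r) = C.ρ g (ψ r) := by
  have h0 : ψ ∈ (homRep (latRep G T) C).ρ.invariants ↔
      ∀ g : G, (homRep (latRep G T) C).ρ g ψ = ψ := Iff.rfl
  rw [h0]
  constructor
  · intro h g r
    have h1 : C.ρ g (ψ (latAct T g⁻¹ (latAct T g r))) = ψ (latAct T g r) :=
      DFunLike.congr_fun (h g) (latAct T g r)
    rw [← latAct_mul_apply, inv_mul_cancel, latAct_one_apply] at h1
    exact h1.symm
  · intro h g
    refine AddMonoidHom.ext fun r => ?_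
    have h4 : C.ρ g * C.ρ g⁻¹ = 1 := by rw [← map_mul, mul_inv_cancel, map_one]
    have h3 : C.ρ g (C.ρ g⁻¹ (ψ r)) = ψ r := congrArg (fun f => f (ψ r)) h4
    exact (congrArg (C.ρ g) (h g⁻¹ r)).trans h3

/-- An additive map `R₁ → C` is an invariant of `Hom(R₁, C)` iff it is equivariant. -/
theorem mem_invariants_r1_iff {p : ℕ} (C : Rep.{0} ℤ G) (V : Rep.{0} (ZMod p) G)
    (ε : T → V) (hε : ∀ (g : G) (t : T), ε (g • t) = V.ρ g (ε t)) (a : R1 V ε →+ C.V) :
    a ∈ (homRep (r1Rep V ε hε) C).ρ.invariants ↔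
      ∀ g r, C.ρ g (a (r1Act V ε hε g⁻¹ r)) = a r := by
  have h0 : a ∈ (homRep (r1Rep V ε hε) C).ρ.invariants ↔
      ∀ g : G, (homRep (r1Rep V ε hε) C).ρ g a = a := Iff.rfl
  rw [h0]
  constructor
  · intro h g r
    exact DFunLike.congr_fun (h g) r
  · intro h g
    exact AddMonoidHom.ext fun r => h g r

/-- The norm of `Hom(R₁, C)` is `NormRes.normR1`. -/
theorem norm_homRep_r1 [Fintype G] {p : ℕ} (C : Rep.{0} ℤ G) (V : Rep.{0} (ZMod p) G)
    (ε : T → V) (hε : ∀ (g : G) (t : T), ε (g • t) = V.ρ g (ε t)) (θ : R1 V ε →+ C.V) :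
    (homRep (r1Rep V ε hε) C).ρ.norm θ = normR1 V ε C hε θ := by
  have h1 : (homRep (r1Rep V ε hε) C).ρ.norm θ = ∑ g : G, (homRep (r1Rep V ε hε) C).ρ g θ :=
    LinearMap.sum_apply Finset.univ (fun g => (homRep (r1Rep V ε hε) C).ρ g) θ
  rw [h1]
  exact Finset.sum_congr rfl (fun g _ => rfl)

end Bridge

variable [Fintype G] {p : ℕ} [Fact p.Prime] {T : Type} [Finite T] [MulAction G T]

/-- [EX] ⇒ norms of `Hom(R₁, C)` are restrictions of `G`-maps on `ℤ[T]` -/
theorem norm_eq_res (C : Rep.{0} ℤ G) (U : Subgroup G) [U.Normal]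
    (hEX : ∀ c : C, ∃ c' : C, (∀ u ∈ U, C.ρ u c' = c') ∧ ∑ᶠ u : U, C.ρ (u : G) c = p • c')
    (hU : ∀ u ∈ U, ∀ t : T, u • t = t)
    (V : Rep.{0} (ZMod p) G) (ε : T → V) (hε : ∀ (g : G) (t : T), ε (g • t) = V.ρ g (ε t))
    (θ : R1 V ε →+ C.V) :
    ∃ ψ : (T →₀ ℤ) →+ C.V, ψ ∈ (homRep (latRep G T) C).ρ.invariants ∧
      ψ.comp (R1 V ε).subtype = (homRep (r1Rep V ε hε) C).ρ.norm θ := by
  obtain ⟨b, hb, hbr⟩ := exists_res_eq_normR1 V ε C U hEX hU hε θ
  exact ⟨b, (mem_invariants_lat_iff C b).mpr hb, hbr.trans (norm_homRep_r1 C V ε hε θ).symm⟩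

set_option linter.unusedSectionVars false in
/-- `p • a` is a restriction -/
theorem p_smul_eq_res (C : Rep.{0} ℤ G)
    (V : Rep.{0} (ZMod p) G) (ε : T → V) (hε : ∀ (g : G) (t : T), ε (g • t) = V.ρ g (ε t))
    (a : R1 V ε →+ C.V) (ha : a ∈ (homRep (r1Rep V ε hε) C).ρ.invariants) :
    ∃ ψ : (T →₀ ℤ) →+ C.V, ψ ∈ (homRep (latRep G T) C).ρ.invariants ∧
      ψ.comp (R1 V ε).subtype = p • a := by
  rw [mem_invariants_r1_iff] at ha
  -- multiplication by `p`, as a map `ℤ[T] → R₁`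
  let pmul : (T →₀ ℤ) →+ R1 V ε :=
    (nsmulAddMonoidHom p).codRestrict (R1 V ε) (fun r => nsmul_mem_R1 V ε r)
  refine ⟨a.comp pmul, (mem_invariants_lat_iff C _).mpr ?_, ?_⟩
  · intro g r
    have h1 := ha g (pmul (latAct T g r))
    have h2 : r1Act V ε hε g⁻¹ (pmul (latAct T g r)) = pmul r := by
      apply Subtype.ext
      show latAct T g⁻¹ (p • latAct T g r) = p • r
      rw [map_nsmul, ← latAct_mul_apply, inv_mul_cancel, latAct_one_apply]
    rw [h2] at h1
    exact h1.symm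
  · refine AddMonoidHom.ext fun r => ?_
    have h1 : pmul ((R1 V ε).subtype r) = p • r := Subtype.ext rfl
    show a (pmul ((R1 V ε).subtype r)) = (p • a) r
    rw [h1, map_nsmul]
    rfl

end EXNorm

end Fermat.Agent.CFT.Formation
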