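import Fermat.Agent.CFT.Formation.Setup

/-!
# P3 / CFT, layer L4 (Formation), leaf [F6]: Frobenius reciprocity for the semilocal module `J`

`J = ∏ᵢ coind_{Gw i}^G (Cw i)` is given by the three cast-free axioms of `Plan.FinDuality`
(`hpr`, `hinj`, `hsur`).

* `exists_transversal` : a finite left transversal of a subgroup;
* `pi_eq_sum` : `π x = ∑ᵢ ∑_{t ∈ G / Gw i} t • jᵢ (prᵢ (t⁻¹ • x))`;
* `exists_homG_of_family` : a family of `Gw i`-maps `R₁ → Cw i` comes from a `G`-map `R₁ → J`.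
-/

set_option autoImplicit false
open CategoryTheory groupCohomology
open Fermat.Agent.CFT.Triv Fermat.Agent.CFT.Formation

noncomputable section

namespace Fermat.Agent.CFT.Formation

variable {G : Type} [Group G]

namespace Frobenius

theorem exists_transversal [Finite G] (H : Subgroup G) :
    ∃ tr : Finset G, ∀ g : G, ∃! x : G × H, x.1 ∈ tr ∧ g = x.1 * (x.2 : G) := by
  classical
  obtain ⟨S, hS, -⟩ := H.exists_isComplement_left 1
  have hfin : S.Finite := Set.toFinite S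
  refine ⟨hfin.toFinset, fun g => ?_⟩
  obtain ⟨⟨s, h⟩, hsh, huniq⟩ := (Subgroup.isComplement_iff_existsUnique.mp hS) g
  refine ⟨(s.1, ⟨h.1, h.2⟩), ⟨by simp, hsh.symm⟩, ?_⟩
  rintro ⟨t, h'⟩ ⟨ht, hg⟩
  have ht' : t ∈ S := by simpa using ht
  have h1 := huniq (⟨t, ht'⟩, ⟨h'.1, h'.2⟩) hg.symm
  have h2 : t = s.1 := congrArg (fun x => (x.1 : G)) h1
  have h3 : (h' : G) = h.1 := congrArg (fun x => (x.2 : G)) h1
  exact Prod.ext h2 (Subtype.ext h3)

variable {ι : Type} [Fintype ι] (Gw : ι → Subgroup G) (C : Rep.{0} ℤ G)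
  (Cw : ∀ i, Rep.{0} ℤ (Gw i)) (J : Rep.{0} ℤ G) (π : J →+ C)
  (hπ : ∀ g x, π (J.ρ g x) = C.ρ g (π x))
  (pr : ∀ i, J →+ Cw i) (hpr : ∀ i (g : Gw i) x, pr i (J.ρ (g : G) x) = (Cw i).ρ g (pr i x))
  (hinj : ∀ x : J, (∀ i g, pr i (J.ρ g x) = 0) → x = 0)
  (hsur : ∀ f : ∀ i, G → Cw i, (∀ i (h : Gw i) (g : G), f i ((h : G) * g) = (Cw i).ρ h (f i g)) →
      ∃ x : J, ∀ i g, pr i (J.ρ g x) = f i g)
  (j : ∀ i, Cw i →+ C) (hj : ∀ i (g : Gw i) c, j i ((Cw i).ρ g c) = C.ρ (g : G) (j i c))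
  (hπj : ∀ i (x : J), (∀ i' g, (i' ≠ i ∨ g ∉ Gw i) → pr i' (J.ρ g x) = 0) → π x = j i (pr i x))

omit [Fintype ι] in
include hinj in
/-- Two elements of `J` with the same coordinate families are equal. -/
lemma eq_of_pr_eq {x y : J} (h : ∀ i g, pr i (J.ρ g x) = pr i (J.ρ g y)) : x = y := by
  have h1 := hinj (x - y) (fun i g => by rw [map_sub, map_sub, h i g, sub_self])
  exact sub_eq_zero.mp h1

omit [Fintype ι] in
lemma rho_mul_apply (g h : G) (x : J) : J.ρ (g * h) x = J.ρ g (J.ρ h x) := by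
  rw [map_mul]
  rfl

include hπ hpr hinj hsur hj hπj in
/-- `π x = ∑_i ∑_{t ∈ G/G_i} t • j_i (pr_i (t⁻¹ • x))` -/
theorem pi_eq_sum [Finite G] (tr : ∀ i, Finset G)
    (htr : ∀ i (g : G), ∃! x : G × Gw i, x.1 ∈ tr i ∧ g = x.1 * (x.2 : G)) (x : J) :
    π x = ∑ i, ∑ t ∈ tr i, C.ρ t (j i (pr i (J.ρ t⁻¹ x))) := by
  classical
  -- the pieces of `x` supported at the component `i` on the coset `Gw i * t⁻¹`
  have hpiece : ∀ (i : ι) (t : G), ∃ y : J, ∀ i' g, pr i' (J.ρ g y) =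
      if i' = i ∧ g * t ∈ Gw i' then pr i' (J.ρ g x) else 0 := by
    intro i t
    apply hsur (fun i' g => if i' = i ∧ g * t ∈ Gw i' then pr i' (J.ρ g x) else 0)
    intro i' h g
    have hmem : (h : G) * g * t ∈ Gw i' ↔ g * t ∈ Gw i' := by
      rw [mul_assoc]
      exact (Gw i').mul_mem_cancel_left h.2
    by_cases hc : i' = i ∧ g * t ∈ Gw i'
    · rw [if_pos ⟨hc.1, hmem.2 hc.2⟩, if_pos hc, rho_mul_apply]
      exact hpr i' h _
    · rw [if_neg (fun hc' => hc ⟨hc'.1, hmem.1 hc'.2⟩), if_neg hc, map_zero]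
  choose y hy using hpiece
  -- `x` is the sum of its pieces
  have hsum : x = ∑ i, ∑ t ∈ tr i, y i t := by
    apply eq_of_pr_eq Gw Cw J pr hinj
    intro i' g
    simp_rw [map_sum, hy]
    rw [Finset.sum_eq_single i']
    · obtain ⟨⟨t₀, h₀⟩, ⟨ht₀, hg₀⟩, huniq⟩ := htr i' g⁻¹
      have hmem₀ : g * t₀ ∈ Gw i' := by
        have h1 : g * t₀ = (h₀ : G)⁻¹ := by
          rw [eq_inv_iff_mul_eq_one, mul_assoc, ← hg₀, mul_inv_cancel]
        rw [h1]
        exact (Gw i').inv_mem h₀.2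
      rw [Finset.sum_eq_single t₀]
      · rw [if_pos ⟨rfl, hmem₀⟩]
      · intro t ht hne
        rw [if_neg]
        rintro ⟨-, hmem⟩
        apply hne
        have h1 := huniq (t, ⟨(g * t)⁻¹, (Gw i').inv_mem hmem⟩) ⟨ht, by simp [mul_inv_rev]⟩
        exact congrArg Prod.fst h1
      · intro h
        exact absurd ht₀ h
    · intro i _ hne
      apply Finset.sum_eq_zero
      intro t _
      rw [if_neg]
      rintro ⟨h, -⟩
      exact hne h.symm
    · intro h
      exact absurd (Finset.mem_univ _) h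
  -- the value of `π` on each piece
  have hpi : ∀ i t, π (y i t) = C.ρ t (j i (pr i (J.ρ t⁻¹ x))) := by
    intro i t
    have h1 : J.ρ t (J.ρ t⁻¹ (y i t)) = y i t := by
      rw [← rho_mul_apply, mul_inv_cancel, map_one]
      rfl
    have h2 : π (J.ρ t⁻¹ (y i t)) = j i (pr i (J.ρ t⁻¹ (y i t))) := by
      apply hπj
      intro i' g hcond
      rw [← rho_mul_apply, hy, if_neg]
      rintro ⟨hi, hmem⟩
      rw [inv_mul_cancel_right] at hmem
      subst hi
      rcases hcond with h | h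
      · exact h rfl
      · exact h hmem
    rw [← h1, hπ, h2, hy, if_pos ⟨rfl, by simp⟩]
  conv_lhs => rw [hsum]
  rw [map_sum]
  refine Finset.sum_congr rfl (fun i _ => ?_)
  rw [map_sum]
  exact Finset.sum_congr rfl (fun t _ => hpi i t)

include hpr hinj hsur in
/-- Frobenius reciprocity: a family of `G_i`-maps `R₁ → C_i` comes from a `G`-map `R₁ → J`. -/
theorem exists_homG_of_family {p : ℕ} {T : Type} [MulAction G T] (V : Rep.{0} (ZMod p) G)
    (ε : T → V) (hε : ∀ (g : G) (t : T), ε (g • t) = V.ρ g (ε t))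
    (φ : ∀ i, R1 V ε →+ Cw i)
    (hφ : ∀ i (h : Gw i) (r : R1 V ε), φ i (r1Act V ε hε (h : G) r) = (Cw i).ρ h (φ i r)) :
    ∃ aJ : R1 V ε →+ J, aJ ∈ HomG (R1 V ε) J ∧ ∀ i r, pr i (aJ r) = φ i r := by
  classical
  have hact : ∀ (g h : G) (r : R1 V ε),
      r1Act V ε hε (g * h) r = r1Act V ε hε g (r1Act V ε hε h r) := by
    intro g h r
    apply Subtype.ext
    simp [latAct_mul_apply]
  have hex : ∀ r : R1 V ε, ∃ x : J, ∀ i g, pr i (J.ρ g x) = φ i (r1Act V ε hε g r) := by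
    intro r
    apply hsur (fun i g => φ i (r1Act V ε hε g r))
    intro i h g
    rw [hact, hφ]
  choose a ha using hex
  have hadd : ∀ r r', a (r + r') = a r + a r' := by
    intro r r'
    apply eq_of_pr_eq Gw Cw J pr hinj
    intro i g
    simp only [ha, map_add]
  refine ⟨AddMonoidHom.mk' a hadd, ?_, ?_⟩
  · rw [mem_HomG_iff]
    intro g r hr
    show a ⟨latAct T g r, hr⟩ = J.ρ g (a r)
    apply eq_of_pr_eq Gw Cw J pr hinj
    intro i g'
    rw [ha, ← rho_mul_apply, ha, hact]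
    rfl
  · intro i r
    have h1 := ha r i 1
    rw [map_one] at h1
    have h2 : r1Act V ε hε (1 : G) r = r := by
      apply Subtype.ext
      simp [latAct_one_apply]
    rw [h2] at h1
    exact h1

end Frobenius

end Fermat.Agent.CFT.Formation
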