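import Fermat.Agent.CFT.Formation.Setup

/-!
# P3 / CFT, layer L4 (Formation), leaf F9: the Hom sequences

* `homPre f Z : homRep R Z ⟶ homRep R' Z` : pre-composition with `f : R' ⟶ R`;
* exactness of `0 → Hom(R, C) → Hom(R, splitMod C σ) → Hom(R, I_G) → 0`
  (`homMap_splitIncl_injective`, `homMap_splitProj_surjective`, `homMap_splitProj_eq_zero_iff`);
* `mem_invariants_homRep_iff`, `norm_homRep_apply`;
* `free_latRep`, `free_r1Rep` : the lattices are free of finite rank.
-/

set_option autoImplicit false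
open CategoryTheory groupCohomology
open Fermat.Agent.CFT.Triv Fermat.Agent.CFT.Formation

noncomputable section

namespace Fermat.Agent.CFT.Formation

variable {G : Type} [Group G]

namespace HomSeq

/-- pre-composition `Hom(R, Z) ⟶ Hom(R', Z)` with `f : R' ⟶ R` -/
def homPre {R' R : Rep.{0} ℤ G} (f : R' ⟶ R) (Z : Rep.{0} ℤ G) : homRep R Z ⟶ homRep R' Z :=
  mkHom (A := homRep R Z) (B := homRep R' Z)
    { toFun := fun φ => φ.comp (homAdd f)
      map_zero' := by ext; simp
      map_add' := fun φ ψ => by ext; simp }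
    (fun g φ => by
      ext x
      change Z.ρ g (φ (R.ρ g⁻¹ (f.hom x))) = Z.ρ g (φ (f.hom (R'.ρ g⁻¹ x)))
      rw [Rep.hom_comm_apply f g⁻¹ x])

theorem homPre_hom_apply {R' R : Rep.{0} ℤ G} (f : R' ⟶ R) (Z : Rep.{0} ℤ G) (φ : R.V →+ Z.V)
    (x : R'.V) : ((homPre f Z).hom φ : R'.V →+ Z.V) x = φ (f.hom x) := rfl

variable (R : Rep.{0} ℤ G) (C : Rep.{0} ℤ G) (σ : cocycles₂ C)

theorem homMap_splitIncl_injective : Function.Injective (homMap R (splitIncl C σ)).hom := by
  intro φ ψ h
  refine AddMonoidHom.ext fun x => ?_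
  have h1 : ((homMap R (splitIncl C σ)).hom φ : R.V →+ (splitMod C σ).V) x =
      ((homMap R (splitIncl C σ)).hom ψ : R.V →+ (splitMod C σ).V) x := by rw [h]
  rw [homMap_hom_apply, homMap_hom_apply, splitIncl_apply, splitIncl_apply] at h1
  exact congrArg Prod.fst h1

theorem homMap_splitProj_surjective : Function.Surjective (homMap R (splitProj C σ)).hom := by
  intro b
  refine ⟨(splitInr C σ).comp (b : R.V →+ (augRep G).V), ?_⟩
  refine AddMonoidHom.ext fun x => ?_
  rfl

theorem homMap_splitProj_eq_zero_iff (b : R.V →+ (splitMod C σ).V) :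
    (homMap R (splitProj C σ)).hom b = 0 ↔ ∃ a : R.V →+ C.V, (homMap R (splitIncl C σ)).hom a = b := by
  constructor
  · intro h
    refine ⟨(splitFst C σ).comp b, ?_⟩
    refine AddMonoidHom.ext fun x => ?_
    have h1 : ((homMap R (splitProj C σ)).hom b : R.V →+ (augRep G).V) x = 0 := by
      rw [h]; rfl
    rw [homMap_hom_apply, splitProj_apply] at h1
    rw [homMap_hom_apply, splitIncl_apply]
    exact Prod.ext rfl h1.symm
  · rintro ⟨a, rfl⟩
    refine AddMonoidHom.ext fun x => ?_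
    rfl

/-- invariants of `homRep R Z` = equivariant additive maps -/
theorem mem_invariants_homRep_iff (Z : Rep.{0} ℤ G) (φ : R.V →+ Z.V) :
    φ ∈ (homRep R Z).ρ.invariants ↔ ∀ (g : G) (x : R.V), φ (R.ρ g x) = Z.ρ g (φ x) := by
  rw [Representation.mem_invariants]
  constructor
  · intro h g x
    have h1 : ((homRep R Z).ρ g φ : R.V →+ Z.V) (R.ρ g x) = φ (R.ρ g x) := by rw [h g]
    rw [homRep_ρ_apply] at h1
    rw [← h1]
    simp
  · intro h g
    refine AddMonoidHom.ext fun x => ?_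
    rw [homRep_ρ_apply, ← h g]
    simp

/-- the norm on `homRep R Z`, evaluated -/
theorem norm_homRep_apply [Fintype G] (Z : Rep.{0} ℤ G) (φ : R.V →+ Z.V) (x : R.V) :
    ((homRep R Z).ρ.norm φ : R.V →+ Z.V) x = ∑ g : G, Z.ρ g (φ (R.ρ g⁻¹ x)) := by
  have h1 : ((homRep R Z).ρ.norm φ : R.V →+ Z.V) =
      ∑ g : G, ((homRep R Z).ρ g φ : R.V →+ Z.V) := by
    simp [Representation.norm, LinearMap.sum_apply]
  rw [h1, AddMonoidHom.finsetSum_apply]
  rfl

/-- Freeness and finiteness over `ℤ` transport along an additive equivalence, for arbitrary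
`Module ℤ` instances. -/
theorem free_finite_of_addEquiv {M N : Type} [AddCommGroup M] [AddCommGroup N] [iM : Module ℤ M]
    [iN : Module ℤ N] (e : M ≃+ N) (h : Module.Free ℤ M ∧ Module.Finite ℤ M) :
    Module.Free ℤ N ∧ Module.Finite ℤ N := by
  let e' : M ≃ₗ[ℤ] N :=
    { e with
      map_smul' := fun n x => by
        simpa using map_intCast_smul e.toAddMonoidHom ℤ ℤ n x }
  obtain ⟨h1, h2⟩ := h
  exact ⟨Module.Free.of_equiv e', Module.Finite.equiv e'⟩

/-- the lattices are free of finite rank -/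
theorem free_latRep (T : Type) [Finite T] [MulAction G T] :
    Module.Free ℤ (latRep G T).V ∧ Module.Finite ℤ (latRep G T).V := by
  have h0 : Module.Free ℤ (T →₀ ℤ) ∧ Module.Finite ℤ (T →₀ ℤ) := ⟨inferInstance, inferInstance⟩
  exact free_finite_of_addEquiv (M := T →₀ ℤ) (N := (latRep G T).V) (AddEquiv.refl _) h0

theorem free_r1Rep {p : ℕ} {T : Type} [Finite T] [MulAction G T] (V : Rep.{0} (ZMod p) G)
    (ε : T → V) (hε : ∀ (g : G) (t : T), ε (g • t) = V.ρ g (ε t)) :
    Module.Free ℤ (r1Rep V ε hε).V ∧ Module.Finite ℤ (r1Rep V ε hε).V := by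
  have h0 : Module.Free ℤ (AddSubgroup.toIntSubmodule (R1 V ε)) ∧
      Module.Finite ℤ (AddSubgroup.toIntSubmodule (R1 V ε)) := ⟨inferInstance, inferInstance⟩
  let e : (AddSubgroup.toIntSubmodule (R1 V ε)) ≃+ (r1Rep V ε hε).V :=
    { toFun := fun x => (⟨x.1, x.2⟩ : R1 V ε)
      invFun := fun x => ⟨(x : R1 V ε).1, (x : R1 V ε).2⟩
      left_inv := fun _ => rfl
      right_inv := fun _ => rfl
      map_add' := fun _ _ => rfl }
  exact free_finite_of_addEquiv e h0

end HomSeq

end Fermat.Agent.CFT.Formation
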