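import Fermat.Agent.CFT.Formation.Setup
import Fermat.Agent.CFT.Formation.DualHand

/-!
# P3 / CFT, Formation package [F3]: the pairing `E × H¹(G, V) → ZMod p`

`E = eRep V` is `Hom(V, I_G / p)` in coordinates (families `e : G → Dual V` with `∑ e_g = 0`).
`exists_pairing` : there is `P : E → Dual (H¹(G, V))` with `P e [x] = ∑ g, e_g (x g)` on the
kernel of the norm, additive there, hitting every functional, and with `P e = 0` exactly on
`I_G · E` (`Representation.Coinvariants.ker`).

The linear algebra is in `Formation/DualHand.lean`; here: the statement `I_G · E ⊇ Ann(Z¹)`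
without finiteness of `V` (`mem_IY_of_forall_pair_eq_zero'`), and the dictionary with
`eRep`, `cocycles₁`, `H1π`.
-/

set_option autoImplicit false
set_option linter.unusedSectionVars false

open CategoryTheory groupCohomology

noncomputable section

namespace Fermat.Agent.CFT.Formation

open Fermat.Agent.CFT.Triv

namespace Pairing

open Module DualHand

section Generic

variable {k : Type*} [Field k] {G : Type*} [Group G] [Fintype G] {V : Type*} [AddCommGroup V]
  [Module k V] (ρ : Representation k G V)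

/-- Composition of a functional with the action of `g`. -/
def dcomp (ξ : Dual k V) (g : G) : Dual k V := ξ ∘ₗ ρ g

omit [Fintype G] in
@[simp] theorem dcomp_apply (ξ : Dual k V) (g : G) (v : V) : dcomp ρ ξ g v = ξ (ρ g v) :=
  rfl

/-- The family with `φ` at `a` and `0` elsewhere. -/
def sgl [DecidableEq G] (a : G) (φ : Dual k V) : G → Dual k V := fun x => if x = a then φ else 0

omit [Group G] [Fintype G] in
@[simp] theorem sgl_self [DecidableEq G] (a : G) (φ : Dual k V) : sgl a φ a = φ := by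
  simp [sgl]

omit [Group G] [Fintype G] in
theorem sgl_of_ne [DecidableEq G] {a x : G} (h : x ≠ a) (φ : Dual k V) : sgl a φ x = 0 := by
  simp [sgl, h]

omit [Group G] [Fintype G] in
@[simp] theorem sgl_zero [DecidableEq G] (a : G) : sgl a (0 : Dual k V) = 0 := by
  funext x
  simp [sgl]

omit [Group G] [Fintype G] in
theorem sgl_sum [DecidableEq G] {ι : Type*} (s : Finset ι) (a : G) (φ : ι → Dual k V) :
    sgl a (∑ i ∈ s, φ i) = ∑ i ∈ s, sgl a (φ i) := by
  funext x
  rw [Finset.sum_apply]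
  by_cases hx : x = a
  · subst hx
    simp
  · simp [sgl_of_ne hx]

omit [Group G] in
theorem sum_sgl [DecidableEq G] (a : G) (φ : Dual k V) : ∑ x, sgl a φ x = φ := by
  rw [Finset.sum_eq_single a]
  · simp
  · intro b _ hb
    exact sgl_of_ne hb φ
  · intro ha
    exact absurd (Finset.mem_univ a) ha

omit [Group G] in
theorem pair_sgl [DecidableEq G] (a : G) (φ : Dual k V) (x : G → V) :
    pair (sgl a φ) x = φ (x a) := by
  unfold pair
  rw [Finset.sum_eq_single a]
  · simp
  · intro b _ hb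
    simp [sgl_of_ne hb]
  · intro ha
    exact absurd (Finset.mem_univ a) ha

omit [Group G] in
theorem eq_of_forall_pair_eq {e e' : G → Dual k V} (h : ∀ x : G → V, pair e x = pair e' x) :
    e = e' := by
  classical
  funext a
  ext v
  have h1 := h (Pi.single a v)
  unfold pair at h1
  rw [Finset.sum_eq_single a, Finset.sum_eq_single a] at h1
  · simpa using h1
  · intro b _ hb
    simp [hb]
  · intro ha
    exact absurd (Finset.mem_univ a) ha
  · intro b _ hb
    simp [hb]
  · intro ha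
    exact absurd (Finset.mem_univ a) ha

omit [Fintype G] in
theorem act_sgl [DecidableEq G] (a b : G) (φ : Dual k V) :
    act ρ a (sgl b φ) = sgl (a * b) (dcomp ρ φ a⁻¹) := by
  funext x
  unfold act dcomp
  by_cases hx : x = a * b
  · subst hx
    simp
  · have h1 : a⁻¹ * x ≠ b := by
      intro h
      apply hx
      rw [← h, mul_inv_cancel_left]
    simp [sgl_of_ne hx, sgl_of_ne h1]

omit [Group G] in
theorem sgl_sub_sgl_mem_augY [DecidableEq G] (a b : G) (φ : Dual k V) :
    sgl a φ - sgl b φ ∈ augY (k := k) (G := G) (V := V) := by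
  rw [mem_augY_iff]
  simp [Finset.sum_sub_distrib, sum_sgl]

omit [Fintype G] in
theorem act_sub (a : G) (e e' : G → Dual k V) : act ρ a (e - e') = act ρ a e - act ρ a e' := by
  funext x
  simp [act, LinearMap.sub_comp]

/-- The coboundary `(G → V) → (G × G → V)`. -/
def dTwo : (G → V) →ₗ[k] (G × G → V) where
  toFun x := fun gh => ρ gh.1 (x gh.2) - x (gh.1 * gh.2) + x gh.1
  map_add' x y := by
    funext gh
    simp only [Pi.add_apply, map_add]
    abel
  map_smul' c x := by
    funext gh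
    simp only [Pi.smul_apply, map_smul, RingHom.id_apply, smul_add, smul_sub]

omit [Fintype G] in
theorem ker_dTwo : LinearMap.ker (dTwo ρ) = Z1 ρ := by
  ext x
  rw [LinearMap.mem_ker]
  constructor
  · intro h g a
    have h1 := congrFun h (g, a)
    simp only [dTwo, LinearMap.coe_mk, AddHom.coe_mk, Pi.zero_apply] at h1
    have h2 : x (g * a) = ρ g (x a) + x g := by
      rw [sub_add_eq_add_sub, sub_eq_zero] at h1
      exact h1.symm
    rw [h2, add_comm]
  · intro h
    funext gh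
    have h1 := h gh.1 gh.2
    simp only [dTwo, LinearMap.coe_mk, AddHom.coe_mk, Pi.zero_apply]
    rw [h1]
    abel

/-- The family attached to a generator of `range d^*` is congruent to a family supported at `1`
modulo `I_G · Y`. -/
theorem gen_sub_mem_IY [DecidableEq G] (ξ : Dual k V) (g h : G) :
    sgl h (dcomp ρ ξ g) - sgl (g * h) ξ + sgl g ξ - sgl 1 (dcomp ρ ξ g) ∈ IY ρ := by
  have h1 : act ρ g⁻¹ (sgl (g * h) ξ - sgl 1 ξ) - (sgl (g * h) ξ - sgl 1 ξ) ∈ IY ρ :=
    Submodule.subset_span ⟨g⁻¹, _, sgl_sub_sgl_mem_augY (g * h) 1 ξ, rfl⟩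
  have h2 : act ρ g⁻¹ (sgl g ξ - sgl 1 ξ) - (sgl g ξ - sgl 1 ξ) ∈ IY ρ :=
    Submodule.subset_span ⟨g⁻¹, _, sgl_sub_sgl_mem_augY g 1 ξ, rfl⟩
  rw [act_sub, act_sgl, act_sgl] at h1 h2
  simp only [inv_inv, inv_mul_cancel_left, mul_one, inv_mul_cancel] at h1 h2
  have h3 := Submodule.sub_mem _ h1 h2
  convert h3 using 1
  abel

/-- (P4') A family with `∑ e_g = 0` orthogonal to all cocycles lies in `I_G · Y`
(no finiteness assumption on `V`). -/
theorem mem_IY_of_forall_pair_eq_zero' {e : G → Dual k V}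
    (he : e ∈ augY (k := k) (G := G) (V := V)) (h : ∀ x ∈ Z1 ρ, pair e x = 0) : e ∈ IY ρ := by
  classical
  have h1 : pairL e ∈ (LinearMap.ker (dTwo ρ)).dualAnnihilator := by
    rw [Submodule.mem_dualAnnihilator]
    intro x hx
    rw [ker_dTwo] at hx
    exact h x hx
  rw [← LinearMap.range_dualMap_eq_dualAnnihilator_ker] at h1
  obtain ⟨Ξ, hΞ⟩ := h1
  obtain ⟨ξ, hξ⟩ := exists_pair_eq (G := G × G) Ξ
  -- the family `∑ F(g,h)`
  let F : G × G → (G → Dual k V) := fun gh =>
    sgl gh.2 (dcomp ρ (ξ gh) gh.1) - sgl (gh.1 * gh.2) (ξ gh) + sgl gh.1 (ξ gh)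
  have hpairF : ∀ (gh : G × G) (x : G → V),
      pair (F gh) x = ξ gh (ρ gh.1 (x gh.2) - x (gh.1 * gh.2) + x gh.1) := by
    intro gh x
    simp only [F]
    rw [pair_add_left, pair_sub_left, pair_sgl, pair_sgl, pair_sgl, map_add, map_sub]
    rfl
  have hsum : ∀ (s : Finset (G × G)) (x : G → V),
      pair (∑ gh ∈ s, F gh) x = ∑ gh ∈ s, pair (F gh) x := by
    intro s x
    induction s using Finset.induction_on with
    | empty => simp [pair]
    | insert a s ha ih => rw [Finset.sum_insert ha, Finset.sum_insert ha, pair_add_left, ih]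
  have heF : e = ∑ gh, F gh := by
    apply eq_of_forall_pair_eq
    intro x
    rw [hsum]
    have h2 : pair e x = Ξ (dTwo ρ x) := by
      have := congrArg (fun f : Dual k (G → V) => f x) hΞ
      simp only [LinearMap.dualMap_apply] at this
      rw [this]
      rfl
    rw [h2, hξ]
    unfold pair
    refine Finset.sum_congr rfl fun gh _ => ?_
    rw [← pair, hpairF]
    rfl
  -- modulo `IY`, `e` is supported at `1`
  let η : Dual k V := ∑ gh : G × G, dcomp ρ (ξ gh) gh.1
  have h3 : e - sgl 1 η ∈ IY ρ := by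
    have h4 : e - sgl 1 η = ∑ gh : G × G, (F gh - sgl 1 (dcomp ρ (ξ gh) gh.1)) := by
      rw [Finset.sum_sub_distrib, ← heF, ← sgl_sum]
    rw [h4]
    refine Submodule.sum_mem _ fun gh _ => ?_
    exact gen_sub_mem_IY ρ (ξ gh) gh.1 gh.2
  have h5 : sgl 1 η ∈ augY (k := k) (G := G) (V := V) := by
    have := Submodule.sub_mem _ he (IY_le_augY ρ h3)
    simpa using this
  have h6 : η = 0 := by
    rw [mem_augY_iff, sum_sgl] at h5
    exact h5
  rw [h6] at h3
  simpa using h3

end Generic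

section Dictionary

variable {G : Type} [Group G] [Fintype G] {p : ℕ} [Fact p.Prime] (V : Rep.{0} (ZMod p) G)

omit [Fintype G] in
theorem coe_mem_Z1 (x : cocycles₁ V) : (x : G → V) ∈ Z1 V.ρ := by
  intro g h
  rw [(mem_cocycles₁_iff (x : G → V)).mp x.2 g h, add_comm]

omit [Fintype G] in
theorem mem_cocycles₁_of_mem_Z1 {x : G → V} (hx : x ∈ Z1 V.ρ) : x ∈ cocycles₁ V := by
  rw [mem_cocycles₁_iff]
  intro g h
  rw [hx g h, add_comm]

omit [Fintype G] in
theorem mem_B1_of_mem_coboundaries₁ {x : G → V} (hx : x ∈ coboundaries₁ V) : x ∈ B1 V.ρ := by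
  obtain ⟨m, rfl⟩ := hx
  exact ⟨m, fun g => rfl⟩

omit [Fintype G] in
theorem mem_coboundaries₁_of_mem_B1 {x : G → V} (hx : x ∈ B1 V.ρ) : x ∈ coboundaries₁ V := by
  obtain ⟨m, hm⟩ := hx
  refine ⟨m, ?_⟩
  funext g
  rw [hm g]
  rfl

/-- The family of `a • e`. -/
theorem eFam_ρ_eq_act (a : G) (e : (eRep V).V) :
    eFam V ((eRep V).ρ a e) = act V.ρ a (eFam V e) := rfl

theorem eFam_norm (e : (eRep V).V) :
    eFam V ((eRep V).ρ.norm e) = ∑ a : G, act V.ρ a (eFam V e) := by
  rw [Representation.norm, LinearMap.sum_apply, map_sum]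
  rfl

theorem eFam_mem_kerN_of_norm_eq_zero (e : (eRep V).V) (he : (eRep V).ρ.norm e = 0) :
    eFam V e ∈ kerN V.ρ := by
  refine ⟨sum_eFam V e, ?_⟩
  have h1 : (∑ a : G, act V.ρ a (eFam V e)) 1 = 0 := by
    rw [← eFam_norm, he, map_zero]
    rfl
  rw [Finset.sum_apply] at h1
  rw [← h1]
  refine (Fintype.sum_equiv (Equiv.inv G) _ _ fun a => ?_).symm
  simp [act]

theorem norm_eq_zero_of_eFam_mem_kerN (e : (eRep V).V) (he : eFam V e ∈ kerN V.ρ) :
    (eRep V).ρ.norm e = 0 := by
  apply eFam_injective V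
  rw [eFam_norm, map_zero]
  funext x
  rw [Finset.sum_apply]
  have h1 : ∀ a : G, act V.ρ a (eFam V e) x =
      (eFam V e (a⁻¹ * x) ∘ₗ V.ρ (a⁻¹ * x)) ∘ₗ V.ρ x⁻¹ := by
    intro a
    unfold act
    rw [LinearMap.comp_assoc]
    congr 1
    rw [← Module.End.mul_eq_comp, ← map_mul, mul_assoc, mul_inv_cancel, mul_one]
  rw [Finset.sum_congr rfl fun a _ => h1 a]
  rw [Fintype.sum_equiv ((Equiv.inv G).trans (Equiv.mulRight x))
    (fun a => (eFam V e (a⁻¹ * x) ∘ₗ V.ρ (a⁻¹ * x)) ∘ₗ V.ρ x⁻¹)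
    (fun g => (eFam V e g ∘ₗ V.ρ g) ∘ₗ V.ρ x⁻¹) (fun a => rfl)]
  have h2 : ∑ g : G, (eFam V e g ∘ₗ V.ρ g) ∘ₗ V.ρ x⁻¹ = (∑ g : G, eFam V e g ∘ₗ V.ρ g) ∘ₗ V.ρ x⁻¹ := by
    ext v
    simp [LinearMap.sum_apply]
  rw [h2, he.2]
  rfl

theorem H1π_surjective : Function.Surjective (H1π V).hom :=
  (ModuleCat.epi_iff_surjective (H1π V)).mp inferInstance

/-- The functional on `H¹(G, V)` given by a family in `kerN`. -/
def descend (e : G → Dual (ZMod p) V) (he : e ∈ kerN V.ρ) :
    Module.Dual (ZMod p) (groupCohomology.H1 V) :=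
  ((LinearMap.ker (H1π V).hom).liftQ (pairL e ∘ₗ (cocycles₁ V).subtype) (by
      intro x hx
      rw [LinearMap.mem_ker] at hx ⊢
      have h1 : (x : G → V) ∈ coboundaries₁ V := (H1π_eq_zero_iff x).mp hx
      exact pair_eq_zero_of_mem_B1 V.ρ he (mem_B1_of_mem_coboundaries₁ V h1))) ∘ₗ
    ((H1π V).hom.quotKerEquivOfSurjective (H1π_surjective V)).symm.toLinearMap

theorem descend_apply (e : G → Dual (ZMod p) V) (he : e ∈ kerN V.ρ) (x : cocycles₁ V) :
    descend V e he ((H1π V).hom x) = pair e (x : G → V) := by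
  unfold descend
  rw [LinearMap.comp_apply, LinearEquiv.coe_coe, LinearMap.quotKerEquivOfSurjective_symm_apply,
    Submodule.liftQ_apply]
  rfl

theorem dual_ext {d d' : Module.Dual (ZMod p) (groupCohomology.H1 V)}
    (h : ∀ x : cocycles₁ V, d ((H1π V).hom x) = d' ((H1π V).hom x)) : d = d' := by
  refine LinearMap.ext fun z => ?_
  obtain ⟨x, rfl⟩ := H1π_surjective V z
  exact h x

/-- `I_G · E` in coordinates is contained in `Coinvariants.ker`. -/
theorem exists_mem_coinvariantsKer_of_mem_IY {f : G → Dual (ZMod p) V} (hf : f ∈ IY V.ρ) :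
    ∃ hf' : ∑ g : G, f g = 0, eMk V f hf' ∈ Representation.Coinvariants.ker (eRep V).ρ := by
  refine Submodule.span_induction
    (p := fun f _ => ∃ hf' : ∑ g : G, f g = 0,
      eMk V f hf' ∈ Representation.Coinvariants.ker (eRep V).ρ) ?_ ?_ ?_ ?_ hf
  · rintro d ⟨h, e, he, rfl⟩
    have he' : ∑ g : G, e g = 0 := he
    have hd : ∑ g : G, (act V.ρ h e - e) g = 0 :=
      IY_le_augY V.ρ (Submodule.subset_span ⟨h, e, he, rfl⟩)
    refine ⟨hd, ?_⟩
    have h1 : eMk V (act V.ρ h e - e) hd = (eRep V).ρ h (eMk V e he') - eMk V e he' := rfl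
    rw [h1]
    exact Representation.Coinvariants.sub_mem_ker h _
  · exact ⟨by simp, Submodule.zero_mem _⟩
  · rintro x y _ _ ⟨hx, hx'⟩ ⟨hy, hy'⟩
    have hxy : ∑ g : G, (x + y) g = 0 := by
      simp only [Pi.add_apply, Finset.sum_add_distrib, hx, hy, add_zero]
    refine ⟨hxy, ?_⟩
    have h1 : eMk V (x + y) hxy = eMk V x hx + eMk V y hy := rfl
    rw [h1]
    exact Submodule.add_mem _ hx' hy'
  · rintro c x _ ⟨hx, hx'⟩
    have hcx : ∑ g : G, (c • x) g = 0 := by
      simp only [Pi.smul_apply, ← Finset.smul_sum, hx, smul_zero]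
    refine ⟨hcx, ?_⟩
    have h1 : eMk V (c • x) hcx = c.val • eMk V x hx := by
      apply eFam_injective V
      rw [map_nsmul]
      show c • x = c.val • x
      rw [← Nat.cast_smul_eq_nsmul (ZMod p), ZMod.natCast_zmod_val]
    rw [h1]
    exact nsmul_mem hx' _

/-- `Coinvariants.ker` is contained in `I_G · E` in coordinates. -/
theorem eFam_mem_IY_of_mem_coinvariantsKer {e : (eRep V).V}
    (he : e ∈ Representation.Coinvariants.ker (eRep V).ρ) : eFam V e ∈ IY V.ρ := by
  refine Submodule.span_induction (p := fun e _ => eFam V e ∈ IY V.ρ) ?_ ?_ ?_ ?_ he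
  · rintro _ ⟨⟨g, x⟩, rfl⟩
    show eFam V ((eRep V).ρ g x - x) ∈ IY V.ρ
    rw [map_sub, eFam_ρ_eq_act]
    exact Submodule.subset_span ⟨g, eFam V x, sum_eFam V x, rfl⟩
  · rw [map_zero]
    exact Submodule.zero_mem _
  · intro x y _ _ hx hy
    rw [map_add]
    exact Submodule.add_mem _ hx hy
  · intro n x _ hx
    have h2 := zsmul_mem hx n
    convert h2 using 1
    exact map_zsmul (eFam V) n x

/-- **[F3]** The pairing `E × H¹(G, V) → ZMod p`. -/
theorem exists_pairing :
    ∃ P : (eRep V).V → Module.Dual (ZMod p) (groupCohomology.H1 V),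
      (∀ (e : (eRep V).V) (x : cocycles₁ V), (eRep V).ρ.norm e = 0 →
        P e ((H1π V).hom x) = ∑ g : G, eFam V e g (x g)) ∧
      (∀ e e' : (eRep V).V, (eRep V).ρ.norm e = 0 → (eRep V).ρ.norm e' = 0 →
        P (e + e') = P e + P e') ∧
      (∀ d, ∃ e : (eRep V).V, (eRep V).ρ.norm e = 0 ∧ P e = d) ∧
      (∀ e : (eRep V).V, (eRep V).ρ.norm e = 0 →
        (P e = 0 ↔ e ∈ Representation.Coinvariants.ker (eRep V).ρ)) := by
  classical
  let P : (eRep V).V → Module.Dual (ZMod p) (groupCohomology.H1 V) := fun e =>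
    if h : eFam V e ∈ kerN V.ρ then descend V (eFam V e) h else 0
  have hP : ∀ (e : (eRep V).V) (x : cocycles₁ V), (eRep V).ρ.norm e = 0 →
      P e ((H1π V).hom x) = ∑ g : G, eFam V e g (x g) := by
    intro e x he
    have h := eFam_mem_kerN_of_norm_eq_zero V e he
    simp only [P, dif_pos h]
    rw [descend_apply]
    rfl
  refine ⟨P, hP, ?_, ?_, ?_⟩
  · intro e e' he he'
    have hee' : (eRep V).ρ.norm (e + e') = 0 := by rw [map_add, he, he', add_zero]
    apply dual_ext V
    intro x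
    rw [LinearMap.add_apply, hP _ x hee', hP _ x he, hP _ x he', ← Finset.sum_add_distrib]
    refine Finset.sum_congr rfl fun g _ => ?_
    rw [map_add]
    rfl
  · intro d
    let φ : Z1 V.ρ →ₗ[ZMod p] ZMod p :=
      d ∘ₗ (H1π V).hom ∘ₗ Submodule.inclusion (fun x hx => mem_cocycles₁_of_mem_Z1 V hx)
    have hφ : ∀ x : Z1 V.ρ, (x : G → V) ∈ B1 V.ρ → φ x = 0 := by
      intro x hx
      have h1 : (H1π V).hom (⟨x, mem_cocycles₁_of_mem_Z1 V x.2⟩ : cocycles₁ V) = 0 :=
        (H1π_eq_zero_iff _).mpr (mem_coboundaries₁_of_mem_B1 V hx)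
      show d ((H1π V).hom (⟨x, mem_cocycles₁_of_mem_Z1 V x.2⟩ : cocycles₁ V)) = 0
      rw [h1, map_zero]
    obtain ⟨e, he, hpe⟩ := exists_mem_kerN_pair_eq V.ρ φ hφ
    have hN : (eRep V).ρ.norm (eMk V e he.1) = 0 := norm_eq_zero_of_eFam_mem_kerN V _ he
    refine ⟨eMk V e he.1, hN, ?_⟩
    apply dual_ext V
    intro x
    rw [hP _ x hN]
    have h2 := hpe ⟨(x : G → V), coe_mem_Z1 V x⟩
    exact h2.symm
  · intro e he
    constructor
    · intro h0
      have h1 : ∀ x ∈ Z1 V.ρ, pair (eFam V e) x = 0 := by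
        intro x hx
        have h2 := hP e ⟨x, mem_cocycles₁_of_mem_Z1 V hx⟩ he
        rw [h0] at h2
        exact h2.symm
      have h3 : eFam V e ∈ IY V.ρ :=
        mem_IY_of_forall_pair_eq_zero' V.ρ (sum_eFam V e) h1
      obtain ⟨hf', h4⟩ := exists_mem_coinvariantsKer_of_mem_IY V h3
      exact h4
    · intro hker
      have h1 : eFam V e ∈ IY V.ρ := eFam_mem_IY_of_mem_coinvariantsKer V hker
      apply dual_ext V
      intro x
      rw [hP e x he, LinearMap.zero_apply]
      exact pair_eq_zero_of_mem_IY V.ρ h1 (coe_mem_Z1 V x)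

end Dictionary

end Pairing

end Fermat.Agent.CFT.Formation

end
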