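import Fermat.Agent.CFT.Formation.Setup

/-!
# P3 / CFT, Formation leaf [F4]: invariants of `Hom(ℤ[T], I_G)` are norms

Every `G`-equivariant additive map `ℤ[T] → I_G` is a norm `N_G θ'`.  Owner: helper60.
-/

set_option autoImplicit false

open CategoryTheory groupCohomology
open Fermat.Agent.CFT.Triv Fermat.Agent.CFT.Formation

noncomputable section

namespace Fermat.Agent.CFT.Formation

variable {G : Type} [Group G]

namespace PermVanish

/-- coefficients of a left translate in `ℤ[G]`. -/
lemma regRho_apply (g a : G) (y : G →₀ ℤ) : regRho G g y a = y (g⁻¹ * a) := by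
  have h : regRho G g y (g * (g⁻¹ * a)) = y (g⁻¹ * a) :=
    Finsupp.mapDomain_apply (mul_right_injective g) y _
  rwa [mul_inv_cancel_left] at h

omit [Group G] in
/-- the augmentation is the sum of the coefficients. -/
lemma augMap_eq_sum [Fintype G] (y : G →₀ ℤ) : augMap G y = ∑ a : G, y a := by
  simp [augMap, Finsupp.linearCombination_apply, Finsupp.sum_fintype]

/-- the norm on `Hom(A, B)`, pointwise. -/
lemma norm_homRep_apply' [Fintype G] (A B : Rep.{0} ℤ G) (φ : A.V →+ B.V) (x : A.V) :
    ((homRep A B).ρ.norm φ : A.V →+ B.V) x = ∑ g : G, B.ρ g (φ (A.ρ g⁻¹ x)) := by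
  have h1 : (homRep A B).ρ.norm φ = ∑ g : G, (homRep A B).ρ g φ := by
    rw [Representation.norm, LinearMap.sum_apply]
  rw [h1]
  have h2 : ((∑ g : G, ((homRep A B).ρ g φ : A.V →+ B.V)) : A.V →+ B.V) x
      = ∑ g : G, ((homRep A B).ρ g φ : A.V →+ B.V) x := AddMonoidHom.finsetSum_apply _ _ _
  exact h2

variable [Fintype G] (T : Type) [MulAction G T]

theorem invariant_eq_norm (θ : (T →₀ ℤ) →+ LinearMap.ker (augMap G))
    (hθ : θ ∈ (homRep (latRep G T) (augRep G)).ρ.invariants) :
    ∃ θ' : (T →₀ ℤ) →+ LinearMap.ker (augMap G),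
      (homRep (latRep G T) (augRep G)).ρ.norm θ' = θ := by
  classical
  set x : T → (G →₀ ℤ) :=
    fun t => ((θ (Finsupp.single t 1) : LinearMap.ker (augMap G)) : G →₀ ℤ) with hx
  have haug : ∀ t, augMap G (x t) = 0 := fun t => (θ (Finsupp.single t 1)).2
  have hequiv : ∀ (g : G) (t : T), x (g • t) = regRho G g (x t) := by
    intro g t
    have h := (Representation.mem_invariants _ θ).mp hθ g
    have h3 : (((homRep (latRep G T) (augRep G)).ρ g θ : (T →₀ ℤ) →+ LinearMap.ker (augMap G))
        (Finsupp.single (g • t) 1) : LinearMap.ker (augMap G)) =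
        augRho G g (θ (latAct T g⁻¹ (Finsupp.single (g • t) 1))) := rfl
    have h4 : (((homRep (latRep G T) (augRep G)).ρ g θ : (T →₀ ℤ) →+ LinearMap.ker (augMap G))
        (Finsupp.single (g • t) 1) : LinearMap.ker (augMap G)) = θ (Finsupp.single (g • t) 1) :=
      DFunLike.congr_fun h (Finsupp.single (g • t) 1)
    rw [h3, latAct_single, inv_smul_smul] at h4
    have h5 := congrArg (Subtype.val) h4
    rw [augRho_coe] at h5
    exact h5.symm
  have hstab : ∀ (t : T) (h : G), h • t = t → ∀ a : G, x t (h * a) = x t a := by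
    intro t h ht a
    have h1 := hequiv h t
    rw [ht] at h1
    have h2 := congrArg (fun y : G →₀ ℤ => y (h * a)) h1
    simp only [regRho_apply, inv_mul_cancel_left] at h2
    exact h2
  have hshift : ∀ (g : G) (t : T) (a : G), x (g • t) (g * a) = x t a := by
    intro g t a
    rw [hequiv, regRho_apply, inv_mul_cancel_left]
  -- orbit representatives
  let ρ : T → T := fun t => (Quotient.out (Quotient.mk (MulAction.orbitRel G T) t) : T)
  have hρ : ∀ t, ∃ g : G, g • t = ρ t := by
    intro t
    have h1 : (MulAction.orbitRel G T) (ρ t) t := Quotient.mk_out (s := MulAction.orbitRel G T) t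
    exact MulAction.mem_orbit_iff.mp (MulAction.orbitRel_apply.mp h1)
  have hρ' : ∀ (g : G) (t : T), ρ (g • t) = ρ t := by
    intro g t
    have h1 : Quotient.mk (MulAction.orbitRel G T) (g • t) = Quotient.mk (MulAction.orbitRel G T) t :=
      Quotient.sound (MulAction.orbitRel_apply.mpr (MulAction.mem_orbit t g))
    show Quotient.out _ = Quotient.out _
    rw [h1]
  choose β hβ using hρ
  let y : T → (G →₀ ℤ) := fun t => (x t).filter (fun a => a = β (a⁻¹ • t))
  have hy_apply : ∀ t a, y t a = if a = β (a⁻¹ • t) then x t a else 0 :=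
    fun t a => Finsupp.filter_apply _ _ _
  have hyaug : ∀ t, augMap G (y t) = 0 := by
    intro t
    rw [augMap_eq_sum]
    simp only [hy_apply]
    rw [← Finset.sum_filter]
    by_cases hne : (Finset.univ.filter (fun a : G => a = β (a⁻¹ • t))).Nonempty
    · obtain ⟨a₀, ha₀⟩ := hne
      rw [Finset.mem_filter] at ha₀
      have ht : ρ t = t := by
        have h1 := hβ (a₀⁻¹ • t)
        rw [← ha₀.2, smul_inv_smul, hρ'] at h1
        exact h1.symm
      have hfix : ∀ g : G, (β (g⁻¹ • t))⁻¹ • t = g⁻¹ • t := by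
        intro g
        have h1 := hβ (g⁻¹ • t)
        rw [hρ', ht] at h1
        rw [inv_smul_eq_iff, h1]
      have key : ∑ p ∈ (Finset.univ.filter (fun h : G => h • t = t)) ×ˢ
          (Finset.univ.filter (fun a : G => a = β (a⁻¹ • t))), x t p.2 = ∑ g : G, x t g := by
        refine Finset.sum_nbij' (fun p => p.1 * p.2)
          (fun g => (g * (β (g⁻¹ • t))⁻¹, β (g⁻¹ • t))) ?_ ?_ ?_ ?_ ?_
        · intro p _
          exact Finset.mem_univ _
        · intro g _
          simp only [Finset.mem_product, Finset.mem_filter, Finset.mem_univ, true_and]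
          refine ⟨?_, ?_⟩
          · rw [mul_smul, hfix, smul_inv_smul]
          · rw [hfix]
        · intro p hp
          simp only [Finset.mem_product, Finset.mem_filter, Finset.mem_univ, true_and] at hp
          have h1 : (p.1 * p.2)⁻¹ • t = p.2⁻¹ • t := by
            rw [mul_inv_rev, mul_smul, inv_smul_eq_iff.mpr hp.1.symm]
          simp only [h1, ← hp.2, mul_inv_cancel_right]
        · intro g _
          simp only [inv_mul_cancel_right]
        · intro p hp
          simp only [Finset.mem_product, Finset.mem_filter, Finset.mem_univ, true_and] at hp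
          exact (hstab t p.1 hp.1 p.2).symm
      rw [Finset.sum_product] at key
      simp only [Finset.sum_const] at key
      have h0 : ∑ g : G, x t g = 0 := by rw [← augMap_eq_sum]; exact haug t
      rw [h0] at key
      have hcard : (Finset.univ.filter (fun h : G => h • t = t)).card ≠ 0 :=
        Finset.card_ne_zero_of_mem (a := 1) (by simp)
      exact (smul_eq_zero.mp key).resolve_left hcard
    · rw [Finset.not_nonempty_iff_eq_empty] at hne
      rw [hne, Finset.sum_empty]
  let θ' : (T →₀ ℤ) →+ LinearMap.ker (augMap G) :=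
    Finsupp.liftAddHom (fun t => zmultiplesHom (LinearMap.ker (augMap G)) ⟨y t, hyaug t⟩)
  have hθ' : ∀ t, θ' (Finsupp.single t 1) = ⟨y t, hyaug t⟩ := by
    intro t
    simp [θ']
  refine ⟨θ', ?_⟩
  show ((homRep (latRep G T) (augRep G)).ρ.norm θ' : (T →₀ ℤ) →+ LinearMap.ker (augMap G)) = θ
  refine Finsupp.addHom_ext' (fun t => AddMonoidHom.ext_int ?_)
  show ((homRep (latRep G T) (augRep G)).ρ.norm θ' : (T →₀ ℤ) →+ LinearMap.ker (augMap G))
    (Finsupp.single t 1) = θ (Finsupp.single t 1)
  have hnorm : ((homRep (latRep G T) (augRep G)).ρ.norm θ' :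
      (T →₀ ℤ) →+ LinearMap.ker (augMap G)) (Finsupp.single t 1)
      = ∑ g : G, augRho G g (θ' (latAct T g⁻¹ (Finsupp.single t 1))) := by
    exact norm_homRep_apply' (latRep G T) (augRep G) θ' (Finsupp.single t 1)
  rw [hnorm]
  apply Subtype.ext
  rw [AddSubmonoidClass.coe_finsetSum]
  ext a
  rw [Finsupp.finsetSum_apply]
  have e1 : ∀ g : G, (g⁻¹ * a)⁻¹ • g⁻¹ • t = a⁻¹ • t := by
    intro g
    rw [mul_inv_rev, inv_inv, mul_smul, smul_inv_smul]
  have e2 : ∀ g : G, x (g⁻¹ • t) (g⁻¹ * a) = x t a := fun g => hshift g⁻¹ t a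
  simp only [latAct_single, hθ', augRho_coe, regRho_apply, hy_apply, e1, e2]
  rw [Finset.sum_eq_single (a * (β (a⁻¹ • t))⁻¹)]
  · rw [if_pos]
    simp
  · intro g _ hg
    rw [if_neg]
    intro h
    apply hg
    rw [← h]
    group
  · intro h
    exact absurd (Finset.mem_univ _) h

end PermVanish

end Fermat.Agent.CFT.Formation
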