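import Fermat.Agent.CFT.Formation.Setup
import Fermat.Agent.CFT.Coh.Provide

/-!
# CFT program, layer Formation, leaf [F5]: the `n`-trick and the map of splitting modules

* `isPClassModule_nsmul` : `m • σ` is again a `p`-class cocycle for `m` prime to `p`;
* `exists_cobound_nsmul` : a 2-cocycle that is a coboundary on every `p`-subgroup becomes a
  coboundary after multiplication by any multiple of the prime-to-`p` part of the group order
  (`Coh.Plan.ResKer` in degree `2`, in cocycle form);
* `exists_splitMap` : if `j ∘ σ' = σ ∘ (f × f) + d b`, then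
  `(c', y') ↦ (j c' + β y', f_* y')`, `β [h] = b h`, is an `f`-equivariant additive map of
  splitting modules `splitMod C' σ' → splitMod C σ` compatible with `splitIncl`, `splitProj`.
-/

set_option autoImplicit false

open CategoryTheory groupCohomology
open Fermat.Agent.CFT.Triv Fermat.Agent.CFT.Formation

noncomputable section

namespace Fermat.Agent.CFT.Formation

namespace SplitMap

/-! ### Averaging: `|H|` kills `H²` -/

/-- `|H|` kills `H²(H, X)`, in cocycle form (averaging). -/
theorem exists_card_nsmul_eq_d₁₂ {H : Type} [Group H] [Fintype H] (X : Rep.{0} ℤ H)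
    (τ : H × H → X) (hτ : τ ∈ cocycles₂ X) :
    ∃ b : H → X, Fintype.card H • τ = (d₁₂ X).hom b := by
  refine ⟨fun g => ∑ k : H, τ (g, k), ?_⟩
  funext ⟨g, h⟩
  have hc := (mem_cocycles₂_iff τ).1 hτ g h
  rw [d₁₂_hom_apply]
  simp only [Pi.smul_apply, map_sum]
  have h1 : ∑ k : H, τ (g, h * k) = ∑ k : H, τ (g, k) :=
    Fintype.sum_equiv (Equiv.mulLeft h) _ _ fun k => rfl
  have h2 : ∑ k : H, (τ (g * h, k) + τ (g, h)) = ∑ k : H, (X.ρ g (τ (h, k)) + τ (g, h * k)) :=
    Finset.sum_congr rfl fun k _ => hc k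
  rw [Finset.sum_add_distrib, Finset.sum_add_distrib, h1, Finset.sum_const, Finset.card_univ] at h2
  rw [eq_sub_of_add_eq' h2]
  abel

/-! ### (a) scaling a class cocycle -/

section NSmul

variable {G : Type} [Group G]

/-- The restriction of a 2-cocycle along `f : H →* G` is a 2-cocycle. -/
theorem comp_map_mem_cocycles₂ (C : Rep.{0} ℤ G) (σ : cocycles₂ C) {H : Type} [Group H]
    (f : H →* G) : (⇑σ ∘ Prod.map f f) ∈ cocycles₂ (Rep.res f C) := by
  rw [mem_cocycles₂_iff]
  intro g h j
  have := (mem_cocycles₂_iff ⇑σ).1 σ.2 (f g) (f h) (f j)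
  simpa using this

/-- `n • σ` is again a class cocycle at `f : H →* G` if `n` is prime to `|H|`. -/
theorem isClassAt_nsmul {C : Rep.{0} ℤ G} {σ : cocycles₂ C} {H : Type} [Group H] [Finite H]
    {f : H →* G} (h : IsClassAt C σ f) (n : ℕ) (hn : n.Coprime (Nat.card H)) :
    IsClassAt C (n • σ) f := by
  classical
  have : Fintype H := Fintype.ofFinite H
  have hcoe : (⇑(n • σ) ∘ Prod.map f f : H × H → C) = (n : ℤ) • (⇑σ ∘ Prod.map f f) := by
    funext x
    rw [Pi.smul_apply, natCast_zsmul]
    rfl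
  obtain ⟨b₀, hb₀⟩ := exists_card_nsmul_eq_d₁₂ (Rep.res f C) _ (comp_map_mem_cocycles₂ C σ f)
  rw [← Nat.card_eq_fintype_card] at hb₀
  have hcop : IsCoprime (n : ℤ) (Nat.card H : ℤ) := Nat.isCoprime_iff_coprime.2 hn
  refine ⟨h.h1, fun τ => ?_, fun k hk => ?_⟩
  · obtain ⟨k, b, hkb⟩ := h.gen τ
    obtain ⟨u, v, huv⟩ := hcop
    refine ⟨k * u, b + (k * v) • b₀, ?_⟩
    have hk : k * u * n + k * v * (Nat.card H) = k := by linear_combination k * huv
    rw [hkb, hcoe, map_add, map_zsmul, ← hb₀, ← natCast_zsmul, smul_smul, smul_smul, ← add_assoc,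
      add_right_comm, ← add_smul, hk]
  · obtain ⟨b, hb⟩ := hk
    rw [hcoe, smul_smul] at hb
    exact hcop.symm.dvd_of_dvd_mul_right (h.ord (k * n) ⟨b, hb⟩)

/-- (a) scaling a `p`-class module by `m` prime to `p` -/
theorem isPClassModule_nsmul (p : ℕ) [Fact p.Prime] (C : Rep.{0} ℤ G) (σ : cocycles₂ C)
    (h : IsPClassModule p C σ) (m : ℕ) (hm : Nat.Coprime m p) : IsPClassModule p C (m • σ) := by
  intro H _ _ f hf hH
  refine isClassAt_nsmul (h H f hf hH) m ?_
  obtain ⟨a, ha⟩ := IsPGroup.iff_card.1 hH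
  rw [ha]
  exact Nat.Coprime.pow_right a hm

end NSmul

/-! ### (b) coboundary on the Sylow subgroup ⇒ coboundary after scaling -/

section ResKer

variable {G : Type} [Group G] (X : Rep.{0} ℤ G)

/-- A 2-cocycle that is a coboundary on a subgroup `S` of finite index becomes a coboundary after
multiplication by the index (`Coh.Plan.ResKer` in cocycle form). -/
theorem exists_index_nsmul_eq_d₁₂ (S : Subgroup G) [S.FiniteIndex] (τ : G × G → X)
    (hτ : τ ∈ cocycles₂ X)
    (hS : ∃ b : S → X, ∀ g h : S, τ ((g : G), (h : G)) = X.ρ (g : G) (b h) - b (g * h) + b g) :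
    ∃ b : G → X, S.index • τ = (d₁₂ X).hom b := by
  obtain ⟨b, hb⟩ := hS
  have h0 : (Coh.rest X S 2).hom (H2π X ⟨τ, hτ⟩) = 0 := by
    have h1 := H2π_comp_map_apply (A := X) (B := Rep.res S.subtype X) S.subtype (𝟙 _) ⟨τ, hτ⟩
    refine h1.trans ((H2π_eq_zero_iff _).2 ⟨b, ?_⟩)
    funext ⟨g, h⟩
    rw [d₁₂_hom_apply]
    exact (hb g h).symm
  have h2 := Coh.Provide.resKer ℤ G X S 2 (H2π X ⟨τ, hτ⟩) h0
  rw [← map_nsmul, H2π_eq_zero_iff] at h2
  obtain ⟨b', hb'⟩ := h2
  exact ⟨b', hb'.symm⟩

end ResKer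

/-- (b) [LG] on the `p`-subgroups of a finite group `H` gives a global coboundary after
multiplying by a multiple of the Sylow index. -/
theorem exists_cobound_nsmul (p : ℕ) [Fact p.Prime] {H : Type} [Group H] [Finite H]
    (D : Rep.{0} ℤ H) (τ : cocycles₂ D)
    (hτ : ∀ P : Subgroup H, IsPGroup p P → ∃ b : P → D, ∀ g h : P,
      τ ((g : H), (h : H)) = D.ρ (g : H) (b h) - b (g * h) + b g)
    (m : ℕ) (hm : ordCompl[p] (Nat.card H) ∣ m) :
    ∃ b : H → D, ∀ g h : H, m • τ (g, h) = D.ρ g (b h) - b (g * h) + b g := by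
  obtain ⟨P⟩ : Nonempty (Sylow p H) := inferInstance
  obtain ⟨b, hb⟩ := exists_index_nsmul_eq_d₁₂ D (P : Subgroup H) ⇑τ τ.2 (hτ P P.isPGroup')
  have hidx : (P : Subgroup H).index = ordCompl[p] (Nat.card H) := by
    have h := (P : Subgroup H).card_mul_index
    rw [P.card_eq_multiplicity] at h
    exact (Nat.div_eq_of_eq_mul_right (pow_pos (Fact.out : p.Prime).pos _) h.symm).symm
  rw [← hidx] at hm
  obtain ⟨m', rfl⟩ := hm
  refine ⟨m' • b, fun g h => ?_⟩
  have h3 : (P : Subgroup H).index • τ (g, h) = D.ρ g (b h) - b (g * h) + b g := by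
    have := congrFun hb (g, h)
    rwa [d₁₂_hom_apply] at this
  rw [mul_comm, mul_smul, h3]
  simp only [Pi.smul_apply, smul_add, smul_sub, map_nsmul]

/-! ### (c) the map of splitting modules -/

section MapC

variable {G : Type} [Group G] {H : Type} [Group H] (f : H →* G)

omit [Group G] [Group H] in
/-- `mapDomain` preserves the augmentation. -/
theorem augMap_mapDomain (f : H → G) (y : H →₀ ℤ) :
    augMap G (Finsupp.mapDomain f y) = augMap H y := by
  induction y using Finsupp.induction_linear with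
  | zero => simp
  | add a b ha hb => rw [Finsupp.mapDomain_add, map_add, map_add, ha, hb]
  | single x n => simp

/-- `mapDomain f` intertwines left translation by `h` and by `f h`. -/
theorem mapDomain_regRho (h : H) (y : H →₀ ℤ) :
    Finsupp.mapDomain f (regRho H h y) = regRho G (f h) (Finsupp.mapDomain f y) := by
  induction y using Finsupp.induction_linear with
  | zero => simp
  | add a b ha hb => rw [map_add, Finsupp.mapDomain_add, Finsupp.mapDomain_add, map_add, ha, hb]
  | single x n => simp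

/-- The map `I_H → I_G` induced by `f`. -/
def augPush : (augRep H).V →+ (augRep G).V where
  toFun y := ⟨Finsupp.mapDomain f (y : H →₀ ℤ), by
    rw [LinearMap.mem_ker, augMap_mapDomain]
    exact y.2⟩
  map_zero' := by
    apply Subtype.ext
    simp
  map_add' y y' := by
    apply Subtype.ext
    simp [Finsupp.mapDomain_add]

@[simp] theorem augPush_coe (y : LinearMap.ker (augMap H)) :
    ((augPush f y : LinearMap.ker (augMap G)) : G →₀ ℤ) = Finsupp.mapDomain f (y : H →₀ ℤ) := rfl

/-- The additive map `ℤ[H] → C`, `[h] ↦ b h`. -/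
def betaHom {C : Type} [AddCommGroup C] (b : H → C) : (H →₀ ℤ) →+ C :=
  Finsupp.liftAddHom (fun h => (zmultiplesHom C) (b h))

omit [Group H] in
@[simp] theorem betaHom_single {C : Type} [AddCommGroup C] (b : H → C) (h : H) (n : ℤ) :
    betaHom b (Finsupp.single h n) = n • b h := by
  simp [betaHom]

/-- The key identity behind the equivariance of the map of splitting modules. -/
theorem splitMap_key (C' : Rep.{0} ℤ H) (σ' : cocycles₂ C') (C : Rep.{0} ℤ G) (σ : cocycles₂ C)
    (j : C'.V →+ C.V) (b : H → C.V)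
    (hb : ∀ g h : H, j (σ' (g, h)) = σ (f g, f h) + (C.ρ (f g) (b h) - b (g * h) + b g))
    (h : H) (y : H →₀ ℤ) :
    j (splitPhi C' σ' h y) + betaHom b (regRho H h y) =
      C.ρ (f h) (betaHom b y) + splitPhi C σ (f h) (Finsupp.mapDomain f y) + augMap H y • b h := by
  induction y using Finsupp.induction_linear with
  | zero => simp
  | add a c ha hc =>
    simp only [map_add, Finsupp.mapDomain_add, add_smul]
    rw [add_add_add_comm, ha, hc]
    abel
  | single k n =>
    simp only [splitPhi_single, regRho_single, betaHom_single, Finsupp.mapDomain_single,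
      augMap_single, map_zsmul]
    rw [hb h k, ← smul_add, ← smul_add, ← smul_add]
    congr 1
    abel

/-- (c) the map of splitting modules -/
theorem exists_splitMap (f : H →* G) (hf : Function.Injective f)
    (C' : Rep.{0} ℤ H) (σ' : cocycles₂ C') (C : Rep.{0} ℤ G) (σ : cocycles₂ C)
    (j : C'.V →+ C.V) (hj : ∀ (h : H) (c : C'.V), j (C'.ρ h c) = C.ρ (f h) (j c))
    (b : H → C.V)
    (hb : ∀ g h : H, j (σ' (g, h)) = σ (f g, f h) + (C.ρ (f g) (b h) - b (g * h) + b g)) :
    ∃ (lX : (splitMod C' σ').V →+ (splitMod C σ).V) (lI : (augRep H).V →+ (augRep G).V),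
      (∀ (h : H) (x : (splitMod C' σ').V),
        lX ((splitMod C' σ').ρ h x) = (splitMod C σ).ρ (f h) (lX x)) ∧
      (∀ (h : H) (y : (augRep H).V), lI ((augRep H).ρ h y) = (augRep G).ρ (f h) (lI y)) ∧
      (∀ c : C'.V, lX ((splitIncl C' σ').hom c) = (splitIncl C σ).hom (j c)) ∧
      (∀ x : (splitMod C' σ').V, lI ((splitProj C' σ').hom x) = (splitProj C σ).hom (lX x)) ∧
      (∀ (y : LinearMap.ker (augMap H)), ((lI y : LinearMap.ker (augMap G)) : G →₀ ℤ) =
        Finsupp.mapDomain f (y : H →₀ ℤ)) := by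
  have _ := hf
  let lX : (splitMod C' σ').V →+ (splitMod C σ).V :=
    { toFun := fun x => (j x.1 + betaHom b (x.2 : H →₀ ℤ), augPush f x.2)
      map_zero' := by
        apply Prod.ext
        · simp
        · simp
      map_add' := fun x x' => by
        apply Prod.ext
        · simp only [Prod.fst_add, Prod.snd_add, map_add, Submodule.coe_add]
          abel
        · simp }
  have hI : ∀ (h : H) (y : (augRep H).V),
      augPush f ((augRep H).ρ h y) = (augRep G).ρ (f h) (augPush f y) := by
    intro h y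
    apply Subtype.ext
    exact mapDomain_regRho f h (y : H →₀ ℤ)
  refine ⟨lX, augPush f, fun h x => ?_, hI, fun c => ?_, fun x => rfl, fun y => rfl⟩
  · obtain ⟨c, y⟩ := x
    apply Prod.ext
    · show j (C'.ρ h c + splitPhi C' σ' h (y : H →₀ ℤ)) + betaHom b (regRho H h (y : H →₀ ℤ)) =
        C.ρ (f h) (j c + betaHom b (y : H →₀ ℤ)) +
          splitPhi C σ (f h) (Finsupp.mapDomain f (y : H →₀ ℤ))
      have hy : augMap H (y : H →₀ ℤ) = 0 := y.2
      rw [map_add, map_add, hj, add_assoc, splitMap_key f C' σ' C σ j b hb h, hy, zero_smul,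
        add_zero, add_assoc]
    · exact hI h y
  · apply Prod.ext
    · show j c + betaHom b 0 = j c
      rw [map_zero, add_zero]
    · show augPush f 0 = 0
      exact map_zero _

end MapC

end SplitMap

end Fermat.Agent.CFT.Formation
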