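import Fermat.Agent.CFT.Coh.Provide

/-!
# P3 / CFT, layer L4 (Formation), leaf [F5](b): a 2-cocycle that is a coboundary on every
`p`-subgroup becomes a coboundary after multiplication by (a multiple of) the Sylow index

`exists_cobound_nsmul` : `H` finite, `D : Rep ℤ H`, `τ ∈ Z²(H, D)` a coboundary on every
`p`-subgroup of `H`, and `m` a multiple of the prime-to-`p` part of `|H|`; then `m • τ` is a
coboundary on `H`.

`exists_cobound_of_LG` : the same in the shape of the [LG] hypothesis of `FinDuality`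
(`τ := j ∘ σ' - res σ` on a subgroup `K ≤ G`).

Proof: restrict the class of `τ` to a Sylow `p`-subgroup `S`; it dies there, so it is killed by
the index `[H : S] = ordCompl[p] |H|` (`Coh.Provide.resKer` in degree 2).
-/

set_option autoImplicit false

open CategoryTheory groupCohomology

namespace Fermat.Agent.CFT.Formation.SplitMapB

/-- The index of a Sylow `p`-subgroup is the prime-to-`p` part of the order of the group. -/
theorem sylow_index_eq_ordCompl (p : ℕ) [Fact p.Prime] {H : Type} [Group H] [Finite H]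
    (S : Sylow p H) : (S : Subgroup H).index = ordCompl[p] (Nat.card H) := by
  have h1 : Nat.card (S : Subgroup H) * (S : Subgroup H).index = Nat.card H :=
    (S : Subgroup H).card_mul_index
  have h2 : Nat.card (S : Subgroup H) = p ^ (Nat.card H).factorization p := S.card_eq_multiplicity
  have hpos : 0 < p ^ (Nat.card H).factorization p := pow_pos (Fact.out : p.Prime).pos _
  rw [h2] at h1
  exact (Nat.div_eq_of_eq_mul_right hpos h1.symm).symm

/-- [F5](b): [LG] on the `p`-subgroups of a finite group `H` gives a global coboundary after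
multiplying by a multiple of the Sylow index. -/
theorem exists_cobound_nsmul (p : ℕ) [Fact p.Prime] {H : Type} [Group H] [Finite H]
    (D : Rep.{0} ℤ H) (τ : cocycles₂ D)
    (hτ : ∀ P : Subgroup H, IsPGroup p P → ∃ b : P → D, ∀ g h : P,
      τ ((g : H), (h : H)) = D.ρ (g : H) (b h) - b (g * h) + b g)
    (m : ℕ) (hm : ordCompl[p] (Nat.card H) ∣ m) :
    ∃ b : H → D, ∀ g h : H, m • τ (g, h) = D.ρ g (b h) - b (g * h) + b g := by
  obtain ⟨S⟩ : Nonempty (Sylow p H) := inferInstance
  obtain ⟨b, hb⟩ := hτ S S.isPGroup'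
  have hres : (Fermat.Agent.CFT.Coh.rest D (S : Subgroup H) 2).hom (H2π D τ) = 0 := by
    have h1 := H2π_comp_map_apply (S : Subgroup H).subtype
      (𝟙 (Rep.res (S : Subgroup H).subtype D)) τ
    rw [h1, H2π_eq_zero_iff]
    refine ⟨b, ?_⟩
    funext ⟨g, h⟩
    exact (hb g h).symm
  have hidx := Fermat.Agent.CFT.Coh.Provide.resKer ℤ H D (S : Subgroup H) 2 (H2π D τ) hres
  rw [sylow_index_eq_ordCompl] at hidx
  obtain ⟨c, rfl⟩ := hm
  have hm0 : H2π D ((ordCompl[p] (Nat.card H) * c) • τ) = 0 := by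
    rw [map_nsmul, mul_comm, mul_smul, hidx, smul_zero]
  rw [H2π_eq_zero_iff] at hm0
  obtain ⟨b', hb'⟩ := hm0
  refine ⟨b', fun g h => ?_⟩
  have h2 : ((ordCompl[p] (Nat.card H) * c) • τ) (g, h) =
      (ordCompl[p] (Nat.card H) * c) • τ (g, h) := rfl
  rw [← h2]
  exact (congrFun hb' (g, h)).symm

/-- [F5](b'): the [LG] hypothesis of `FinDuality` (on every `p`-subgroup of `K`, `j ∘ σ'` and
`res σ` differ by a coboundary) gives, after multiplying by a multiple `m` of the Sylow index
of `K`, a coboundary relation on all of `K`. -/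
theorem exists_cobound_of_LG {G : Type} [Group G] (p : ℕ) [Fact p.Prime] (K : Subgroup G)
    [Finite K] (C : Rep.{0} ℤ G) (σ : cocycles₂ C) (C' : Rep.{0} ℤ K) (σ' : cocycles₂ C')
    (j : C'.V →+ C.V) (hj : ∀ (g : K) (c : C'.V), j (C'.ρ g c) = C.ρ (g : G) (j c))
    (hLG : ∀ H : Subgroup K, IsPGroup p H → ∃ b : H → C, ∀ g h : H,
      j (σ' ((g : K), (h : K))) =
        σ (((g : K) : G), ((h : K) : G)) + (C.ρ ((g : K) : G) (b h) - b (g * h) + b g))
    (m : ℕ) (hm : ordCompl[p] (Nat.card K) ∣ m) :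
    ∃ b : K → C, ∀ g h : K,
      j ((m • σ') (g, h)) = (m • σ) (K.subtype g, K.subtype h) +
        (C.ρ (K.subtype g) (b h) - b (g * h) + b g) := by
  have hσ' := (mem_cocycles₂_iff (A := C') σ').1 σ'.2
  have hσ := (mem_cocycles₂_iff (A := C) σ).1 σ.2
  have hτmem : (fun x : K × K => j (σ' x) - σ ((x.1 : G), (x.2 : G))) ∈
      cocycles₂ (Rep.res K.subtype C) := by
    rw [mem_cocycles₂_iff]
    intro g h k
    have h1 := congrArg j (hσ' g h k)
    rw [map_add, map_add, hj] at h1
    have h2 := hσ (g : G) (h : G) (k : G)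
    show j (σ' (g * h, k)) - σ (((g * h : K) : G), (k : G)) +
        (j (σ' (g, h)) - σ ((g : G), (h : G))) =
      C.ρ (g : G) (j (σ' (h, k)) - σ ((h : G), (k : G))) +
        (j (σ' (g, h * k)) - σ ((g : G), ((h * k : K) : G)))
    rw [map_sub, Subgroup.coe_mul, Subgroup.coe_mul]
    have e1 : j (σ' (g * h, k)) + j (σ' (g, h)) =
        C.ρ (g : G) (j (σ' (h, k))) + j (σ' (g, h * k)) := h1
    have e2 : σ ((g : G) * (h : G), (k : G)) + σ ((g : G), (h : G)) =
        C.ρ (g : G) (σ ((h : G), (k : G))) + σ ((g : G), (h : G) * (k : G)) := h2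
    calc j (σ' (g * h, k)) - σ ((g : G) * (h : G), (k : G)) +
          (j (σ' (g, h)) - σ ((g : G), (h : G)))
        = (j (σ' (g * h, k)) + j (σ' (g, h))) -
          (σ ((g : G) * (h : G), (k : G)) + σ ((g : G), (h : G))) := by abel
      _ = (C.ρ (g : G) (j (σ' (h, k))) + j (σ' (g, h * k))) -
          (C.ρ (g : G) (σ ((h : G), (k : G))) + σ ((g : G), (h : G) * (k : G))) := by
          rw [e1, e2]
      _ = _ := by abel
  obtain ⟨b, hb⟩ := exists_cobound_nsmul p (Rep.res K.subtype C) ⟨_, hτmem⟩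
    (fun P hP => by
      obtain ⟨b, hb⟩ := hLG P hP
      refine ⟨b, fun g h => ?_⟩
      show j (σ' ((g : K), (h : K))) - σ (((g : K) : G), ((h : K) : G)) =
        C.ρ ((g : K) : G) (b h) - b (g * h) + b g
      rw [hb g h]
      abel) m hm
  refine ⟨b, fun g h => ?_⟩
  have h1 : m • (j (σ' (g, h)) - σ ((g : G), (h : G))) =
      C.ρ (g : G) (b h) - b (g * h) + b g := hb g h
  show j (m • σ' (g, h)) = m • σ ((g : G), (h : G)) + (C.ρ (g : G) (b h) - b (g * h) + b g)
  rw [map_nsmul, ← h1, smul_sub]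
  abel

end Fermat.Agent.CFT.Formation.SplitMapB
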