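import Fermat.Agent.CFT.Formation.Setup
import Fermat.Agent.CFT.Coh.TateInduced

/-!
# P3 / CFT, layer L4 (Formation), package [F7]: the Sylow step in degrees `0` and `-1`

For a finite group `G`, a representation `B` (any coefficient ring `k`) and a subgroup `P ≤ G`
(an injective `f : P →* G`):

* `exists_norm_eq_index_nsmul` : if `Ĥ⁰(P, B) = 0`, then `[G : P] • b` is a `G`-norm for every
  `G`-invariant `b`  (`N_G c = ∑_{q ∈ G/P} q · N_P c`);
* `index_nsmul_mem_coinvariantsKer` : if `Ĥ⁻¹(P, B) = 0`, then `[G : P] • b ∈ I_G B` for every `b`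
  with `N_G b = 0`  (`N_G b = N_P (∑_{q ∈ G/P} q⁻¹ · b)`);
* `low_of_pTriv` : hence if `Ĥ⁰` and `Ĥ⁻¹` vanish on all `p`-subgroups, then every multiple `m` of
  the prime-to-`p` part of `|G|` multiplies invariants into norms and the kernel of the norm into
  `I_G B`.
-/

set_option autoImplicit false
set_option linter.style.haveILetI false

open CategoryTheory

namespace Fermat.Agent.CFT.Formation

namespace SylowLow

section index

variable {k G : Type} [CommRing k] [Group G] [Fintype G]

/-- The norm of `G` in terms of the norm of a subgroup: `N_G c = ∑_{q ∈ G/P} q · N_P c`. -/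
lemma norm_eq_sum_out (B : Rep.{0} k G) {P : Type} [Group P] [Fintype P] (f : P →* G)
    (hf : Function.Injective f) [Fintype (G ⧸ f.range)] (c : B.V) :
    B.ρ.norm c = ∑ q : G ⧸ f.range, B.ρ q.out ((Rep.res f B).ρ.norm c) := by
  have h1 : B.ρ.norm c = ∑ g : G, B.ρ g c := by
    simp [Representation.norm]
  have h2 : ∀ q : G ⧸ f.range, B.ρ q.out ((Rep.res f B).ρ.norm c) =
      ∑ h : P, B.ρ (q.out * f h) c := by
    intro q
    have : (Rep.res f B).ρ.norm c = ∑ h : P, B.ρ (f h) c := by
      simp [Representation.norm]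
    rw [this, map_sum]
    refine Finset.sum_congr rfl (fun h _ => ?_)
    rw [map_mul]
    rfl
  rw [h1, ← (TateInduced.transEquiv f hf).sum_comp, Fintype.sum_prod_type, Finset.sum_comm]
  refine Finset.sum_congr rfl (fun q _ => ?_)
  rw [h2]
  rfl

/-- The norm of `G` as a norm of a subgroup: `N_G c = N_P (∑_{q ∈ G/P} q⁻¹ · c)`. -/
lemma norm_eq_norm_sum_out_inv (B : Rep.{0} k G) {P : Type} [Group P] [Fintype P] (f : P →* G)
    (hf : Function.Injective f) [Fintype (G ⧸ f.range)] (c : B.V) :
    B.ρ.norm c = (Rep.res f B).ρ.norm (∑ q : G ⧸ f.range, B.ρ q.out⁻¹ c) := by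
  have h1 : B.ρ.norm c = ∑ g : G, B.ρ g⁻¹ c := by
    have h0 : B.ρ.norm c = ∑ g : G, B.ρ g c := by
      simp [Representation.norm]
    rw [h0]
    exact (Equiv.sum_comp (Equiv.inv G) (fun g => B.ρ g c)).symm
  have h2 : ∀ x : B.V, (Rep.res f B).ρ.norm x = ∑ h : P, B.ρ (f h)⁻¹ x := by
    intro x
    have h3 : (Rep.res f B).ρ.norm x = ∑ h : P, B.ρ (f h) x := by
      simp [Representation.norm]
    rw [h3]
    refine (Equiv.sum_comp (Equiv.inv P) (fun h => B.ρ (f h) x)).symm.trans ?_
    refine Finset.sum_congr rfl (fun h _ => ?_)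
    change B.ρ (f h⁻¹) x = _
    rw [map_inv]
  rw [h1, h2, ← (TateInduced.transEquiv f hf).sum_comp, Fintype.sum_prod_type]
  refine Finset.sum_congr rfl (fun h _ => ?_)
  rw [map_sum]
  refine Finset.sum_congr rfl (fun q _ => ?_)
  rw [TateInduced.transEquiv_apply, mul_inv_rev, map_mul]
  rfl

omit [Fintype G] in
/-- The augmentation submodule of a restriction is contained in the augmentation submodule. -/
lemma coinvariantsKer_res_le (B : Rep.{0} k G) {P : Type} [Group P] (f : P →* G) :
    Representation.Coinvariants.ker (Rep.res f B).ρ ≤ Representation.Coinvariants.ker B.ρ := by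
  refine Submodule.span_le.2 ?_
  rintro _ ⟨⟨h, x⟩, rfl⟩
  exact Representation.Coinvariants.sub_mem_ker (f h) x

/-- Degree `0`: if `Ĥ⁰(P, B) = 0` for a subgroup `P`, then `[G : P] • b` is a norm for every
`G`-invariant `b`. -/
theorem exists_norm_eq_index_nsmul (B : Rep.{0} k G) {P : Type} [Group P] [Fintype P]
    (f : P →* G) (hf : Function.Injective f)
    (h : Limits.IsZero (tateCohomology (Rep.res f B) 0)) (b : B.V) (hb : b ∈ B.ρ.invariants) :
    ∃ b' : B.V, B.ρ.norm b' = f.range.index • b := by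
  have hbP : b ∈ (Rep.res f B).ρ.invariants := fun h' => hb (f h')
  obtain ⟨c, hc⟩ := (TateLow.isZero_tateCohomology_zero_iff (Rep.res f B)).1 h b hbP
  refine ⟨c, ?_⟩
  letI : Fintype (G ⧸ f.range) := Fintype.ofFinite _
  rw [norm_eq_sum_out B f hf c, hc]
  have h3 : ∀ q : G ⧸ f.range, B.ρ q.out b = b := fun q => hb q.out
  rw [Finset.sum_congr rfl (fun q _ => h3 q), Finset.sum_const, Finset.card_univ,
    Subgroup.index, Nat.card_eq_fintype_card]

/-- Degree `-1`: if `Ĥ⁻¹(P, B) = 0` for a subgroup `P`, then `[G : P] • b ∈ I_G B` for every `b`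
of norm `0`. -/
theorem index_nsmul_mem_coinvariantsKer (B : Rep.{0} k G) {P : Type} [Group P] [Fintype P]
    (f : P →* G) (hf : Function.Injective f)
    (h : Limits.IsZero (tateCohomology (Rep.res f B) (-1))) (b : B.V) (hb : B.ρ.norm b = 0) :
    f.range.index • b ∈ Representation.Coinvariants.ker B.ρ := by
  letI : Fintype (G ⧸ f.range) := Fintype.ofFinite _
  have h1 : (Rep.res f B).ρ.norm (∑ q : G ⧸ f.range, B.ρ q.out⁻¹ b) = 0 := by
    rw [← norm_eq_norm_sum_out_inv B f hf b, hb]
  have h2 : (∑ q : G ⧸ f.range, B.ρ q.out⁻¹ b) ∈ Representation.Coinvariants.ker B.ρ :=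
    coinvariantsKer_res_le B f
      ((TateLow.isZero_tateCohomology_negOne_iff (Rep.res f B)).1 h _ h1)
  have h3 : f.range.index • b =
      (∑ q : G ⧸ f.range, B.ρ q.out⁻¹ b) - ∑ q : G ⧸ f.range, (B.ρ q.out⁻¹ b - b) := by
    rw [Finset.sum_sub_distrib, sub_sub_cancel, Finset.sum_const, Finset.card_univ,
      Subgroup.index, Nat.card_eq_fintype_card]
  rw [h3]
  exact Submodule.sub_mem _ h2
    (Submodule.sum_mem _ fun q _ => Representation.Coinvariants.sub_mem_ker _ _)

end index

/-- **[F7]** If `Ĥ⁰` and `Ĥ⁻¹` of `B` vanish on every `p`-subgroup of the finite group `G`, then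
for every multiple `m` of the prime-to-`p` part of `|G|`: `m •` (invariants) are norms, and
`m •` (kernel of the norm) lies in `I_G B`. -/
theorem low_of_pTriv {k G : Type} [CommRing k] [Group G] [Fintype G] (p : ℕ) [Fact p.Prime]
    (B : Rep.{0} k G)
    (hB : ∀ (H : Type) [Group H] [Fintype H] (f : H →* G), Function.Injective f → IsPGroup p H →
      Limits.IsZero (tateCohomology (Rep.res f B) 0) ∧
      Limits.IsZero (tateCohomology (Rep.res f B) (-1)))
    (m : ℕ) (hm : ordCompl[p] (Nat.card G) ∣ m) :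
    (∀ b ∈ B.ρ.invariants, ∃ b', B.ρ.norm b' = m • b) ∧
    (∀ b, B.ρ.norm b = 0 → m • b ∈ Representation.Coinvariants.ker B.ρ) := by
  let S : Sylow p G := Classical.arbitrary _
  letI : Fintype ↥(S : Subgroup G) := Fintype.ofFinite _
  have hS : IsPGroup p ↥(S : Subgroup G) := S.isPGroup'
  obtain ⟨h0, h1⟩ := hB ↥(S : Subgroup G) (S : Subgroup G).subtype Subtype.val_injective hS
  have hidx : (S : Subgroup G).subtype.range.index = ordCompl[p] (Nat.card G) := by
    rw [Subgroup.range_subtype]
    have hc := S.card_eq_multiplicity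
    have hmul := (S : Subgroup G).card_mul_index
    rw [hc] at hmul
    exact Nat.eq_div_of_mul_eq_right (pow_pos (Fact.out : p.Prime).pos _).ne' hmul
  obtain ⟨d, rfl⟩ := hm
  rw [← hidx]
  refine ⟨fun b hb => ?_, fun b hb => ?_⟩
  · obtain ⟨c, hc⟩ := exists_norm_eq_index_nsmul B (S : Subgroup G).subtype
      Subtype.val_injective h0 b hb
    refine ⟨d • c, ?_⟩
    rw [map_nsmul, hc, mul_nsmul]
  · have h2 := index_nsmul_mem_coinvariantsKer B (S : Subgroup G).subtype
      Subtype.val_injective h1 b hb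
    rw [mul_nsmul]
    exact nsmul_mem h2 d

end SylowLow

end Fermat.Agent.CFT.Formation
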