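import Fermat.Agent.CFT.Formation.Setup
import Fermat.Agent.CFT.Formation.HomSeq

/-!
# P3 / CFT, Formation leaf [F13]: transversal sums are invariant; the `HomG` dictionary

* `sum_mem_invariants` : for `f : H →* G`, a left transversal `tr` of `f(H)` in `G` and `x` fixed
  by `f(H)`, the sum `∑ t ∈ tr, t • x` is `G`-invariant;
* `mem_HomG_R1_iff` : `HomG (R1 V ε) D` is the set of invariants of `homRep (r1Rep V ε hε) D`;
* `equivariant_iff_mem_invariants` : the equivariant additive maps `ℤ[T] → D` are the invariants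
  of `homRep (latRep G T) D`.
-/

set_option autoImplicit false
open CategoryTheory groupCohomology
open Fermat.Agent.CFT.Triv Fermat.Agent.CFT.Formation

noncomputable section

namespace Fermat.Agent.CFT.Formation

variable {G : Type} [Group G]

namespace TransSum

section transversal

variable {G H : Type} [Group G] [Group H] (f : H →* G) (tr : Finset G)
  (htr : ∀ g : G, ∃! x : G × H, x.1 ∈ tr ∧ g = x.1 * f x.2)

/-- The transversal component of `g`. -/
def trOf (g : G) : G := (htr g).choose.1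

include htr in
lemma trOf_mem (g : G) : trOf f tr htr g ∈ tr := (htr g).choose_spec.1.1

/-- The `H`-component of `g`. -/
def hOf (g : G) : H := (htr g).choose.2

lemma eq_trOf_mul (g : G) : g = trOf f tr htr g * f (hOf f tr htr g) := (htr g).choose_spec.1.2

lemma trOf_eq {g t : G} {h : H} (ht : t ∈ tr) (hg : g = t * f h) : trOf f tr htr g = t := by
  have h1 := (htr g).choose_spec.2 (t, h) ⟨ht, hg⟩
  exact (congrArg Prod.fst h1).symm

lemma trOf_inv_mul_trOf_mul (g : G) {t : G} (ht : t ∈ tr) :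
    trOf f tr htr (g⁻¹ * trOf f tr htr (g * t)) = t := by
  refine trOf_eq f tr htr (h := (hOf f tr htr (g * t))⁻¹) ht ?_
  have h1 := eq_trOf_mul f tr htr (g * t)
  rw [map_inv, eq_mul_inv_iff_mul_eq, mul_assoc, ← h1, inv_mul_cancel_left]

end transversal

theorem sum_mem_invariants {k G H : Type} [CommRing k] [Group G] [Group H] (f : H →* G)
    (tr : Finset G) (htr : ∀ g : G, ∃! x : G × H, x.1 ∈ tr ∧ g = x.1 * f x.2)
    (A : Rep.{0} k G) (x : A.V) (hx : ∀ h : H, A.ρ (f h) x = x) :
    ∑ t ∈ tr, A.ρ t x ∈ A.ρ.invariants := by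
  rw [Representation.mem_invariants]
  intro g
  rw [map_sum]
  refine Finset.sum_nbij' (fun t => trOf f tr htr (g * t)) (fun t => trOf f tr htr (g⁻¹ * t))
    (fun t _ => trOf_mem f tr htr _) (fun t _ => trOf_mem f tr htr _)
    (fun t ht => trOf_inv_mul_trOf_mul f tr htr g ht)
    (fun t ht => by
      have h1 := trOf_inv_mul_trOf_mul f tr htr g⁻¹ ht
      rwa [inv_inv] at h1)
    (fun t _ => ?_)
  have h1 := eq_trOf_mul f tr htr (g * t)
  rw [← Module.End.mul_apply, ← map_mul]
  conv_lhs => rw [h1]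
  rw [map_mul, Module.End.mul_apply, hx]

theorem mem_HomG_R1_iff {p : ℕ} {T : Type} [MulAction G T] (V : Rep.{0} (ZMod p) G) (ε : T → V)
    (hε : ∀ (g : G) (t : T), ε (g • t) = V.ρ g (ε t)) (D : Rep.{0} ℤ G) (a : R1 V ε →+ D.V) :
    a ∈ HomG (R1 V ε) D ↔ a ∈ (homRep (r1Rep V ε hε) D).ρ.invariants := by
  refine Iff.trans ?_ (HomSeq.mem_invariants_homRep_iff (r1Rep V ε hε) D a).symm
  rw [mem_HomG_iff]
  constructor
  · intro h g r
    exact h g r (latAct_mem_R1 V ε hε g r.2)
  · intro h g r hr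
    exact h g r

theorem equivariant_iff_mem_invariants {T : Type} [MulAction G T] (D : Rep.{0} ℤ G)
    (b : (T →₀ ℤ) →+ D.V) :
    (∀ g r, b (latAct T g r) = D.ρ g (b r)) ↔ b ∈ (homRep (latRep G T) D).ρ.invariants := by
  exact (HomSeq.mem_invariants_homRep_iff (latRep G T) D b).symm

end TransSum

end Fermat.Agent.CFT.Formation
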