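import Fermat.Agent.CFT.Formation.Low
import Fermat.Agent.CFT.Formation.EMap
import Fermat.Agent.CFT.Formation.Pairing
import Fermat.Agent.CFT.Formation.LocH1
import Fermat.Agent.CFT.Formation.PermVanish
import Fermat.Agent.CFT.Formation.SplitMap
import Fermat.Agent.CFT.Formation.SplitMapB
import Fermat.Agent.CFT.Formation.Frobenius
import Fermat.Agent.CFT.Formation.SylowLow
import Fermat.Agent.CFT.Formation.HomSeq
import Fermat.Agent.CFT.Formation.EXNorm
import Fermat.Agent.CFT.Formation.ExtZero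
import Fermat.Agent.CFT.Formation.EMapLoc
import Fermat.Agent.CFT.Formation.TransSum
import Fermat.Agent.CFT.Triv.Provide

/-!
# P3 / CFT, layer L4 (Formation): the finite-level duality statement `FinDuality`

Assembly of the leaves of the layer (`Formation/Plan.lean` is the contract).

For a finite group `G`, a `p`-class module `(C, σ)`, `m` the prime-to-`p` part of `|G|`,
`X = splitMod C (m • σ)`, `I = augRep G`, and the lattices `R₀ = ℤ[T]`, `R₁ = ker (ℤ[T] → V)`:

* `exists_phi_concrete` : the abstract chase `Low.exists_phi` applied to the two rows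
  `0 → Hom(R_k, C) → Hom(R_k, X) → Hom(R_k, I) → 0` (`HomSeq`), the `E`-map
  `Hom(R₁, I) → E` (`EMap`), the pairing `E → Dual H¹(G, V)` (`Pairing`), the vanishing of
  `Ĥ⁰(G, Hom(ℤ[T], I))` (`PermVanish`) and the `m`-triviality of `Hom(R_k, X)` in degrees `0`, `-1`
  (`SylowLow` from the export `Triv.Plan.HomSplitTrivP` of the layer Triv); it gives
  `Φ : Hom_G(R₁, C) → Dual H¹(G, V)`, surjective, with `Φ a = 0 ↔ m • a ∈ res + norms`.
* `phi_natural_concrete` : `Low.phi_natural` for a subgroup `K ≤ G` and a map of class modules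
  (`SplitMapB.exists_cobound_of_LG`, `SplitMap.exists_splitMap`, `ExtZero`, `EMapLoc`).
* `finDuality` : the statement; the kernel by [EX] (`EXNorm`) and Bezout, the local clause by
  Frobenius reciprocity (`Frobenius`, `TransSum`) and `LocH1.mem_dualAnnihilator_locTriv_iff`.
-/

set_option autoImplicit false
open CategoryTheory groupCohomology
open Fermat.Agent.CFT.Triv Fermat.Agent.CFT.Formation

noncomputable section

namespace Fermat.Agent.CFT.Formation

namespace FinDualityProof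

/-- `m`-triviality in degrees `0`, `-1` of `Hom(R, splitMod C (m • σ))` on the whole group. -/
theorem low_homRep (hT : Triv.Plan.HomSplitTrivP) (p : ℕ) [Fact p.Prime] {G : Type} [Group G]
    [Fintype G] (C : Rep.{0} ℤ G) (σ : cocycles₂ C) (hC : IsPClassModule p C σ)
    (m : ℕ) (hm : Nat.Coprime m p) (hmG : ordCompl[p] (Nat.card G) ∣ m)
    (R : Rep.{0} ℤ G) (hR : Module.Free ℤ R.V ∧ Module.Finite ℤ R.V) :
    (∀ b ∈ (homRep R (splitMod C (m • σ))).ρ.invariants,
      ∃ b', (homRep R (splitMod C (m • σ))).ρ.norm b' = m • b) ∧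
    (∀ b, (homRep R (splitMod C (m • σ))).ρ.norm b = 0 →
      m • b ∈ Representation.Coinvariants.ker (homRep R (splitMod C (m • σ))).ρ) :=
  SylowLow.low_of_pTriv p (homRep R (splitMod C (m • σ)))
    (hT p G C (m • σ) (SplitMap.isPClassModule_nsmul p C σ hC m hm) R hR.1 hR.2) m hmG


lemma homAdd_r1Incl {G : Type} [Group G] {p : ℕ} {T : Type} [MulAction G T]
    (V : Rep.{0} (ZMod p) G) (ε : T → V) (hε : ∀ (g : G) (t : T), ε (g • t) = V.ρ g (ε t)) :
    homAdd (r1Incl V ε hε) = (R1 V ε).subtype := rfl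

lemma homPre_r1Incl_apply {G : Type} [Group G] {p : ℕ} {T : Type} [MulAction G T]
    (V : Rep.{0} (ZMod p) G) (ε : T → V) (hε : ∀ (g : G) (t : T), ε (g • t) = V.ρ g (ε t))
    (Z : Rep.{0} ℤ G) (φ : (T →₀ ℤ) →+ Z.V) :
    (HomSeq.homPre (r1Incl V ε hε) Z).hom φ = φ.comp (R1 V ε).subtype := rfl

lemma dual_nsmul_eq_zero (p : ℕ) [Fact p.Prime] {M : Type} [AddCommGroup M] [Module (ZMod p) M]
    (d : Module.Dual (ZMod p) M) : p • d = 0 := by
  rw [← Nat.cast_smul_eq_nsmul (ZMod p) p d, ZMod.natCast_self, zero_smul]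

/-- The construction of `Φ` for a finite group `G`, a `p`-class module and a presentation
`ℤ[T] → V`; no hypothesis [EX]. -/
theorem exists_phi_concrete (hT : Triv.Plan.HomSplitTrivP) (p : ℕ) [Fact p.Prime] {G : Type}
    [Group G] [Fintype G] (C : Rep.{0} ℤ G) (σ : cocycles₂ C) (hC : IsPClassModule p C σ)
    (m : ℕ) (hm : Nat.Coprime m p) (hmG : ordCompl[p] (Nat.card G) ∣ m)
    {T : Type} [Finite T] [MulAction G T] (V : Rep.{0} (ZMod p) G) (ε : T → V)
    (hε : ∀ (g : G) (t : T), ε (g • t) = V.ρ g (ε t)) (hsurj : Function.Surjective ε)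
    (P : (eRep V).V → Module.Dual (ZMod p) (groupCohomology.H1 V))
    (hPadd : ∀ e e' : (eRep V).V, (eRep V).ρ.norm e = 0 → (eRep V).ρ.norm e' = 0 →
        P (e + e') = P e + P e')
    (hPsurj : ∀ d, ∃ e : (eRep V).V, (eRep V).ρ.norm e = 0 ∧ P e = d)
    (hPker : ∀ e : (eRep V).V, (eRep V).ρ.norm e = 0 →
        (P e = 0 ↔ e ∈ Representation.Coinvariants.ker (eRep V).ρ)) :
    ∃ Φ : (homRep (r1Rep V ε hε) C).ρ.invariants →+
        Module.Dual (ZMod p) (groupCohomology.H1 V),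
      (∀ (a : (homRep (r1Rep V ε hε) C).ρ.invariants)
          (b : (homRep (r1Rep V ε hε) (splitMod C (m • σ))).V),
        (homRep (r1Rep V ε hε) (splitMod C (m • σ))).ρ.norm b =
            (homMap (r1Rep V ε hε) (splitIncl C (m • σ))).hom
              (m • (a : (homRep (r1Rep V ε hε) C).V)) →
          m • Φ a = P ((EMap.epsMap V ε hε hsurj).hom
            ((homMap (r1Rep V ε hε) (splitProj C (m • σ))).hom b))) ∧
      Function.Surjective Φ ∧
      (∀ a : (homRep (r1Rep V ε hε) C).ρ.invariants, Φ a = 0 ↔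
        ∃ a₀ ∈ (homRep (latRep G T) C).ρ.invariants, ∃ a' : (homRep (r1Rep V ε hε) C).V,
          m • (a : (homRep (r1Rep V ε hε) C).V) =
            (HomSeq.homPre (r1Incl V ε hε) C).hom a₀ + (homRep (r1Rep V ε hε) C).ρ.norm a') := by
  have hlow₀ := low_homRep hT p C σ hC m hm hmG (latRep G T) (HomSeq.free_latRep T)
  have hlow₁ := low_homRep hT p C σ hC m hm hmG (r1Rep V ε hε) (HomSeq.free_r1Rep V ε hε)
  refine Low.exists_phi (k := ℤ) p m hm
    (homMap (latRep G T) (splitIncl C (m • σ))) (homMap (latRep G T) (splitProj C (m • σ)))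
    (homMap (r1Rep V ε hε) (splitIncl C (m • σ))) (homMap (r1Rep V ε hε) (splitProj C (m • σ)))
    (HomSeq.homPre (r1Incl V ε hε) C) (HomSeq.homPre (r1Incl V ε hε) (splitMod C (m • σ)))
    (HomSeq.homPre (r1Incl V ε hε) (augRep G)) (EMap.epsMap V ε hε hsurj)
    (HomSeq.homMap_splitIncl_injective _ C (m • σ)) (HomSeq.homMap_splitProj_surjective _ C (m • σ))
    (HomSeq.homMap_splitProj_eq_zero_iff _ C (m • σ))
    (HomSeq.homMap_splitIncl_injective _ C (m • σ)) (HomSeq.homMap_splitProj_surjective _ C (m • σ))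
    (HomSeq.homMap_splitProj_eq_zero_iff _ C (m • σ))
    ?_ (EMap.epsMap_surjective V ε hε hsurj) ?_ (fun a => rfl) (fun b => rfl)
    hlow₀.1 hlow₁.1 hlow₁.2 (fun d hd => PermVanish.invariant_eq_norm T d hd)
    (dual_nsmul_eq_zero p) P hPadd hPsurj hPker
  · intro d d' h
    have h1 : AddMonoidHom.comp (d : (T →₀ ℤ) →+ LinearMap.ker (augMap G)) (R1 V ε).subtype =
        AddMonoidHom.comp (d' : (T →₀ ℤ) →+ LinearMap.ker (augMap G)) (R1 V ε).subtype := h
    have h2 : AddMonoidHom.comp ((d : (T →₀ ℤ) →+ LinearMap.ker (augMap G)) - d')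
        (R1 V ε).subtype = 0 := by
      rw [AddMonoidHom.sub_comp, h1, sub_self]
    exact sub_eq_zero.1 (EMap.comp_subtype_injective V ε _ h2)
  · intro d
    exact EMap.epsMap_eq_zero_iff V ε hε hsurj d


/-- precomposition with the restriction `H¹(G, V) → H¹(K, V)` on the duals -/
def rsDual {G : Type} [Group G] {p : ℕ} [Fact p.Prime] (V : Rep.{0} (ZMod p) G) (K : Subgroup G) :
    Module.Dual (ZMod p) (groupCohomology.H1 (Rep.res K.subtype V)) →+
      Module.Dual (ZMod p) (groupCohomology.H1 V) where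
  toFun d := d.comp (LocH1.resH1 V K)
  map_zero' := LinearMap.zero_comp _
  map_add' := fun _ _ => LinearMap.add_comp _ _ _

/-- Naturality of `Φ` with respect to a subgroup `K ≤ G` and a map of class modules. -/
theorem phi_natural_concrete (hT : Triv.Plan.HomSplitTrivP) (p : ℕ) [Fact p.Prime] {G : Type}
    [Group G] [Fintype G] (C : Rep.{0} ℤ G) (σ : cocycles₂ C)
    (m : ℕ) (hm : Nat.Coprime m p)
    {T : Type} [Finite T] [MulAction G T] (V : Rep.{0} (ZMod p) G) (ε : T → V)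
    (hε : ∀ (g : G) (t : T), ε (g • t) = V.ρ g (ε t)) (hsurj : Function.Surjective ε)
    (K : Subgroup G) [Fintype K] (C' : Rep.{0} ℤ K) (σ' : cocycles₂ C')
    (hC' : IsPClassModule p C' σ') (hmK : ordCompl[p] (Nat.card K) ∣ m)
    (j : C'.V →+ C.V) (hj : ∀ (g : K) (c : C'.V), j (C'.ρ g c) = C.ρ (g : G) (j c))
    (hLG : ∀ H : Subgroup K, IsPGroup p H → ∃ b : H → C, ∀ g h : H,
      j (σ' ((g : K), (h : K))) =
        σ (((g : K) : G), ((h : K) : G)) + (C.ρ ((g : K) : G) (b h) - b (g * h) + b g))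
    (hε' : ∀ (g : K) (t : T), ε (g • t) = (Rep.res K.subtype V).ρ g (ε t))
    (P : (eRep V).V → Module.Dual (ZMod p) (groupCohomology.H1 V))
    (hP : ∀ (e : (eRep V).V) (x : cocycles₁ V), (eRep V).ρ.norm e = 0 →
        P e ((H1π V).hom x) = ∑ g : G, eFam V e g (x g))
    (P' : (eRep (Rep.res K.subtype V)).V →
      Module.Dual (ZMod p) (groupCohomology.H1 (Rep.res K.subtype V)))
    (hP' : ∀ (e : (eRep (Rep.res K.subtype V)).V) (x : cocycles₁ (Rep.res K.subtype V)),
        (eRep (Rep.res K.subtype V)).ρ.norm e = 0 →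
        P' e ((H1π (Rep.res K.subtype V)).hom x) =
          ∑ g : K, eFam (Rep.res K.subtype V) e g (x g))
    (tr : Finset G) (htr : ∀ g : G, ∃! x : G × K, x.1 ∈ tr ∧ g = x.1 * (x.2 : G))
    (Φ : (homRep (r1Rep V ε hε) C).ρ.invariants →+ Module.Dual (ZMod p) (groupCohomology.H1 V))
    (hΦ : ∀ (a : (homRep (r1Rep V ε hε) C).ρ.invariants)
          (b : (homRep (r1Rep V ε hε) (splitMod C (m • σ))).V),
        (homRep (r1Rep V ε hε) (splitMod C (m • σ))).ρ.norm b =
            (homMap (r1Rep V ε hε) (splitIncl C (m • σ))).hom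
              (m • (a : (homRep (r1Rep V ε hε) C).V)) →
          m • Φ a = P ((EMap.epsMap V ε hε hsurj).hom
            ((homMap (r1Rep V ε hε) (splitProj C (m • σ))).hom b)))
    (Φ' : (homRep (r1Rep (Rep.res K.subtype V) ε hε') C').ρ.invariants →+
        Module.Dual (ZMod p) (groupCohomology.H1 (Rep.res K.subtype V)))
    (hΦ' : ∀ (a : (homRep (r1Rep (Rep.res K.subtype V) ε hε') C').ρ.invariants)
          (b : (homRep (r1Rep (Rep.res K.subtype V) ε hε') (splitMod C' (m • σ'))).V),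
        (homRep (r1Rep (Rep.res K.subtype V) ε hε') (splitMod C' (m • σ'))).ρ.norm b =
            (homMap (r1Rep (Rep.res K.subtype V) ε hε') (splitIncl C' (m • σ'))).hom
              (m • (a : (homRep (r1Rep (Rep.res K.subtype V) ε hε') C').V)) →
          m • Φ' a = P' ((EMap.epsMap (Rep.res K.subtype V) ε hε' hsurj).hom
            ((homMap (r1Rep (Rep.res K.subtype V) ε hε') (splitProj C' (m • σ'))).hom b)))
    (a' : (homRep (r1Rep (Rep.res K.subtype V) ε hε') C').ρ.invariants)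
    (a : (homRep (r1Rep V ε hε) C).ρ.invariants)
    (ha : (a : (homRep (r1Rep V ε hε) C).V) =
      ∑ t ∈ tr, (homRep (r1Rep V ε hε) C).ρ t
        (AddMonoidHom.comp j (a' : (homRep (r1Rep (Rep.res K.subtype V) ε hε') C').V))) :
    Φ a = (Φ' a').comp (LocH1.resH1 V K) := by
  obtain ⟨b, hb⟩ := SplitMapB.exists_cobound_of_LG p K C σ C' σ' j hj hLG m hmK
  obtain ⟨lX, lI, hlX, hlI, hXi, hXq, hImap⟩ :=
    SplitMap.exists_splitMap K.subtype K.subtype_injective C' (m • σ') C (m • σ) j hj b hb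
  have hlow := low_homRep hT p C' σ' hC' m hm hmK (r1Rep (Rep.res K.subtype V) ε hε')
    (HomSeq.free_r1Rep (Rep.res K.subtype V) ε hε')
  refine Low.phi_natural (k := ℤ) K.subtype p m hm tr htr
    (homMap (r1Rep V ε hε) (splitIncl C (m • σ))) (homMap (r1Rep V ε hε) (splitProj C (m • σ)))
    (EMap.epsMap V ε hε hsurj)
    (homMap (r1Rep (Rep.res K.subtype V) ε hε') (splitIncl C' (m • σ')))
    (homMap (r1Rep (Rep.res K.subtype V) ε hε') (splitProj C' (m • σ')))
    (EMap.epsMap (Rep.res K.subtype V) ε hε' hsurj)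
    (AddMonoidHom.compHom j) (AddMonoidHom.compHom lX) (AddMonoidHom.compHom lI)
    (ExtZero.extZero K V)
    ?hlA ?hlB ?hi ?hq ?he ?hqi' hlow.1 (dual_nsmul_eq_zero p) P P' (rsDual V K)
    (fun e' he' => ExtZero.pairing_extZero K V P hP P' hP' e' he') Φ Φ' hΦ hΦ' a' a ha
  case hlA =>
    intro h x
    refine AddMonoidHom.ext fun r => ?_
    exact hj h _
  case hlB =>
    intro h x
    refine AddMonoidHom.ext fun r => ?_
    exact hlX h _
  case hi =>
    intro x
    refine AddMonoidHom.ext fun r => ?_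
    exact hXi _
  case hq =>
    intro x
    refine AddMonoidHom.ext fun r => ?_
    exact hXq _
  case he =>
    intro x
    exact (EMapLoc.epsMap_extZero K V ε hε hsurj hε' lI hImap x).symm
  case hqi' =>
    intro x
    rfl


lemma rho_self_inv_apply {k G : Type} [CommRing k] [Group G] (A : Rep.{0} k G) (g : G) (x : A.V) :
    A.ρ g (A.ρ g⁻¹ x) = x := by
  rw [← Module.End.mul_apply, ← map_mul, mul_inv_cancel, map_one]
  rfl

lemma homRep_sum_apply {G : Type} [Group G] (A B : Rep.{0} ℤ G) {κ : Type} (s : Finset κ)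
    (f : κ → (homRep A B).V) (x : A.V) :
    ((∑ i ∈ s, f i : (homRep A B).V) : A.V →+ B.V) x = ∑ i ∈ s, (f i : A.V →+ B.V) x :=
  map_sum (AddMonoidHom.eval x : (A.V →+ B.V) →+ B.V) f s

/-- `Hom_G(R₁, D)` as the invariants of `homRep (r1Rep V ε hε) D`. -/
def toInv {G : Type} [Group G] {p : ℕ} {T : Type} [MulAction G T] (V : Rep.{0} (ZMod p) G)
    (ε : T → V) (hε : ∀ (g : G) (t : T), ε (g • t) = V.ρ g (ε t)) (D : Rep.{0} ℤ G) :
    HomG (R1 V ε) D →+ (homRep (r1Rep V ε hε) D).ρ.invariants where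
  toFun a := ⟨(a : R1 V ε →+ D.V), (TransSum.mem_HomG_R1_iff V ε hε D _).1 a.2⟩
  map_zero' := rfl
  map_add' _ _ := rfl

lemma homG_apply {G : Type} [Group G] {p : ℕ} {T : Type} [MulAction G T] (V : Rep.{0} (ZMod p) G)
    (ε : T → V) (hε : ∀ (g : G) (t : T), ε (g • t) = V.ρ g (ε t)) (D : Rep.{0} ℤ G)
    (a : R1 V ε →+ D.V) (ha : a ∈ HomG (R1 V ε) D) (g : G) (r : R1 V ε) :
    a (r1Act V ε hε g r) = D.ρ g (a r) :=
  ha g r (latAct_mem_R1 V ε hε g r.2)

end FinDualityProof

open FinDualityProof in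
/-- **The finite-level duality statement**, from the export of the layer Triv. -/
theorem finDuality (hT : Triv.Plan.HomSplitTrivP) : FinDuality := by
  intro p _ G _ _ C σ hC U _ hEX T _ _ hU V ε hε hsurj ι _ Gw Cw σw hCw J π hπ pr hpr hinj hsur
    j hj hπj hLG
  classical
  have : Fintype G := Fintype.ofFinite G
  have : Fintype ι := Fintype.ofFinite ι
  have : ∀ i, Fintype (Gw i) := fun i => Fintype.ofFinite _
  have hp : p.Prime := Fact.out
  have hGpos : Nat.card G ≠ 0 := Nat.card_pos.ne'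
  obtain ⟨m, hm_def⟩ : ∃ m, m = ordCompl[p] (Nat.card G) := ⟨_, rfl⟩
  have hm : Nat.Coprime m p := by
    rw [hm_def]
    exact (Nat.coprime_ordCompl hp hGpos).symm
  have hmK : ∀ i, ordCompl[p] (Nat.card (Gw i)) ∣ m := fun i => by
    rw [hm_def]
    exact Nat.ordCompl_dvd_ordCompl_of_dvd (Subgroup.card_subgroup_dvd_card (Gw i)) p
  -- the global system
  obtain ⟨P, hPform, hPadd, hPsurj, hPker⟩ := Pairing.exists_pairing V
  obtain ⟨Φ₀, hΦ₀, hΦ₀surj, hΦ₀ker⟩ := exists_phi_concrete hT p C σ hC m hm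
    (by rw [hm_def]) V ε hε hsurj P hPadd hPsurj hPker
  -- the local systems
  have hε' : ∀ i (g : Gw i) (t : T), ε (g • t) = (Rep.res (Gw i).subtype V).ρ g (ε t) :=
    fun i g t => hε (g : G) t
  have hloc : ∀ i, ∃ (P' : (eRep (Rep.res (Gw i).subtype V)).V →
        Module.Dual (ZMod p) (groupCohomology.H1 (Rep.res (Gw i).subtype V)))
      (Φ' : (homRep (r1Rep (Rep.res (Gw i).subtype V) ε (hε' i)) (Cw i)).ρ.invariants →+
        Module.Dual (ZMod p) (groupCohomology.H1 (Rep.res (Gw i).subtype V))),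
      (∀ (e : (eRep (Rep.res (Gw i).subtype V)).V) (x : cocycles₁ (Rep.res (Gw i).subtype V)),
        (eRep (Rep.res (Gw i).subtype V)).ρ.norm e = 0 →
        P' e ((H1π (Rep.res (Gw i).subtype V)).hom x) =
          ∑ g : Gw i, eFam (Rep.res (Gw i).subtype V) e g (x g)) ∧
      (∀ (a : (homRep (r1Rep (Rep.res (Gw i).subtype V) ε (hε' i)) (Cw i)).ρ.invariants)
          (b : (homRep (r1Rep (Rep.res (Gw i).subtype V) ε (hε' i))
            (splitMod (Cw i) (m • σw i))).V),
        (homRep (r1Rep (Rep.res (Gw i).subtype V) ε (hε' i))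
            (splitMod (Cw i) (m • σw i))).ρ.norm b =
            (homMap (r1Rep (Rep.res (Gw i).subtype V) ε (hε' i))
              (splitIncl (Cw i) (m • σw i))).hom
              (m • (a : (homRep (r1Rep (Rep.res (Gw i).subtype V) ε (hε' i)) (Cw i)).V)) →
          m • Φ' a = P' ((EMap.epsMap (Rep.res (Gw i).subtype V) ε (hε' i) hsurj).hom
            ((homMap (r1Rep (Rep.res (Gw i).subtype V) ε (hε' i))
              (splitProj (Cw i) (m • σw i))).hom b))) ∧
      Function.Surjective Φ' := by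
    intro i
    obtain ⟨P', hP'form, hP'add, hP'surj, hP'ker⟩ :=
      Pairing.exists_pairing (Rep.res (Gw i).subtype V)
    obtain ⟨Φ', hΦ', hΦ'surj, -⟩ := exists_phi_concrete hT p (Cw i) (σw i) (hCw i) m hm (hmK i)
      (Rep.res (Gw i).subtype V) ε (hε' i) hsurj P' hP'add hP'surj hP'ker
    exact ⟨P', Φ', hP'form, hΦ', hΦ'surj⟩
  choose P' Φ' hP'form hΦ' hΦ'surj using hloc
  have htr' := fun i => Frobenius.exists_transversal (Gw i)
  choose tr htr using htr'
  have hnat : ∀ i (a' : (homRep (r1Rep (Rep.res (Gw i).subtype V) ε (hε' i)) (Cw i)).ρ.invariants)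
      (a : (homRep (r1Rep V ε hε) C).ρ.invariants),
      (a : (homRep (r1Rep V ε hε) C).V) = ∑ t ∈ tr i, (homRep (r1Rep V ε hε) C).ρ t
        (AddMonoidHom.comp (j i)
          (a' : (homRep (r1Rep (Rep.res (Gw i).subtype V) ε (hε' i)) (Cw i)).V)) →
      Φ₀ a = (Φ' i a').comp (LocH1.resH1 V (Gw i)) := fun i a' a ha =>
    phi_natural_concrete hT p C σ m hm V ε hε hsurj (Gw i) (Cw i) (σw i) (hCw i) (hmK i) (j i)
      (hj i) (hLG i) (hε' i) P hPform (P' i) (hP'form i) (tr i) (htr i) Φ₀ hΦ₀ (Φ' i) (hΦ' i)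
      a' a ha
  -- the local components of a `G`-map `R₁ → J`
  have hlocmem : ∀ (aJ : R1 V ε →+ J) (_ : aJ ∈ HomG (R1 V ε) J) (i : ι),
      (AddMonoidHom.comp (pr i) aJ : R1 V ε →+ (Cw i).V) ∈
        (homRep (r1Rep (Rep.res (Gw i).subtype V) ε (hε' i)) (Cw i)).ρ.invariants := by
    intro aJ haJ i
    refine (HomSeq.mem_invariants_homRep_iff _ _ _).2 fun g x => ?_
    show pr i (aJ (r1Act V ε hε (g : G) x)) = (Cw i).ρ g (pr i (aJ x))
    rw [homG_apply V ε hε J aJ haJ (g : G) x, hpr i g]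
  have key : ∀ (aJ : R1 V ε →+ J) (haJ : aJ ∈ HomG (R1 V ε) J) (a : HomG (R1 V ε) C),
      (a : R1 V ε →+ C) = π.comp aJ →
      Φ₀ (toInv V ε hε C a) = ∑ i, (Φ' i ⟨AddMonoidHom.comp (pr i) aJ, hlocmem aJ haJ i⟩).comp
        (LocH1.resH1 V (Gw i)) := by
    intro aJ haJ a ha
    have hx : ∀ i (h : Gw i), (homRep (r1Rep V ε hε) C).ρ ((Gw i).subtype h)
        (AddMonoidHom.comp (j i) (AddMonoidHom.comp (pr i) aJ)) =
        AddMonoidHom.comp (j i) (AddMonoidHom.comp (pr i) aJ) := by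
      intro i h
      refine AddMonoidHom.ext fun r => ?_
      show C.ρ (h : G) (j i (pr i (aJ (r1Act V ε hε (h : G)⁻¹ r)))) = j i (pr i (aJ r))
      rw [homG_apply V ε hε J aJ haJ, ← Subgroup.coe_inv, hpr i, hj i, Subgroup.coe_inv]
      exact rho_self_inv_apply C (h : G) _
    let glob : ι → (homRep (r1Rep V ε hε) C).ρ.invariants := fun i =>
      ⟨∑ t ∈ tr i, (homRep (r1Rep V ε hε) C).ρ t
          (AddMonoidHom.comp (j i) (AddMonoidHom.comp (pr i) aJ)),
        TransSum.sum_mem_invariants (Gw i).subtype (tr i) (htr i) _ _ (hx i)⟩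
    have hsum : toInv V ε hε C a = ∑ i, glob i := by
      refine Subtype.ext ?_
      rw [AddSubmonoidClass.coe_finsetSum]
      refine AddMonoidHom.ext fun r => ?_
      rw [homRep_sum_apply]
      show (a : R1 V ε →+ C) r = _
      rw [ha]
      show π (aJ r) = _
      rw [Frobenius.pi_eq_sum Gw C Cw J π hπ pr hpr hinj hsur j hj hπj tr htr (aJ r)]
      refine Finset.sum_congr rfl fun i _ => ?_
      show _ = ((∑ t ∈ tr i, (homRep (r1Rep V ε hε) C).ρ t
          (AddMonoidHom.comp (j i) (AddMonoidHom.comp (pr i) aJ)) :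
            (homRep (r1Rep V ε hε) C).V) : R1 V ε →+ C.V) r
      rw [homRep_sum_apply]
      refine Finset.sum_congr rfl fun t _ => ?_
      show _ = C.ρ t (j i (pr i (aJ (r1Act V ε hε t⁻¹ r))))
      rw [homG_apply V ε hε J aJ haJ]
    rw [hsum, map_sum]
    refine Finset.sum_congr rfl fun i _ => ?_
    exact hnat i _ (glob i) rfl
  -- the map `Φ`
  refine ⟨Φ₀.comp (toInv V ε hε C), ?_, ?_, ?_⟩
  · -- surjectivity
    intro d
    obtain ⟨a₀, ha₀⟩ := hΦ₀surj d
    exact ⟨⟨(a₀ : (homRep (r1Rep V ε hε) C).V), (TransSum.mem_HomG_R1_iff V ε hε C _).2 a₀.2⟩,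
      ha₀⟩
  · -- the kernel
    intro a
    constructor
    · intro h0
      rcases (hΦ₀ker (toInv V ε hε C a)).1 h0 with
        ⟨(a₀ : (T →₀ ℤ) →+ C.V), ha₀, (a' : R1 V ε →+ C.V), h⟩
      obtain ⟨ψ, hψ, hψ'⟩ := EXNorm.norm_eq_res C U hEX hU V ε hε a'
      obtain ⟨ψ', hψ'1, hψ'2⟩ := EXNorm.p_smul_eq_res C V ε hε (a : R1 V ε →+ C.V)
        (toInv V ε hε C a).2
      obtain ⟨u, v, huv⟩ : IsCoprime (m : ℤ) (p : ℤ) := Nat.isCoprime_iff_coprime.2 hm
      refine ⟨u • ((a₀ : (T →₀ ℤ) →+ C.V) + ψ) + v • ψ', ?_, ?_⟩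
      · exact (TransSum.equivariant_iff_mem_invariants C _).2
          (add_mem (zsmul_mem (add_mem ha₀ hψ) u) (zsmul_mem hψ'1 v))
      · refine AddMonoidHom.ext fun (r : R1 V ε) => ?_
        have e1 : (a₀ : (T →₀ ℤ) →+ C.V) (r : T →₀ ℤ) + ψ (r : T →₀ ℤ) =
            m • (a : R1 V ε →+ C.V) r := by
          have h1 : m • (a : R1 V ε →+ C.V) r =
              (a₀ : (T →₀ ℤ) →+ C.V) (r : T →₀ ℤ) +
                ((homRep (r1Rep V ε hε) C).ρ.norm a' : R1 V ε →+ C.V) r :=
            DFunLike.congr_fun h r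
          have h2 : ψ (r : T →₀ ℤ) = ((homRep (r1Rep V ε hε) C).ρ.norm a' : R1 V ε →+ C.V) r :=
            DFunLike.congr_fun hψ' r
          rw [h1, h2]
        have e2 : ψ' (r : T →₀ ℤ) = p • (a : R1 V ε →+ C.V) r := DFunLike.congr_fun hψ'2 r
        show u • ((a₀ : (T →₀ ℤ) →+ C.V) (r : T →₀ ℤ) + ψ (r : T →₀ ℤ)) + v • ψ' (r : T →₀ ℤ) =
          (a : R1 V ε →+ C.V) r
        rw [e1, e2, ← natCast_zsmul, ← natCast_zsmul, smul_smul, smul_smul, ← add_smul, huv,
          one_smul]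
    · rintro ⟨b, hb, hba⟩
      refine (hΦ₀ker (toInv V ε hε C a)).2 ⟨m • b, ?_, 0, ?_⟩
      · exact nsmul_mem ((TransSum.equivariant_iff_mem_invariants C b).1 hb) m
      · rw [map_zero, add_zero]
        refine AddMonoidHom.ext fun (r : R1 V ε) => ?_
        show m • (a : R1 V ε →+ C.V) r = m • b (r : T →₀ ℤ)
        rw [← hba]
        rfl
  · -- the image of `Hom_G(R₁, J)`
    intro φ
    rw [LocH1.mem_dualAnnihilator_locTriv_iff]
    constructor
    · rintro ⟨φw, rfl⟩
      choose a' ha' using fun i => hΦ'surj i (φw i)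
      obtain ⟨aJ, haJ, haJpr⟩ := Frobenius.exists_homG_of_family Gw Cw J pr hpr hinj hsur V ε hε
        (fun i => (a' i : (homRep (r1Rep (Rep.res (Gw i).subtype V) ε (hε' i)) (Cw i)).V))
        (fun i h r => (HomSeq.mem_invariants_homRep_iff _ _ _).1 (a' i).2 h r)
      have haC : π.comp aJ ∈ HomG (R1 V ε) C := by
        intro g r hr
        show π (aJ ⟨latAct T g r, hr⟩) = C.ρ g (π (aJ r))
        rw [haJ g r hr, hπ]
      refine ⟨aJ, ⟨π.comp aJ, haC⟩, haJ, rfl, ?_⟩
      show Φ₀ (toInv V ε hε C ⟨π.comp aJ, haC⟩) = _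
      rw [key aJ haJ ⟨π.comp aJ, haC⟩ rfl]
      refine Finset.sum_congr rfl fun i _ => ?_
      have : (⟨AddMonoidHom.comp (pr i) aJ, hlocmem aJ haJ i⟩ :
          (homRep (r1Rep (Rep.res (Gw i).subtype V) ε (hε' i)) (Cw i)).ρ.invariants) = a' i :=
        Subtype.ext (AddMonoidHom.ext fun r => haJpr i r)
      rw [this, ha']
    · rintro ⟨aJ, a, haJ, ha, rfl⟩
      exact ⟨fun i => Φ' i ⟨AddMonoidHom.comp (pr i) aJ, hlocmem aJ haJ i⟩, key aJ haJ a ha⟩

/-- **`FinDuality` holds** (unconditionally: the layer Triv is proved). -/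
theorem finDuality_holds : FinDuality := finDuality Triv.Provide.homSplitTrivP

end Fermat.Agent.CFT.Formation
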