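import Mathlib

/-!
# P3 / CFT, Formation leaf [F1]: the abstract low-degree diagram chase

`Low.exists_phi`: from two short exact sequences of `G`-modules `A₀ → B₀ → D₀`, `A₁ → B₁ → D₁`
related by restriction maps, with `B₀`, `B₁` "cohomologically trivial up to `m`" in degrees `0`
and `-1`, the connecting construction gives an additive map
`Φ : (A₁)^G → Dl` which is surjective with kernel the image of `(A₀)^G`.

`Low.phi_natural`: compatibility of `Φ` with restriction along `f : H →* G`.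
-/

set_option autoImplicit false
open CategoryTheory

noncomputable section

namespace Fermat.Agent.CFT.Formation

/-! ### [F1] Low.lean -/
namespace Low

section helpers

variable {k G : Type} [CommRing k] [Group G]

lemma hom_mem_invariants {A B : Rep.{0} k G} (f : A ⟶ B) {x : A.V}
    (hx : x ∈ A.ρ.invariants) : f.hom x ∈ B.ρ.invariants := by
  intro g
  rw [← Rep.hom_comm_apply, hx g]

lemma mem_invariants_of_injective {A B : Rep.{0} k G} (f : A ⟶ B)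
    (hf : Function.Injective f.hom) {x : A.V} (hx : f.hom x ∈ B.ρ.invariants) :
    x ∈ A.ρ.invariants := by
  intro g
  apply hf
  rw [Rep.hom_comm_apply, hx g]

lemma hom_mem_ker {A B : Rep.{0} k G} (f : A ⟶ B) {x : A.V}
    (hx : x ∈ Representation.Coinvariants.ker A.ρ) :
    f.hom x ∈ Representation.Coinvariants.ker B.ρ := by
  have : Representation.Coinvariants.ker A.ρ ≤
      (Representation.Coinvariants.ker B.ρ).comap (f.hom : A.V →ₗ[k] B.V) := by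
    refine Submodule.span_le.2 ?_
    rintro _ ⟨⟨g, v⟩, rfl⟩
    show f.hom (A.ρ g v - v) ∈ Representation.Coinvariants.ker B.ρ
    rw [map_sub, Rep.hom_comm_apply]
    exact Representation.Coinvariants.sub_mem_ker g _
  exact this hx

lemma exists_mem_ker_of_surjective {A B : Rep.{0} k G} (f : A ⟶ B)
    (hf : Function.Surjective f.hom) {y : B.V}
    (hy : y ∈ Representation.Coinvariants.ker B.ρ) :
    ∃ x ∈ Representation.Coinvariants.ker A.ρ, f.hom x = y := by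
  have : Representation.Coinvariants.ker B.ρ ≤
      (Representation.Coinvariants.ker A.ρ).map (f.hom : A.V →ₗ[k] B.V) := by
    refine Submodule.span_le.2 ?_
    rintro _ ⟨⟨g, v⟩, rfl⟩
    obtain ⟨w, rfl⟩ := hf v
    refine ⟨A.ρ g w - w, Representation.Coinvariants.sub_mem_ker g _, ?_⟩
    show f.hom (A.ρ g w - w) = _
    rw [map_sub, Rep.hom_comm_apply]
  obtain ⟨x, hx, hxy⟩ := this hy
  exact ⟨x, hx, hxy⟩

variable [Fintype G]

lemma hom_norm {A B : Rep.{0} k G} (f : A ⟶ B) (x : A.V) :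
    f.hom (A.ρ.norm x) = B.ρ.norm (f.hom x) := by
  simp [Representation.norm, Rep.hom_comm_apply]

lemma norm_mem_invariants (A : Rep.{0} k G) (x : A.V) : A.ρ.norm x ∈ A.ρ.invariants :=
  fun g => Representation.self_norm_apply _ g x

lemma norm_eq_zero_of_mem_ker (A : Rep.{0} k G) {x : A.V}
    (hx : x ∈ Representation.Coinvariants.ker A.ρ) : A.ρ.norm x = 0 := by
  have : Representation.Coinvariants.ker A.ρ ≤ LinearMap.ker (A.ρ.norm : A.V →ₗ[k] A.V) := by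
    refine Submodule.span_le.2 ?_
    rintro _ ⟨⟨g, v⟩, rfl⟩
    simp
  exact this hx

end helpers

/-- `m` coprime to `p` acts invertibly on a group killed by `p`. -/
lemma exists_inv_nsmul (p m : ℕ) [Fact p.Prime] (hm : Nat.Coprime m p) :
    ∃ u t : ℕ, u * m = p * t + 1 := by
  obtain ⟨u, -, hu⟩ := Nat.exists_mul_mod_eq_one_of_coprime hm (Fact.out : p.Prime).one_lt
  refine ⟨u, m * u / p, ?_⟩
  have := Nat.div_add_mod (m * u) p
  rw [hu] at this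
  rw [mul_comm u m]
  exact this.symm

theorem exists_phi {k G : Type} [CommRing k] [Group G] [Fintype G] (p m : ℕ) [Fact p.Prime]
    (hm : Nat.Coprime m p)
    {A₀ B₀ D₀ A₁ B₁ D₁ E : Rep.{0} k G}
    (i₀ : A₀ ⟶ B₀) (q₀ : B₀ ⟶ D₀) (i₁ : A₁ ⟶ B₁) (q₁ : B₁ ⟶ D₁)
    (rA : A₀ ⟶ A₁) (rB : B₀ ⟶ B₁) (rD : D₀ ⟶ D₁) (ε : D₁ ⟶ E)
    (hi₀ : Function.Injective i₀.hom) (hq₀ : Function.Surjective q₀.hom)
    (hex₀ : ∀ b, q₀.hom b = 0 ↔ ∃ a, i₀.hom a = b)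
    (hi₁ : Function.Injective i₁.hom) (hq₁ : Function.Surjective q₁.hom)
    (hex₁ : ∀ b, q₁.hom b = 0 ↔ ∃ a, i₁.hom a = b)
    (hrD : Function.Injective rD.hom) (hε : Function.Surjective ε.hom)
    (hεex : ∀ d, ε.hom d = 0 ↔ ∃ d₀, rD.hom d₀ = d)
    (hAB : ∀ a, i₁.hom (rA.hom a) = rB.hom (i₀.hom a))
    (hBD : ∀ b, q₁.hom (rB.hom b) = rD.hom (q₀.hom b))
    (hB₀ : ∀ b ∈ B₀.ρ.invariants, ∃ b', B₀.ρ.norm b' = m • b)
    (hB₁ : ∀ b ∈ B₁.ρ.invariants, ∃ b', B₁.ρ.norm b' = m • b)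
    (hB₁' : ∀ b, B₁.ρ.norm b = 0 → m • b ∈ Representation.Coinvariants.ker B₁.ρ)
    (hD₀ : ∀ d ∈ D₀.ρ.invariants, ∃ d', D₀.ρ.norm d' = d)
    {Dl : Type} [AddCommGroup Dl] (hDl : ∀ d : Dl, p • d = 0)
    (P : E.V → Dl)
    (hPadd : ∀ e e', E.ρ.norm e = 0 → E.ρ.norm e' = 0 → P (e + e') = P e + P e')
    (hPsurj : ∀ d : Dl, ∃ e, E.ρ.norm e = 0 ∧ P e = d)
    (hPker : ∀ e, E.ρ.norm e = 0 → (P e = 0 ↔ e ∈ Representation.Coinvariants.ker E.ρ)) :
    ∃ Φ : A₁.ρ.invariants →+ Dl,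
      (∀ (a : A₁.ρ.invariants) (b : B₁.V), B₁.ρ.norm b = i₁.hom (m • (a : A₁.V)) →
        m • Φ a = P (ε.hom (q₁.hom b))) ∧
      Function.Surjective Φ ∧
      (∀ a : A₁.ρ.invariants, Φ a = 0 ↔
        ∃ a₀ ∈ A₀.ρ.invariants, ∃ a' : A₁.V, m • (a : A₁.V) = rA.hom a₀ + A₁.ρ.norm a') := by
  classical
  obtain ⟨u, t, hut⟩ := exists_inv_nsmul p m hm
  -- `m` is invertible on `Dl`
  have hinv : ∀ d : Dl, u • m • d = d := by
    intro d
    rw [← mul_nsmul', hut, add_nsmul, one_nsmul, mul_comm, mul_nsmul', hDl, nsmul_zero, zero_add]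
  have hcancel : ∀ d d' : Dl, m • d = m • d' → d = d' := by
    intro d d' h
    rw [← hinv d, ← hinv d', h]
  -- `P` is additive on `ker N`
  have hP0 : P 0 = 0 := by
    have := hPadd 0 0 (map_zero _) (map_zero _)
    rw [add_zero] at this
    exact left_eq_add.mp this
  have hPneg : ∀ e, E.ρ.norm e = 0 → P (-e) = -P e := by
    intro e he
    have h := hPadd e (-e) he (by rw [map_neg, he, neg_zero])
    rw [add_neg_cancel, hP0] at h
    exact eq_neg_of_add_eq_zero_right h.symm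
  have hPsub : ∀ e e', E.ρ.norm e = 0 → E.ρ.norm e' = 0 → P (e - e') = P e - P e' := by
    intro e e' he he'
    rw [sub_eq_add_neg, hPadd _ _ he (by rw [map_neg, he', neg_zero]), hPneg _ he',
      sub_eq_add_neg]
  have hPnsmul : ∀ (n : ℕ) e, E.ρ.norm e = 0 → P (n • e) = n • P e := by
    intro n e he
    induction n with
    | zero => rw [zero_nsmul, zero_nsmul, hP0]
    | succ n ih =>
      rw [succ_nsmul, succ_nsmul, hPadd _ _ (by rw [map_nsmul, he, nsmul_zero]) he, ih]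
  -- the composite `B₁ → E`
  have hq₁i₁ : ∀ a, q₁.hom (i₁.hom a) = 0 := fun a => (hex₁ _).2 ⟨a, rfl⟩
  have hεrD : ∀ d₀, ε.hom (rD.hom d₀) = 0 := fun d₀ => (hεex _).2 ⟨d₀, rfl⟩
  -- norm zero of the image
  have hN : ∀ (a : A₁.V) (b : B₁.V), B₁.ρ.norm b = i₁.hom a →
      E.ρ.norm (ε.hom (q₁.hom b)) = 0 := by
    intro a b hb
    rw [← hom_norm, ← hom_norm, hb, hq₁i₁, map_zero]
  -- independence of the choice
  have hindep : ∀ (a : A₁.V) (b b' : B₁.V), B₁.ρ.norm b = i₁.hom a → B₁.ρ.norm b' = i₁.hom a →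
      P (ε.hom (q₁.hom b)) = P (ε.hom (q₁.hom b')) := by
    intro a b b' hb hb'
    have h1 : B₁.ρ.norm (b - b') = 0 := by rw [map_sub, hb, hb', sub_self]
    have h2 := hom_mem_ker ε (hom_mem_ker q₁ (hB₁' _ h1))
    have he := hN a b hb
    have he' := hN a b' hb'
    apply hcancel
    rw [← sub_eq_zero, ← hPnsmul _ _ he, ← hPnsmul _ _ he',
      ← hPsub _ _ (by rw [map_nsmul, he, nsmul_zero]) (by rw [map_nsmul, he', nsmul_zero])]
    have h3 : E.ρ.norm (m • ε.hom (q₁.hom b) - m • ε.hom (q₁.hom b')) = 0 := by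
      rw [map_sub, map_nsmul, map_nsmul, he, he', sub_self]
    rw [hPker _ h3]
    have h5 : ε.hom (q₁.hom (m • (b - b'))) =
        m • ε.hom (q₁.hom b) - m • ε.hom (q₁.hom b') := by
      rw [map_nsmul, map_nsmul, map_sub, map_sub, nsmul_sub]
    rw [← h5]
    exact h2
  -- choice of `b`
  have hchoice : ∀ a : A₁.ρ.invariants, ∃ b : B₁.V, B₁.ρ.norm b = i₁.hom (m • (a : A₁.V)) := by
    intro a
    obtain ⟨b, hb⟩ := hB₁ (i₁.hom a) (hom_mem_invariants i₁ a.2)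
    exact ⟨b, by rw [hb, map_nsmul]⟩
  choose bc hbc using hchoice
  -- the map
  let Φ : A₁.ρ.invariants →+ Dl := AddMonoidHom.mk' (fun a => u • P (ε.hom (q₁.hom (bc a)))) (by
    intro a a'
    have h1 : B₁.ρ.norm (bc a + bc a') = i₁.hom (m • ((a + a' : A₁.ρ.invariants) : A₁.V)) := by
      rw [map_add, hbc, hbc, ← map_add, Submodule.coe_add, nsmul_add]
    rw [hindep _ _ _ (hbc (a + a')) h1, map_add, map_add,
      hPadd _ _ (hN _ _ (hbc a)) (hN _ _ (hbc a')), nsmul_add])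
  have hΦ : ∀ (a : A₁.ρ.invariants) (b : B₁.V), B₁.ρ.norm b = i₁.hom (m • (a : A₁.V)) →
      m • Φ a = P (ε.hom (q₁.hom b)) := by
    intro a b hb
    show m • u • P (ε.hom (q₁.hom (bc a))) = _
    rw [hindep _ _ _ (hbc a) hb, ← mul_nsmul, mul_nsmul', hinv]
  refine ⟨Φ, hΦ, ?_, ?_⟩
  · -- surjectivity
    intro d
    obtain ⟨e, he, hPe⟩ := hPsurj d
    obtain ⟨d₁, rfl⟩ := hε e
    obtain ⟨d₀, hd₀⟩ := (hεex (D₁.ρ.norm d₁)).1 (by rw [hom_norm, he])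
    have hd₀inv : d₀ ∈ D₀.ρ.invariants :=
      mem_invariants_of_injective rD hrD (by rw [hd₀]; exact norm_mem_invariants _ _)
    obtain ⟨d₀', hd₀'⟩ := hD₀ d₀ hd₀inv
    obtain ⟨b, hb⟩ := hq₁ (d₁ - rD.hom d₀')
    have hNb : q₁.hom (B₁.ρ.norm b) = 0 := by
      rw [hom_norm, hb, map_sub, ← hom_norm, hd₀', hd₀, sub_self]
    obtain ⟨a, ha⟩ := (hex₁ _).1 hNb
    have hainv : a ∈ A₁.ρ.invariants :=
      mem_invariants_of_injective i₁ hi₁ (by rw [ha]; exact norm_mem_invariants _ _)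
    refine ⟨⟨a, hainv⟩, ?_⟩
    apply hcancel
    have h1 : B₁.ρ.norm (m • b) = i₁.hom (m • a) := by rw [map_nsmul, map_nsmul, ha]
    rw [hΦ ⟨a, hainv⟩ (m • b) h1]
    have h2 : ε.hom (q₁.hom (m • b)) = m • ε.hom d₁ := by
      rw [map_nsmul, map_nsmul, hb, map_sub, hεrD, sub_zero]
    rw [h2, hPnsmul _ _ he, hPe]
  · -- kernel
    intro a
    constructor
    · intro hΦa
      obtain ⟨b, hb⟩ : ∃ b : B₁.V, B₁.ρ.norm b = i₁.hom (m • (a : A₁.V)) := ⟨bc a, hbc a⟩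
      have hP0 : P (ε.hom (q₁.hom b)) = 0 := by rw [← hΦ a b hb, hΦa, nsmul_zero]
      have hmem := (hPker _ (hN _ _ hb)).1 hP0
      obtain ⟨c, hc, hcb⟩ := exists_mem_ker_of_surjective (q₁ ≫ ε)
        (by
          intro e
          obtain ⟨d₁, rfl⟩ := hε e
          obtain ⟨b₁, rfl⟩ := hq₁ d₁
          exact ⟨b₁, rfl⟩) hmem
      have hcb' : ε.hom (q₁.hom c) = ε.hom (q₁.hom b) := hcb
      -- corrected lift
      obtain ⟨d₀, hd₀⟩ := (hεex (q₁.hom (b - c))).1 (by rw [map_sub, map_sub, hcb', sub_self])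
      have hNbc : B₁.ρ.norm (b - c) = i₁.hom (m • (a : A₁.V)) := by
        rw [map_sub, norm_eq_zero_of_mem_ker _ hc, sub_zero, hb]
      have hNd₀ : D₀.ρ.norm d₀ = 0 := by
        apply hrD
        rw [hom_norm, hd₀, ← hom_norm, hNbc, hq₁i₁, map_zero]
      obtain ⟨b₀, rfl⟩ := hq₀ d₀
      obtain ⟨a₀, ha₀⟩ := (hex₀ (B₀.ρ.norm b₀)).1 (by rw [hom_norm, hNd₀])
      have ha₀inv : a₀ ∈ A₀.ρ.invariants :=
        mem_invariants_of_injective i₀ hi₀ (by rw [ha₀]; exact norm_mem_invariants _ _)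
      obtain ⟨a', ha'⟩ := (hex₁ (b - c - rB.hom b₀)).1 (by rw [map_sub, hBD, hd₀, sub_self])
      -- `m • a = rA a₀ + N a'`
      have hma : m • (a : A₁.V) = rA.hom a₀ + A₁.ρ.norm a' := by
        apply hi₁
        rw [map_add, hom_norm, ha', map_sub, hNbc, hAB, ha₀, ← hom_norm]
        abel
      exact ⟨a₀, ha₀inv, a', hma⟩
    · rintro ⟨a₀, ha₀inv, a', hma⟩
      obtain ⟨b₀, hb₀⟩ := hB₀ (i₀.hom a₀) (hom_mem_invariants i₀ ha₀inv)
      have h1 : B₁.ρ.norm (rB.hom b₀ + m • i₁.hom a') =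
          i₁.hom (m • ((m • a : A₁.ρ.invariants) : A₁.V)) := by
        have h0 : ((m • a : A₁.ρ.invariants) : A₁.V) = m • (a : A₁.V) := by
          simp
        rw [h0, hma, map_add, ← hom_norm, hb₀, map_nsmul, ← hAB, map_nsmul, ← hom_norm,
          map_nsmul, map_add, nsmul_add]
      have h3 : ε.hom (q₁.hom (rB.hom b₀ + m • i₁.hom a')) = 0 := by
        rw [map_add, map_add, hBD, hεrD, map_nsmul, map_nsmul, hq₁i₁, map_zero, nsmul_zero,
          add_zero]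
      have h2 := hΦ (m • a) _ h1
      rw [h3, hP0, map_nsmul] at h2
      apply hcancel
      apply hcancel
      rw [h2, nsmul_zero, nsmul_zero]

/-- The form of `exists_phi` with the existence hypothesis `[EX]`: if moreover
`p • (A₁)^G ⊆ rA ((A₀)^G)` and `N A₁ ⊆ rA ((A₀)^G)`, the kernel of `Φ` is `rA ((A₀)^G)`. -/
theorem exists_phi_EX {k G : Type} [CommRing k] [Group G] [Fintype G] (p m : ℕ) [Fact p.Prime]
    (hm : Nat.Coprime m p)
    {A₀ B₀ D₀ A₁ B₁ D₁ E : Rep.{0} k G}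
    (i₀ : A₀ ⟶ B₀) (q₀ : B₀ ⟶ D₀) (i₁ : A₁ ⟶ B₁) (q₁ : B₁ ⟶ D₁)
    (rA : A₀ ⟶ A₁) (rB : B₀ ⟶ B₁) (rD : D₀ ⟶ D₁) (ε : D₁ ⟶ E)
    (hi₀ : Function.Injective i₀.hom) (hq₀ : Function.Surjective q₀.hom)
    (hex₀ : ∀ b, q₀.hom b = 0 ↔ ∃ a, i₀.hom a = b)
    (hi₁ : Function.Injective i₁.hom) (hq₁ : Function.Surjective q₁.hom)
    (hex₁ : ∀ b, q₁.hom b = 0 ↔ ∃ a, i₁.hom a = b)
    (hrD : Function.Injective rD.hom) (hε : Function.Surjective ε.hom)
    (hεex : ∀ d, ε.hom d = 0 ↔ ∃ d₀, rD.hom d₀ = d)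
    (hAB : ∀ a, i₁.hom (rA.hom a) = rB.hom (i₀.hom a))
    (hBD : ∀ b, q₁.hom (rB.hom b) = rD.hom (q₀.hom b))
    (hB₀ : ∀ b ∈ B₀.ρ.invariants, ∃ b', B₀.ρ.norm b' = m • b)
    (hB₁ : ∀ b ∈ B₁.ρ.invariants, ∃ b', B₁.ρ.norm b' = m • b)
    (hB₁' : ∀ b, B₁.ρ.norm b = 0 → m • b ∈ Representation.Coinvariants.ker B₁.ρ)
    (hD₀ : ∀ d ∈ D₀.ρ.invariants, ∃ d', D₀.ρ.norm d' = d)
    (hp : ∀ a ∈ A₁.ρ.invariants, ∃ a₀ ∈ A₀.ρ.invariants, rA.hom a₀ = p • a)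
    (hEX : ∀ a : A₁.V, ∃ a₀ ∈ A₀.ρ.invariants, rA.hom a₀ = A₁.ρ.norm a)
    {Dl : Type} [AddCommGroup Dl] (hDl : ∀ d : Dl, p • d = 0)
    (P : E.V → Dl)
    (hPadd : ∀ e e', E.ρ.norm e = 0 → E.ρ.norm e' = 0 → P (e + e') = P e + P e')
    (hPsurj : ∀ d : Dl, ∃ e, E.ρ.norm e = 0 ∧ P e = d)
    (hPker : ∀ e, E.ρ.norm e = 0 → (P e = 0 ↔ e ∈ Representation.Coinvariants.ker E.ρ)) :
    ∃ Φ : A₁.ρ.invariants →+ Dl,
      (∀ (a : A₁.ρ.invariants) (b : B₁.V), B₁.ρ.norm b = i₁.hom (m • (a : A₁.V)) →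
        m • Φ a = P (ε.hom (q₁.hom b))) ∧
      Function.Surjective Φ ∧
      (∀ a : A₁.ρ.invariants, Φ a = 0 ↔ ∃ a₀ ∈ A₀.ρ.invariants, rA.hom a₀ = (a : A₁.V)) := by
  obtain ⟨Φ, hΦ, hsurj, hker⟩ := exists_phi p m hm i₀ q₀ i₁ q₁ rA rB rD ε hi₀ hq₀ hex₀ hi₁ hq₁
    hex₁ hrD hε hεex hAB hBD hB₀ hB₁ hB₁' hD₀ hDl P hPadd hPsurj hPker
  obtain ⟨u, t, hut⟩ := exists_inv_nsmul p m hm
  refine ⟨Φ, hΦ, hsurj, fun a => (hker a).trans ⟨?_, ?_⟩⟩
  · rintro ⟨a₀, ha₀inv, a', hma⟩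
    obtain ⟨a₀', ha₀'inv, ha₀'⟩ := hEX a'
    obtain ⟨a₀'', ha₀''inv, ha₀''⟩ := hp a a.2
    refine ⟨u • (a₀ + a₀') - t • a₀'', ?_, ?_⟩
    · exact sub_mem (nsmul_mem (add_mem ha₀inv ha₀'inv) _) (nsmul_mem ha₀''inv _)
    · rw [map_sub, map_nsmul, map_nsmul, map_add, ha₀', ha₀'', ← hma, ← mul_nsmul', hut,
        add_nsmul, one_nsmul, mul_comm, mul_nsmul']
      abel
  · rintro ⟨a₀, ha₀inv, ha₀⟩
    exact ⟨m • a₀, nsmul_mem ha₀inv _, 0, by rw [map_nsmul, ha₀, map_zero, add_zero]⟩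

/-- Naturality of `Φ` along `f : H →* G` (`tr` a left transversal of `f H` in `G`).
The hypothesis `hqi'` (the primed row is a complex) is needed to apply `hP`. -/
theorem phi_natural {k G H : Type} [CommRing k] [Group G] [Fintype G] [Group H] [Fintype H]
    (f : H →* G) (p m : ℕ) [Fact p.Prime] (hm : Nat.Coprime m p)
    (tr : Finset G) (htr : ∀ g : G, ∃! x : G × H, x.1 ∈ tr ∧ g = x.1 * f x.2)
    {A B D E : Rep.{0} k G} (i : A ⟶ B) (q : B ⟶ D) (ε : D ⟶ E)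
    {A' B' D' E' : Rep.{0} k H} (i' : A' ⟶ B') (q' : B' ⟶ D') (ε' : D' ⟶ E')
    (lA : A'.V →+ A.V) (lB : B'.V →+ B.V) (lD : D'.V →+ D.V) (lE : E'.V →+ E.V)
    (hlA : ∀ h x, lA (A'.ρ h x) = A.ρ (f h) (lA x)) (hlB : ∀ h x, lB (B'.ρ h x) = B.ρ (f h) (lB x))
    (hi : ∀ x, lB (i'.hom x) = i.hom (lA x)) (hq : ∀ x, lD (q'.hom x) = q.hom (lB x))
    (he : ∀ x, lE (ε'.hom x) = ε.hom (lD x))
    (hqi' : ∀ x, q'.hom (i'.hom x) = 0)
    (hB' : ∀ b ∈ B'.ρ.invariants, ∃ b', B'.ρ.norm b' = m • b)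
    {Dl Dl' : Type} [AddCommGroup Dl] [AddCommGroup Dl'] (hDl : ∀ d : Dl, p • d = 0)
    (P : E.V → Dl) (P' : E'.V → Dl') (rs : Dl' →+ Dl)
    (hP : ∀ e', E'.ρ.norm e' = 0 → P (lE e') = rs (P' e'))
    (Φ : A.ρ.invariants →+ Dl) (Φ' : A'.ρ.invariants →+ Dl')
    (hΦ : ∀ (a : A.ρ.invariants) (b : B.V), B.ρ.norm b = i.hom (m • (a : A.V)) →
        m • Φ a = P (ε.hom (q.hom b)))
    (hΦ' : ∀ (a : A'.ρ.invariants) (b : B'.V), B'.ρ.norm b = i'.hom (m • (a : A'.V)) →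
        m • Φ' a = P' (ε'.hom (q'.hom b)))
    (a' : A'.ρ.invariants) (a : A.ρ.invariants)
    (ha : (a : A.V) = ∑ t ∈ tr, A.ρ t (lA (a' : A'.V))) :
    Φ a = rs (Φ' a') := by
  classical
  have _ := hlA
  obtain ⟨u, t, hut⟩ := exists_inv_nsmul p m hm
  have hinv : ∀ d : Dl, u • m • d = d := by
    intro d
    rw [← mul_nsmul', hut, add_nsmul, one_nsmul, mul_comm, mul_nsmul', hDl, nsmul_zero, zero_add]
  have hcancel : ∀ d d' : Dl, m • d = m • d' → d = d' := by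
    intro d d' h
    rw [← hinv d, ← hinv d', h]
  -- decomposition of the sum over `G`
  have hsum : ∀ F : G → B.V, ∑ g, F g = ∑ t ∈ tr, ∑ h : H, F (t * f h) := by
    intro F
    rw [← Finset.sum_product']
    symm
    apply Finset.sum_bij (fun x _ => x.1 * f x.2)
    · intros; exact Finset.mem_univ _
    · intro x hx y hy hxy
      obtain ⟨z, -, huniq⟩ := htr (x.1 * f x.2)
      rw [huniq x ⟨(Finset.mem_product.1 hx).1, rfl⟩,
        huniq y ⟨(Finset.mem_product.1 hy).1, hxy⟩]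
    · intro g _
      obtain ⟨x, ⟨hx1, hx2⟩, -⟩ := htr g
      exact ⟨x, Finset.mem_product.2 ⟨hx1, Finset.mem_univ _⟩, hx2.symm⟩
    · intros; rfl
  obtain ⟨b', hb'⟩ := hB' (i'.hom a') (hom_mem_invariants i' a'.2)
  have hb'2 : B'.ρ.norm b' = i'.hom (m • (a' : A'.V)) := by rw [hb', map_nsmul]
  -- the norm of `lB b'`
  have hN : B.ρ.norm (lB b') = i.hom (m • (a : A.V)) := by
    have h1 : B.ρ.norm (lB b') = ∑ t ∈ tr, B.ρ t (lB (B'.ρ.norm b')) := by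
      have h2 : B.ρ.norm (lB b') = ∑ g, B.ρ g (lB b') := by simp [Representation.norm]
      rw [h2, hsum]
      refine Finset.sum_congr rfl (fun t _ => ?_)
      have h3 : B'.ρ.norm b' = ∑ h, B'.ρ h b' := by simp [Representation.norm]
      rw [h3, map_sum, map_sum]
      refine Finset.sum_congr rfl (fun h _ => ?_)
      rw [hlB, map_mul]
      rfl
    rw [h1, hb'2, hi, ha, Finset.smul_sum, map_sum]
    refine Finset.sum_congr rfl (fun t _ => ?_)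
    simp only [map_nsmul, Rep.hom_comm_apply]
  have hNE : E'.ρ.norm (ε'.hom (q'.hom b')) = 0 := by
    rw [← hom_norm, ← hom_norm, hb'2, hqi', map_zero]
  apply hcancel
  rw [hΦ a (lB b') hN, ← hq, ← he, hP _ hNE, ← hΦ' a' b' hb'2, map_nsmul]

end Low

end Fermat.Agent.CFT.Formation
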