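import Fermat.Agent.CFT.Formation.Defs

/-!
# P3 / CFT, layer L4 (Formation): the contract exported to the Top layer

`FinDuality` is the ONE statement that Formation proves for Top (SPINE v2, (d)+(e), single finite
level).  It is a theorem about finite groups only.

DATA.
* `p` prime, `G` a finite group (NOT assumed to be a `p`-group);
* `(C, σ)` a `p`-class module for `G` (`Triv.IsPClassModule`);
* `U ⊴ G` with **[EX]** `N_U C ⊆ p • C^U`;
* `T` a finite `G`-set on which `U` acts trivially, `V : Rep (ZMod p) G`, `ε : T → V` equivariant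
  and surjective; `R₀ = ℤ[T]`, `R₁ = R1 V ε = ker (ℤ[T] → V)`;
* local data indexed by a finite type `ι`: subgroups `Gw i ≤ G`, `p`-class modules `(Cw i, σw i)`
  for `Gw i`, a `G`-module `J` with `G`-map `π : J → C` which is the product of the modules
  coinduced from the `Cw i` (`pr i : J → Cw i` is `Gw i`-equivariant and
  `x ↦ (i, g ↦ pr i (g • x))` is a bijection onto the families `f i : G → Cw i` with
  `f i (h * g) = h • f i g`), `Gw i`-maps `j i : Cw i → C` such that `π x = j i (pr i x)` for `x`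
  supported at the identity coset of the component `i`, and **[LG]**: on every `p`-subgroup
  `H ≤ Gw i` the cocycles `j i ∘ σw i` and `σ` are cohomologous.

CONCLUSION. There is an additive map `Φ : Hom_G(R₁, C) → Dual (H¹(G, V))` which is
* surjective,
* has kernel exactly the restrictions of `Hom_G(R₀, C)`,
* maps the image of `Hom_G(R₁, J)` (under `π ∘ ·`) onto the annihilator of
  `locTriv V Gw = ker (H¹(G, V) → ∏ i, H¹(Gw i, V))`.

No statement about *which* `Φ` (no pairing formula) is exported.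
-/

set_option autoImplicit false

open CategoryTheory groupCohomology

noncomputable section

namespace Fermat.Agent.CFT.Formation

open Fermat.Agent.CFT.Triv

/-- The finite-level duality statement (SPINE v2, (d)+(e)). -/
def FinDuality : Prop :=
  ∀ (p : ℕ) [Fact p.Prime] (G : Type) [Group G] [Finite G]
    -- the class module
    (C : Rep.{0} ℤ G) (σ : cocycles₂ C) (_ : IsPClassModule p C σ)
    -- the normal subgroup with [EX]
    (U : Subgroup G) [U.Normal]
    (_ : ∀ c : C, ∃ c' : C, (∀ u ∈ U, C.ρ u c' = c') ∧ ∑ᶠ u : U, C.ρ (u : G) c = p • c')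
    -- the presentation
    (T : Type) [Finite T] [MulAction G T] (_ : ∀ u ∈ U, ∀ t : T, u • t = t)
    (V : Rep.{0} (ZMod p) G) (ε : T → V) (_ : ∀ g t, ε (g • t) = V.ρ g (ε t))
    (_ : Function.Surjective ε)
    -- the local data
    (ι : Type) [Finite ι] (Gw : ι → Subgroup G) (Cw : ∀ i, Rep.{0} ℤ (Gw i))
    (σw : ∀ i, cocycles₂ (Cw i)) (_ : ∀ i, IsPClassModule p (Cw i) (σw i))
    (J : Rep.{0} ℤ G) (π : J →+ C) (_ : ∀ g x, π (J.ρ g x) = C.ρ g (π x))
    (pr : ∀ i, J →+ Cw i) (_ : ∀ i (g : Gw i) x, pr i (J.ρ (g : G) x) = (Cw i).ρ g (pr i x))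
    (_ : ∀ x : J, (∀ i g, pr i (J.ρ g x) = 0) → x = 0)
    (_ : ∀ f : ∀ i, G → Cw i, (∀ i (h : Gw i) (g : G), f i ((h : G) * g) = (Cw i).ρ h (f i g)) →
      ∃ x : J, ∀ i g, pr i (J.ρ g x) = f i g)
    (j : ∀ i, Cw i →+ C) (_ : ∀ i (g : Gw i) c, j i ((Cw i).ρ g c) = C.ρ (g : G) (j i c))
    (_ : ∀ i (x : J), (∀ i' g, (i' ≠ i ∨ g ∉ Gw i) → pr i' (J.ρ g x) = 0) → π x = j i (pr i x))
    -- [LG]
    (_ : ∀ i (H : Subgroup (Gw i)), IsPGroup p H → ∃ b : H → C, ∀ g h : H,
      j i (σw i ((g : Gw i), (h : Gw i))) =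
        σ (((g : Gw i) : G), ((h : Gw i) : G)) +
          (C.ρ ((g : Gw i) : G) (b h) - b (g * h) + b g)),
    ∃ Φ : HomG (R1 V ε) C →+ Module.Dual (ZMod p) (groupCohomology.H1 V),
      Function.Surjective Φ ∧
      (∀ a : HomG (R1 V ε) C, Φ a = 0 ↔
        ∃ b : (T →₀ ℤ) →+ C, (∀ g r, b (latAct T g r) = C.ρ g (b r)) ∧
          b.comp (R1 V ε).subtype = (a : R1 V ε →+ C)) ∧
      (∀ φ : Module.Dual (ZMod p) (groupCohomology.H1 V),
        φ ∈ (locTriv V Gw).dualAnnihilator ↔
          ∃ (aJ : R1 V ε →+ J) (a : HomG (R1 V ε) C), aJ ∈ HomG (R1 V ε) J ∧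
            (a : R1 V ε →+ C) = π.comp aJ ∧ Φ a = φ)

end Fermat.Agent.CFT.Formation

end
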