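import Fermat.Agent.CFT.Formation.Plan
import Fermat.Agent.CFT.Triv.Defs
import Fermat.Agent.CFT.Triv.SplitMod

/-!
# P3 / CFT, layer L4 (Formation): the objects used in the proof of `FinDuality`

Real definitions only (no statements).  `G` is a group, `C : Rep ℤ G`.

* `latRep G T : Rep ℤ G` : the permutation lattice `ℤ[T]`;
* `r1Rep V ε hε : Rep ℤ G` : the lattice `R₁ = ker (ℤ[T] → V)`; `r1Incl : r1Rep ⟶ latRep`;
* `eRep V : Rep ℤ G` : the module `E = Hom(V, I_G / p)` in coordinates, i.e. the families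
  `e : G → Dual V` with `∑ g, e g = 0`, with `(a • e) g = e (a⁻¹ g) ∘ a⁻¹`;
  `eFam V : E →+ (G → Dual V)` (the family), `eMk V f hf`.

The augmentation ideal `augRep G`, the splitting module `splitMod C σ` and the internal Hom
`homRep A B` (additive maps, conjugation action) are those of `Triv/SplitMod.lean`, `Triv/Defs.lean`.
The modules of the proof are `homRep R Z` for `R ∈ {latRep G T, r1Rep V ε hε}` and
`Z ∈ {C, splitMod C σ, augRep G}`, and `eRep V`.
-/

set_option autoImplicit false

open CategoryTheory groupCohomology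

noncomputable section

namespace Fermat.Agent.CFT.Formation

open Fermat.Agent.CFT.Triv

variable {G : Type} [Group G]

/-! ## The lattices `ℤ[T]` and `R₁` as representations -/

section Lattice

variable (G) (T : Type) [MulAction G T]

variable {G} in
lemma latAct_one_apply (r : T →₀ ℤ) : latAct T (1 : G) r = r := by
  induction r using Finsupp.induction_linear with
  | zero => simp
  | add x y hx hy => simp only [map_add, hx, hy]
  | single t n => simp

variable {G} in
lemma latAct_mul_apply (g h : G) (r : T →₀ ℤ) : latAct T (g * h) r = latAct T g (latAct T h r) := by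
  induction r using Finsupp.induction_linear with
  | zero => simp
  | add x y hx hy => simp only [map_add, hx, hy]
  | single t n => simp [mul_smul]

/-- The permutation lattice `ℤ[T]` as a representation of `G`. -/
def latRep : Rep.{0} ℤ G :=
  @Rep.of ℤ G _ _ (T →₀ ℤ) _ (AddCommGroup.toIntModule _)
    { toFun := fun g => (latAct T g).toIntLinearMap
      map_one' := by
        ext t
        simp
      map_mul' := fun g h => by
        ext t
        simp [mul_smul] }

@[simp] lemma latRep_ρ_apply (g : G) (r : T →₀ ℤ) :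
    ((latRep G T).ρ g : (T →₀ ℤ) → (T →₀ ℤ)) r = latAct T g r := rfl

variable {G T} {p : ℕ} (V : Rep.{0} (ZMod p) G) (ε : T → V)

lemma aug_latAct (hε : ∀ (g : G) (t : T), ε (g • t) = V.ρ g (ε t)) (g : G) (r : T →₀ ℤ) :
    aug V ε (latAct T g r) = V.ρ g (aug V ε r) := by
  induction r using Finsupp.induction_linear with
  | zero => simp
  | add x y hx hy => simp only [map_add, hx, hy]
  | single t n => rw [latAct_single, aug_single, aug_single, hε, map_zsmul]

lemma latAct_mem_R1 (hε : ∀ (g : G) (t : T), ε (g • t) = V.ρ g (ε t)) (g : G)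
    {r : T →₀ ℤ} (hr : r ∈ R1 V ε) : latAct T g r ∈ R1 V ε := by
  rw [mem_R1_iff] at hr ⊢
  rw [aug_latAct V ε hε, hr, map_zero]

/-- The action of `g` on `R₁`. -/
def r1Act (hε : ∀ (g : G) (t : T), ε (g • t) = V.ρ g (ε t)) (g : G) : R1 V ε →+ R1 V ε where
  toFun r := ⟨latAct T g r, latAct_mem_R1 V ε hε g r.2⟩
  map_zero' := by
    ext1
    simp
  map_add' r r' := by
    ext1
    simp

@[simp] lemma r1Act_coe (hε : ∀ (g : G) (t : T), ε (g • t) = V.ρ g (ε t)) (g : G)
    (r : R1 V ε) : ((r1Act V ε hε g r : R1 V ε) : T →₀ ℤ) = latAct T g r := rfl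

/-- The lattice `R₁ = ker (ℤ[T] → V)` as a representation of `G`. -/
def r1Rep (hε : ∀ (g : G) (t : T), ε (g • t) = V.ρ g (ε t)) : Rep.{0} ℤ G :=
  @Rep.of ℤ G _ _ (R1 V ε) _ (AddCommGroup.toIntModule _)
    { toFun := fun g => (r1Act V ε hε g).toIntLinearMap
      map_one' := by
        refine LinearMap.ext fun r => Subtype.ext ?_
        exact latAct_one_apply T (r : T →₀ ℤ)
      map_mul' := fun g h => by
        refine LinearMap.ext fun r => Subtype.ext ?_
        exact latAct_mul_apply T g h (r : T →₀ ℤ) }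

@[simp] lemma r1Rep_ρ_apply (hε : ∀ (g : G) (t : T), ε (g • t) = V.ρ g (ε t)) (g : G)
    (r : R1 V ε) : ((r1Rep V ε hε).ρ g : R1 V ε → R1 V ε) r = r1Act V ε hε g r := rfl

/-- The inclusion `R₁ ⟶ ℤ[T]`. -/
def r1Incl (hε : ∀ (g : G) (t : T), ε (g • t) = V.ρ g (ε t)) : r1Rep V ε hε ⟶ latRep G T :=
  mkHom (A := r1Rep V ε hε) (B := latRep G T) (R1 V ε).subtype (fun _ _ => rfl)

end Lattice

/-! ## The module `E = Hom(V, I_G / p)` in coordinates -/

section EMod

variable [Fintype G] {p : ℕ} (V : Rep.{0} (ZMod p) G)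

/-- The families `e : G → Dual V` with `∑ g, e g = 0`. -/
def eSub : AddSubgroup (G → Module.Dual (ZMod p) V) where
  carrier := {e | ∑ g : G, e g = 0}
  add_mem' := by
    intro e e' he he'
    change ∑ g : G, e g = 0 at he
    change ∑ g : G, e' g = 0 at he'
    change ∑ g : G, (e + e') g = 0
    simp only [Pi.add_apply, Finset.sum_add_distrib, he, he', add_zero]
  zero_mem' := by simp
  neg_mem' := by
    intro e he
    change ∑ g : G, e g = 0 at he
    change ∑ g : G, (-e) g = 0
    simp only [Pi.neg_apply, Finset.sum_neg_distrib, he, neg_zero]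

lemma mem_eSub_iff (e : G → Module.Dual (ZMod p) V) : e ∈ eSub V ↔ ∑ g : G, e g = 0 := Iff.rfl

/-- The action on families: `(a • e) g = e (a⁻¹ * g) ∘ V.ρ a⁻¹`. -/
def eAct (a : G) : eSub V →+ eSub V where
  toFun e := ⟨fun g => (e.1 (a⁻¹ * g)).comp (V.ρ a⁻¹), by
    have he : ∑ g : G, e.1 g = 0 := e.2
    rw [mem_eSub_iff]
    have h1 : ∑ g : G, (e.1 (a⁻¹ * g)).comp (V.ρ a⁻¹) = (∑ g : G, e.1 (a⁻¹ * g)).comp (V.ρ a⁻¹) := by
      ext v
      simp [LinearMap.sum_apply]
    rw [h1, Fintype.sum_equiv (Equiv.mulLeft a⁻¹) (fun g => e.1 (a⁻¹ * g)) (fun g => e.1 g)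
      (fun _ => rfl), he, LinearMap.zero_comp]⟩
  map_zero' := by
    ext g v
    simp
  map_add' e e' := by
    ext g v
    simp

@[simp] lemma eAct_apply (a : G) (e : eSub V) (g : G) (v : V) :
    (eAct V a e).1 g v = e.1 (a⁻¹ * g) (V.ρ a⁻¹ v) := rfl

/-- `E = Hom(V, I_G / p)` as a representation of `G` over `ℤ`. -/
def eRep : Rep.{0} ℤ G :=
  @Rep.of ℤ G _ _ (eSub V) _ (AddCommGroup.toIntModule _)
    { toFun := fun a => (eAct V a).toIntLinearMap
      map_one' := by
        ext e g v
        simp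
      map_mul' := fun a b => by
        ext e g v
        simp [mul_assoc] }

@[simp] lemma eRep_ρ_apply (a : G) (e : eSub V) :
    ((eRep V).ρ a : eSub V → eSub V) e = eAct V a e := rfl

/-- The underlying family `G → Dual V` of an element of `E`. -/
def eFam : (eRep V).V →+ (G → Module.Dual (ZMod p) V) := (eSub V).subtype

/-- The element of `E` given by a family with sum `0`. -/
def eMk (f : G → Module.Dual (ZMod p) V) (hf : ∑ g : G, f g = 0) : (eRep V).V :=
  (⟨f, hf⟩ : eSub V)

@[simp] lemma eFam_eMk (f : G → Module.Dual (ZMod p) V) (hf : ∑ g : G, f g = 0) :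
    eFam V (eMk V f hf) = f := rfl

lemma sum_eFam (e : (eRep V).V) : ∑ g : G, eFam V e g = 0 := (e : eSub V).2

lemma eFam_injective : Function.Injective (eFam V) := Subtype.val_injective

lemma eFam_ρ (a : G) (e : (eRep V).V) (g : G) (v : V) :
    eFam V ((eRep V).ρ a e) g v = eFam V e (a⁻¹ * g) (V.ρ a⁻¹ v) := rfl

end EMod

end Fermat.Agent.CFT.Formation

end
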