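import Fermat.Agent.CFT.Triv.Provide
import Fermat.Agent.CFT.Coh.TateLow

/-!
# CFT program, layer Formation: the reciprocity count `C^G / N_G C ≃ G^ab` for `p`-groups

For a finite `p`-group `G` and a `p`-class module `(C, σ)` (`Triv.IsPClassModule p C σ`), the
splitting module `X = splitMod C σ` is cohomologically trivial (Tate's theorem, `Triv`), and the
exact sequence `0 → C → X → I_G → 0` gives

  `C^G / N_G C ≃ I_G / I_G² ≃ G^ab`      (`recipEquiv`).

Consequences for `G` abelian of exponent `p` (used by the existence theorem mod `p`, package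
`[EX]`): `[C^G : N_G C] = |G|` and `p · C^G ⊆ N_G C` (`card_quotient_eq`, `nsmul_mem_normSub`,
and the transported form `index_comap_eq`).

Everything is stated with explicit sums `∑ g, C.ρ g c` (no `Representation.norm` on an abstract
`Rep ℤ G`, because of the `ℤ`-module diamond).
-/

set_option autoImplicit false

namespace Fermat.Agent.CFT.Formation.TateCount

open CategoryTheory groupCohomology Fermat.Agent.CFT.Triv

/-! ### `I_G / I_G² ≃ G^ab` -/

section Aug

variable (G : Type) [Group G]

/-- `I_G · I_G` inside `I_G`: the additive subgroup generated by the `g • y - y`, `y ∈ I_G`. -/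
noncomputable def augSq : AddSubgroup (LinearMap.ker (augMap G)) :=
  AddSubgroup.closure {z | ∃ (g : G) (y : LinearMap.ker (augMap G)), z = augRho G g y - y}

/-- `ℤ[G] → G^ab`, `δ_h ↦ [h]`. -/
noncomputable def abMap : (G →₀ ℤ) →+ Additive (Abelianization G) :=
  Finsupp.liftAddHom (fun h =>
    zmultiplesHom (Additive (Abelianization G)) (Additive.ofMul (Abelianization.of h)))

variable {G}

@[simp] lemma abMap_single (h : G) (n : ℤ) :
    abMap G (Finsupp.single h n) = n • Additive.ofMul (Abelianization.of h) := by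
  simp [abMap]

lemma abMap_regRho (g : G) (y : G →₀ ℤ) :
    abMap G (regRho G g y) = abMap G y + augMap G y • Additive.ofMul (Abelianization.of g) := by
  induction y using Finsupp.induction_linear with
  | zero => simp
  | add a b ha hb => simp only [map_add, ha, hb, add_smul]; abel
  | single x n =>
    simp only [regRho_single, abMap_single, augMap_single, map_mul, ofMul_mul, smul_add]
    abel

/-- `δ_h - δ_1 ∈ I_G`. -/
noncomputable def dlt (h : G) : LinearMap.ker (augMap G) :=
  ⟨Finsupp.single h 1 - Finsupp.single 1 1, by simp [LinearMap.mem_ker]⟩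

lemma dlt_coe (h : G) : ((dlt h : LinearMap.ker (augMap G)) : G →₀ ℤ) =
    Finsupp.single h 1 - Finsupp.single 1 1 := rfl

lemma dlt_one : dlt (1 : G) = 0 := by
  apply Subtype.ext
  simp [dlt_coe]

lemma abMap_dlt (h : G) :
    abMap G (dlt h : G →₀ ℤ) = Additive.ofMul (Abelianization.of h) := by
  simp [dlt_coe]

lemma augRho_dlt (g h : G) : augRho G g (dlt h) - dlt h = dlt (g * h) - dlt g - dlt h := by
  apply Subtype.ext
  simp only [AddSubgroupClass.coe_sub, augRho_coe, dlt_coe, map_sub, regRho_single, mul_one]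
  abel

/-- `h ↦ [δ_h - δ_1]` is a homomorphism `G → I_G / I_G²`. -/
noncomputable def sHom (G : Type) [Group G] :
    G →* Multiplicative (LinearMap.ker (augMap G) ⧸ augSq G) where
  toFun h := Multiplicative.ofAdd (QuotientAddGroup.mk (dlt h))
  map_one' := by
    rw [dlt_one]; rfl
  map_mul' g h := by
    rw [← ofAdd_add, ← QuotientAddGroup.mk_add]
    congr 1
    rw [QuotientAddGroup.eq]
    have h1 : augRho G g (dlt h) - dlt h ∈ augSq G :=
      AddSubgroup.subset_closure ⟨g, dlt h, rfl⟩
    have h2 : -dlt (g * h) + (dlt g + dlt h) = -(augRho G g (dlt h) - dlt h) := by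
      rw [augRho_dlt]; abel
    rw [h2]
    exact neg_mem h1

/-- The induced additive map `G^ab → I_G / I_G²`. -/
noncomputable def rMap (G : Type) [Group G] :
    Additive (Abelianization G) →+ (LinearMap.ker (augMap G) ⧸ augSq G) :=
  MonoidHom.toAdditiveLeft (Abelianization.lift (sHom G))

lemma rMap_of (h : G) :
    rMap G (Additive.ofMul (Abelianization.of h)) = QuotientAddGroup.mk (dlt h) := rfl

/-- `ℤ[G] → I_G`, `δ_h ↦ δ_h - δ_1`. -/
noncomputable def psiMap (G : Type) [Group G] : (G →₀ ℤ) →+ LinearMap.ker (augMap G) :=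
  Finsupp.liftAddHom (fun h => zmultiplesHom (LinearMap.ker (augMap G)) (dlt h))

@[simp] lemma psiMap_single (h : G) (n : ℤ) : psiMap G (Finsupp.single h n) = n • dlt h := by
  simp [psiMap]

lemma psiMap_coe (y : G →₀ ℤ) :
    ((psiMap G y : LinearMap.ker (augMap G)) : G →₀ ℤ) = y - augMap G y • Finsupp.single 1 1 := by
  induction y using Finsupp.induction_linear with
  | zero => simp
  | add a b ha hb =>
    simp only [map_add, Submodule.coe_add, ha, hb, add_smul]; abel
  | single x n =>
    simp only [psiMap_single, augMap_single, Submodule.coe_smul, dlt_coe, smul_sub,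
      Finsupp.smul_single, smul_eq_mul, mul_one]

lemma psiMap_of_mem (y : LinearMap.ker (augMap G)) : psiMap G (y : G →₀ ℤ) = y := by
  apply Subtype.ext
  rw [psiMap_coe]
  have hy : augMap G (y : G →₀ ℤ) = 0 := y.2
  rw [hy, zero_smul, sub_zero]

lemma rMap_abMap (y : G →₀ ℤ) :
    rMap G (abMap G y) = QuotientAddGroup.mk (psiMap G y) := by
  induction y using Finsupp.induction_linear with
  | zero => simp
  | add a b ha hb => simp only [map_add, ha, hb, QuotientAddGroup.mk_add]
  | single x n =>
    rw [abMap_single, map_zsmul, rMap_of, psiMap_single, QuotientAddGroup.mk_zsmul]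

/-- The kernel of `I_G → G^ab` is `I_G²`. -/
theorem abMap_eq_zero_iff (y : LinearMap.ker (augMap G)) :
    abMap G (y : G →₀ ℤ) = 0 ↔ y ∈ augSq G := by
  constructor
  · intro h
    have h1 := rMap_abMap (y : G →₀ ℤ)
    rw [h, map_zero, psiMap_of_mem] at h1
    exact (QuotientAddGroup.eq_zero_iff y).mp h1.symm
  · intro h
    refine AddSubgroup.closure_induction
      (p := fun (z : LinearMap.ker (augMap G)) _ => abMap G (z : G →₀ ℤ) = 0) ?_ ?_ ?_ ?_ h
    · rintro z ⟨g, y', rfl⟩
      have hy' : augMap G (y' : G →₀ ℤ) = 0 := y'.2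
      simp only [AddSubgroupClass.coe_sub, augRho_coe, map_sub, abMap_regRho, hy', zero_smul,
        add_zero, sub_self]
    · simp
    · intro a b _ _ ha hb
      simp only [Submodule.coe_add, map_add, ha, hb, add_zero]
    · intro a _ ha
      simp only [NegMemClass.coe_neg, map_neg, ha, neg_zero]

theorem abMap_surjective (a : Additive (Abelianization G)) :
    ∃ y : LinearMap.ker (augMap G), abMap G (y : G →₀ ℤ) = a := by
  obtain ⟨h, rfl⟩ := QuotientGroup.mk_surjective (Additive.toMul a)
  exact ⟨dlt h, abMap_dlt h⟩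

end Aug

/-! ### The norm on the splitting module -/

section Norm

variable {G : Type} [Group G] [Fintype G]

lemma sum_regRho (y : G →₀ ℤ) :
    ∑ g : G, regRho G g y = augMap G y • ∑ g : G, Finsupp.single g (1 : ℤ) := by
  induction y using Finsupp.induction_linear with
  | zero => simp
  | add a b ha hb => simp only [map_add, Finset.sum_add_distrib, ha, hb, add_smul]
  | single x n =>
    simp only [regRho_single, augMap_single, Finset.smul_sum, Finsupp.smul_single, smul_eq_mul,
      mul_one]
    exact Fintype.sum_equiv (Equiv.mulRight x) _ _ (fun g => rfl)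

lemma sum_augRho (y : LinearMap.ker (augMap G)) : ∑ g : G, augRho G g y = 0 := by
  apply Subtype.ext
  have hy : augMap G (y : G →₀ ℤ) = 0 := y.2
  rw [AddSubmonoidClass.coe_finsetSum]
  simp only [augRho_coe]
  rw [sum_regRho, hy, zero_smul]
  rfl

variable (C : Rep.{0} ℤ G) (σ : cocycles₂ C)

/-- The Nakayama map `I_G → C`, `y ↦ ∑_g φ_g(y)` (`δ_h - δ_1 ↦ ∑_g (σ(g,h) - σ(g,1))`). -/
noncomputable def nak : LinearMap.ker (augMap G) →+ C.V :=
  ∑ g : G, (splitPhi C σ g).toAddMonoidHom.comp
    (LinearMap.ker (augMap G)).subtype.toAddMonoidHom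

lemma nak_apply (y : LinearMap.ker (augMap G)) :
    nak C σ y = ∑ g : G, splitPhi C σ g (y : G →₀ ℤ) := by
  simp [nak]

lemma splitNorm_apply (c : C.V) (y : LinearMap.ker (augMap G)) :
    (splitMod C σ).ρ.norm (c, y) = (∑ g : G, C.ρ g c + nak C σ y, 0) := by
  rw [Representation.norm, LinearMap.sum_apply]
  refine Prod.ext ?_ ?_
  · rw [Prod.fst_sum]
    simp only [splitRho_apply, Finset.sum_add_distrib, nak_apply]
  · rw [Prod.snd_sum]
    simp only [splitRho_apply]
    exact sum_augRho y

/-- `ν(g • y - y) = - N(φ_g y)`. -/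
lemma nak_augRho_sub (g : G) (y : LinearMap.ker (augMap G)) :
    nak C σ (augRho G g y - y) = -∑ h : G, C.ρ h (splitPhi C σ g (y : G →₀ ℤ)) := by
  rw [map_sub, nak_apply, nak_apply]
  simp only [augRho_coe, splitPhi_augRho, Finset.sum_sub_distrib]
  have h1 : ∑ h : G, splitPhi C σ (h * g) (y : G →₀ ℤ) = ∑ h : G, splitPhi C σ h (y : G →₀ ℤ) :=
    Fintype.sum_equiv (Equiv.mulRight g) _ _ (fun h => rfl)
  rw [h1]; abel

end Norm

/-! ### The reciprocity isomorphism -/

section Main

variable {G : Type} [Group G] [Fintype G]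

/-- The invariants `C^G` as an additive subgroup. -/
def invSub (C : Rep.{0} ℤ G) : AddSubgroup C.V where
  carrier := {c | ∀ g : G, C.ρ g c = c}
  zero_mem' := fun g => map_zero _
  add_mem' := fun {a b} ha hb g => by rw [map_add, ha g, hb g]
  neg_mem' := fun {a} ha g => by rw [map_neg, ha g]

omit [Fintype G] in
lemma mem_invSub {C : Rep.{0} ℤ G} {c : C.V} : c ∈ invSub C ↔ ∀ g : G, C.ρ g c = c := Iff.rfl

/-- The norm `c ↦ ∑ g, C.ρ g c` as an additive map. -/
noncomputable def normAdd (C : Rep.{0} ℤ G) : C.V →+ C.V := ∑ g : G, (C.ρ g).toAddMonoidHom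

lemma normAdd_apply (C : Rep.{0} ℤ G) (c : C.V) : normAdd C c = ∑ g : G, C.ρ g c := by
  simp [normAdd]

/-- The norms `N_G C` as an additive subgroup. -/
noncomputable def normSub (C : Rep.{0} ℤ G) : AddSubgroup C.V := (normAdd C).range

lemma mem_normSub {C : Rep.{0} ℤ G} {c : C.V} :
    c ∈ normSub C ↔ ∃ c' : C.V, ∑ g : G, C.ρ g c' = c := by
  simp only [normSub, AddMonoidHom.mem_range, normAdd_apply]

lemma normSub_le_invSub (C : Rep.{0} ℤ G) : normSub C ≤ invSub C := by
  intro c hc h
  obtain ⟨c', rfl⟩ := mem_normSub.mp hc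
  rw [map_sum]
  refine Fintype.sum_equiv (Equiv.mulLeft h) _ _ (fun g => ?_)
  simp [map_mul]

/-- The values of the Nakayama map are invariant. -/
theorem nak_mem_invSub (C : Rep.{0} ℤ G) (σ : cocycles₂ C) (y : LinearMap.ker (augMap G)) :
    nak C σ y ∈ invSub C := by
  intro h
  have hn : (splitMod C σ).ρ h ((splitMod C σ).ρ.norm ((0 : C.V), y)) =
      (splitMod C σ).ρ.norm ((0 : C.V), y) := by
    have := Representation.self_norm_apply (splitMod C σ).ρ h ((0 : C.V), y)
    exact this
  rw [splitNorm_apply] at hn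
  have h1 := congrArg Prod.fst hn
  rw [splitMod_ρ_fst] at h1
  simpa using h1

variable {p : ℕ} [Fact p.Prime]

/-- The splitting module of a `p`-class module of a `p`-group is cohomologically trivial. -/
theorem split_cohTrivial (hG : IsPGroup p G) (C : Rep.{0} ℤ G) (σ : cocycles₂ C)
    (hσ : IsPClassModule p C σ) : IsCohTrivial (splitMod C σ) := by
  obtain ⟨hH1, hH2⟩ := Provide.splitVanish G C σ G (MonoidHom.id G) Function.injective_id
    (hσ G (MonoidHom.id G) Function.injective_id hG)
  have ht1 : Limits.IsZero (tateCohomology (splitMod C σ) 1) :=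
    Limits.IsZero.of_iso hH1 ((TateCohomology.isoGroupCohomology 1).app _)
  have ht2 : Limits.IsZero (tateCohomology (splitMod C σ) (1 + 1)) :=
    Limits.IsZero.of_iso hH2 ((TateCohomology.isoGroupCohomology 2).app _)
  exact Provide.twinPGroup p G hG _ 1 ht1 ht2

variable (hG : IsPGroup p G) (C : Rep.{0} ℤ G) (σ : cocycles₂ C) (hσ : IsPClassModule p C σ)

include hG hσ

/-- `Ĥ⁰(G, X) = 0`: every invariant of `C` is a norm plus a value of the Nakayama map. -/
theorem exists_eq_norm_add_nak (c : C.V) (hc : c ∈ invSub C) :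
    ∃ (c' : C.V) (y : LinearMap.ker (augMap G)), c = ∑ g : G, C.ρ g c' + nak C σ y := by
  have h0 : Limits.IsZero (tateCohomology (splitMod C σ) 0) :=
    split_cohTrivial hG C σ hσ G (MonoidHom.id G) Function.injective_id 0
  have h1 := (TateLow.isZero_tateCohomology_zero_iff (splitMod C σ)).mp h0
  have hinv : ((c, 0) : C.V × LinearMap.ker (augMap G)) ∈ (splitMod C σ).ρ.invariants := by
    intro g
    refine Prod.ext ?_ ?_
    · rw [splitMod_ρ_fst]; simp [mem_invSub.mp hc g]
    · rw [splitMod_ρ_snd]; simp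
  obtain ⟨⟨c', y⟩, hb⟩ := h1 _ hinv
  rw [splitNorm_apply] at hb
  exact ⟨c', y, (congrArg Prod.fst hb).symm⟩

/-- `Ĥ⁻¹(G, X) = 0`: the Nakayama map takes a norm value exactly on `I_G²`. -/
theorem nak_mem_normSub_iff (y : LinearMap.ker (augMap G)) :
    nak C σ y ∈ normSub C ↔ y ∈ augSq G := by
  constructor
  · intro h
    obtain ⟨c', hc'⟩ := mem_normSub.mp h
    have hm : Limits.IsZero (tateCohomology (splitMod C σ) (-1)) :=
      split_cohTrivial hG C σ hσ G (MonoidHom.id G) Function.injective_id (-1)
    have h1 := (TateLow.isZero_tateCohomology_negOne_iff (splitMod C σ)).mp hm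
    have hz : (splitMod C σ).ρ.norm ((-c', y) : C.V × LinearMap.ker (augMap G)) = 0 := by
      rw [splitNorm_apply]
      refine Prod.ext ?_ rfl
      simp only [map_neg, Finset.sum_neg_distrib, hc', Prod.fst_zero]
      abel
    have h2 := h1 _ hz
    -- project `I_G · X` to `I_G`
    have key : ∀ x ∈ Representation.Coinvariants.ker (splitMod C σ).ρ,
        (x : C.V × LinearMap.ker (augMap G)).2 ∈ augSq G := by
      intro x hx
      refine Submodule.span_induction (p := fun x _ =>
        (x : C.V × LinearMap.ker (augMap G)).2 ∈ augSq G) ?_ ?_ ?_ ?_ hx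
      · rintro _ ⟨⟨g, x'⟩, rfl⟩
        exact AddSubgroup.subset_closure ⟨g, x'.2, rfl⟩
      · exact zero_mem _
      · intro a b _ _ ha hb
        exact add_mem ha hb
      · intro n a _ ha
        exact zsmul_mem ha n
    exact key _ h2
  · intro h
    refine AddSubgroup.closure_induction
      (p := fun (z : LinearMap.ker (augMap G)) _ => nak C σ z ∈ normSub C) ?_ ?_ ?_ ?_ h
    · rintro z ⟨g, y', rfl⟩
      rw [nak_augRho_sub]
      exact neg_mem (mem_normSub.mpr ⟨_, rfl⟩)
    · rw [map_zero]; exact zero_mem _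
    · intro a b _ _ ha hb
      rw [map_add]; exact add_mem ha hb
    · intro a _ ha
      rw [map_neg]; exact neg_mem ha

/-- The Nakayama map with values in `C^G / N_G C`. -/
noncomputable def nakQuot :
    LinearMap.ker (augMap G) →+ (invSub C ⧸ (normSub C).addSubgroupOf (invSub C)) :=
  (QuotientAddGroup.mk' _).comp
    ((nak C σ).codRestrict (invSub C) (nak_mem_invSub C σ))

theorem nakQuot_surjective : Function.Surjective (nakQuot C σ) := by
  intro x
  obtain ⟨⟨c, hc⟩, rfl⟩ := QuotientAddGroup.mk_surjective x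
  obtain ⟨c', y, hcy⟩ := exists_eq_norm_add_nak hG C σ hσ c hc
  refine ⟨y, ?_⟩
  show QuotientAddGroup.mk _ = QuotientAddGroup.mk _
  rw [QuotientAddGroup.eq, AddSubgroup.mem_addSubgroupOf]
  show -(nak C σ y) + c ∈ normSub C
  rw [hcy]
  exact mem_normSub.mpr ⟨c', by abel⟩

theorem nakQuot_ker : (nakQuot C σ).ker = augSq G := by
  ext y
  rw [AddMonoidHom.mem_ker, ← nak_mem_normSub_iff hG C σ hσ y]
  show QuotientAddGroup.mk _ = 0 ↔ _
  rw [QuotientAddGroup.eq_zero_iff, AddSubgroup.mem_addSubgroupOf]
  rfl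

omit hG hσ

/-- `I_G → G^ab`. -/
noncomputable def abAug (G : Type) [Group G] :
    LinearMap.ker (augMap G) →+ Additive (Abelianization G) :=
  (abMap G).comp (LinearMap.ker (augMap G)).subtype.toAddMonoidHom

omit [Fintype G] in
lemma abAug_surjective : Function.Surjective (abAug G) := fun a => abMap_surjective a

omit [Fintype G] in
lemma abAug_ker : (abAug G).ker = augSq G := by
  ext y
  exact abMap_eq_zero_iff y

/-- **Reciprocity count**: `C^G / N_G C ≃ G^ab` for a `p`-class module of a finite `p`-group. -/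
noncomputable def recipEquiv (hG : IsPGroup p G) (C : Rep.{0} ℤ G) (σ : cocycles₂ C)
    (hσ : IsPClassModule p C σ) :
    (invSub C ⧸ (normSub C).addSubgroupOf (invSub C)) ≃+ Additive (Abelianization G) :=
  (QuotientAddGroup.quotientKerEquivOfSurjective _ (nakQuot_surjective hG C σ hσ)).symm.trans
    ((QuotientAddGroup.quotientAddEquivOfEq
      ((nakQuot_ker hG C σ hσ).trans abAug_ker.symm)).trans
      (QuotientAddGroup.quotientKerEquivOfSurjective (abAug G) abAug_surjective))

/-! ### Consequences for abelian groups of exponent `p` -/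

omit [Fintype G] in
lemma card_abelianization_of_comm (hcomm : ∀ a b : G, a * b = b * a) :
    Nat.card (Abelianization G) = Nat.card G := by
  refine (Nat.card_congr (Equiv.ofBijective (Abelianization.of (G := G)) ⟨?_, ?_⟩)).symm
  · rw [injective_iff_map_eq_one]
    intro a ha
    have h1 : a ∈ (Abelianization.of (G := G)).ker := ha
    rw [Abelianization.ker_of, commutator_eq_closure] at h1
    have h2 : Subgroup.closure (commutatorSet G) = ⊥ := by
      rw [Subgroup.closure_eq_bot_iff]
      rintro x ⟨g, h, rfl⟩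
      rw [Set.mem_singleton_iff, commutatorElement_def, hcomm g h]
      group
    rw [h2] at h1
    exact h1
  · exact QuotientGroup.mk_surjective

/-- `[C^G : N_G C] = |G|` for `G` abelian. -/
theorem card_quotient_eq (hG : IsPGroup p G) (C : Rep.{0} ℤ G) (σ : cocycles₂ C)
    (hσ : IsPClassModule p C σ) (hcomm : ∀ a b : G, a * b = b * a) :
    Nat.card (invSub C ⧸ (normSub C).addSubgroupOf (invSub C)) = Nat.card G := by
  rw [Nat.card_congr (recipEquiv hG C σ hσ).toEquiv]
  exact card_abelianization_of_comm hcomm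

/-- `n · C^G ⊆ N_G C` for `G` of exponent dividing `n`. -/
theorem nsmul_mem_normSub (hG : IsPGroup p G) (C : Rep.{0} ℤ G) (σ : cocycles₂ C)
    (hσ : IsPClassModule p C σ) (n : ℕ) (hexp : ∀ a : G, a ^ n = 1) (c : C.V)
    (hc : c ∈ invSub C) : n • c ∈ normSub C := by
  have h1 : n • (recipEquiv hG C σ hσ) (QuotientAddGroup.mk ⟨c, hc⟩) = 0 := by
    generalize (recipEquiv hG C σ hσ) (QuotientAddGroup.mk ⟨c, hc⟩) = a
    obtain ⟨h, rfl⟩ := QuotientGroup.mk_surjective (Additive.toMul a)
    show Additive.ofMul ((QuotientGroup.mk h : Abelianization G) ^ n) = 0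
    rw [← QuotientGroup.mk_pow, hexp h]
    rfl
  rw [← map_nsmul, AddEquiv.map_eq_zero_iff, ← QuotientAddGroup.mk_nsmul,
    QuotientAddGroup.eq_zero_iff, AddSubgroup.mem_addSubgroupOf] at h1
  exact h1

/-- **Transported form** (for Galois descent `ι : C(K) → C(L)`, image `= C(L)^G`): the subgroup
of the elements of `A` whose image is a norm has index `|G|` and contains `p · A`, for `G`
abelian of exponent `p`. -/
theorem index_comap_eq (hG : IsPGroup p G) (C : Rep.{0} ℤ G) (σ : cocycles₂ C)
    (hσ : IsPClassModule p C σ) (hcomm : ∀ a b : G, a * b = b * a) (hexp : ∀ a : G, a ^ p = 1)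
    {A : Type} [AddCommGroup A] (ι : A →+ C.V)
    (hrange : ∀ c : C.V, (∀ g : G, C.ρ g c = c) ↔ ∃ a : A, ι a = c) :
    ((normSub C).comap ι).index = Nat.card G ∧ ∀ a : A, p • a ∈ (normSub C).comap ι := by
  have hmem : ∀ a : A, ι a ∈ invSub C := fun a => (hrange (ι a)).mpr ⟨a, rfl⟩
  refine ⟨?_, fun a => ?_⟩
  · let ι' : A →+ invSub C := ι.codRestrict (invSub C) hmem
    have hsurj : Function.Surjective ι' := by
      rintro ⟨c, hc⟩
      obtain ⟨a, rfl⟩ := (hrange c).mp hc
      exact ⟨a, rfl⟩
    have hcomap : (normSub C).comap ι = ((normSub C).addSubgroupOf (invSub C)).comap ι' := by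
      ext a
      rfl
    rw [hcomap, AddSubgroup.index_comap_of_surjective _ hsurj, AddSubgroup.index,
      card_quotient_eq hG C σ hσ hcomm]
  · rw [AddSubgroup.mem_comap, map_nsmul]
    exact nsmul_mem_normSub hG C σ hσ p hexp (ι a) (hmem a)

end Main

end Fermat.Agent.CFT.Formation.TateCount
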